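/-
MLT / [L1] case (C) (helper9), part 4: **the arithmetic of the levels for a general `Smin`** (the analogue of
`Lib/Ihara/Grp/{Inst,Arith,Lower}.lean`, where `Smin = {2, p}`, `2 ∣ N` and `Tc` = the odd primes of `N`).

Setting: `N` squarefree, `p ∤ N`, `Smin ∋ p` a finite set of primes whose elements `≠ p` divide `N`,
`Tc` = the primes of `N` outside `Smin` (all `≡ 1 mod p`), `qv` the Taylor–Wiles primes (outside
`S ⊇ Smin ∪ Tc`, all `≡ 1 mod p`), `M = N · ∏ qv i`, `N' = M · ∏ Rl`.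

* `mlti_not_dvd_of_notMem`, `mlti_data_of_modular`, `mlti_seven_le`;
* `mlti_arith` : the hypotheses `hM`, `hMsq`, `hne`, `hS`, `hpN'`, `hSmin` of helper7's `ihk_hecke`;
* `mlti_lower` : the lower level `Nm = (N / q₀) ∏ qv i` at `q₀ ∈ Tc`; it is `≥ 6`, or the family without `q₀`
  is empty (then `Hm = ⊤` and there is no Taylor–Wiles prime).
-/
import Mathlib
import Fermat.Agent.Lib.Ihara.Grp.Lower

set_option autoImplicit false
set_option linter.unusedSectionVars false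
set_option linter.unusedVariables false
set_option linter.style.haveILetI false

open Fermat.Agent.Ihara

namespace Fermat.Agent.MLT

section Arith

variable {p N r : ℕ} (Tc : Finset Nat.Primes) (qv : Fin r → ℕ) (Smin : Finset ℕ)

/-- the primes of `N` lie in `S`, so the Taylor–Wiles primes (outside `S`) do not divide `N` -/
theorem mlti_not_dvd_of_notMem (hTc : ∀ v : Nat.Primes, v ∈ Tc ↔ (v : ℕ) ∣ N ∧ (v : ℕ) ∉ Smin)
    (S : Finset ℕ) (hSminS : Smin ⊆ S) (hTcS : ∀ v ∈ Tc, (v : ℕ) ∈ S) {q : ℕ} (hq : q.Prime)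
    (hqS : q ∉ S) : ¬ q ∣ N := by
  intro hqN
  by_cases h2 : q ∈ Smin
  · exact hqS (hSminS h2)
  · exact hqS (hTcS ⟨q, hq⟩ ((hTc ⟨q, hq⟩).2 ⟨hqN, h2⟩))

/-- **the data at level `M_n`** -/
theorem mlti_data_of_modular (hTc : ∀ v : Nat.Primes, v ∈ Tc ↔ (v : ℕ) ∣ N ∧ (v : ℕ) ∉ Smin)
    (S : Finset ℕ) (hSminS : Smin ⊆ S) (hTcS : ∀ v ∈ Tc, (v : ℕ) ∈ S)
    (hqinj : Function.Injective qv) (hqv : ∀ i, (qv i).Prime ∧ qv i ∉ S) :
    IhqData (N * ∏ i, qv i) (ihqPrimes Tc qv) (ihqOrders Tc qv p) :=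
  ihq_data_sum Tc qv (fun v => ((hTc v).1 v.2).1) hqinj (fun i => (hqv i).1)
    (fun i => mlti_not_dvd_of_notMem Tc Smin hTc S hSminS hTcS (hqv i).1 (hqv i).2)

/-- a prime `q ≡ 1 mod p`, `p` an odd prime, is `≥ 7` -/
theorem mlti_seven_le (hp : p.Prime) (hp2 : p ≠ 2) {q : ℕ} (hq : q.Prime) (h1 : p ∣ q - 1) :
    7 ≤ q := by
  have hp3 : 3 ≤ p := by
    have := hp.two_le
    omega
  have hq2 := hq.two_le
  have hpos : 0 < q - 1 := by omega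
  have hple : p ≤ q - 1 := Nat.le_of_dvd hpos h1
  -- `q ≥ 4`, so `q` is odd
  have hqodd : q % 2 = 1 := by
    rcases hq.eq_two_or_odd with h | h
    · omega
    · exact h
  -- `q - 1` is even and divisible by the odd `p`
  have h2 : 2 ∣ q - 1 := by omega
  have hcop : Nat.Coprime 2 p := (Nat.coprime_primes Nat.prime_two hp).mpr (Ne.symm hp2)
  have h2p : 2 * p ∣ q - 1 := hcop.mul_dvd_of_dvd_of_dvd h2 h1
  have := Nat.le_of_dvd hpos h2p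
  omega

/-- **the arithmetic of the levels under the hypotheses of `MltIModular`** -/
theorem mlti_arith (hp : p.Prime) (hp2 : p ≠ 2) (hN0 : 0 < N) (hNsq : Squarefree N)
    (hpN : ¬ p ∣ N) (hpSmin : p ∈ Smin) (hSminN : ∀ q ∈ Smin, q ≠ p → q ∣ N)
    (hTc : ∀ v : Nat.Primes, v ∈ Tc ↔ (v : ℕ) ∣ N ∧ (v : ℕ) ∉ Smin)
    (S : Finset ℕ) (hS : Smin ⊆ S) (hTcS : ∀ v ∈ Tc, (v : ℕ) ∈ S)
    (hqinj : Function.Injective qv) (hqv : ∀ i, (qv i).Prime ∧ qv i ∉ S) (q₀ : ↥Tc)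
    (hq₀1 : p ∣ ((q₀ : Nat.Primes) : ℕ) - 1) :
    0 < N * ∏ i, qv i ∧ 6 ≤ N * ∏ i, qv i ∧ Squarefree (N * ∏ i, qv i) ∧
    ¬ p ∣ N * ∏ i, qv i ∧
    ihqRl Tc qv ≠ [] ∧
    0 < N * (∏ i, qv i) * (ihqRl Tc qv).prod ∧
    ¬ p ∣ N * (∏ i, qv i) * (ihqRl Tc qv).prod ∧
    (∀ l : ℕ, l.Prime → l ∣ N * (∏ i, qv i) * (ihqRl Tc qv).prod →
      l ∈ Smin ∪ ihgNat Tc ∪ Finset.univ.image qv) ∧
    (∀ q ∈ Smin, q.Prime → q ≠ p →
      q ∣ N * (∏ i, qv i) * (ihqRl Tc qv).prod ∧ ¬ q ^ 2 ∣ N * (∏ i, qv i) * (ihqRl Tc qv).prod) ∧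
    (∀ l : ℕ, l.Prime → l ∉ Smin ∪ ihgNat Tc ∪ Finset.univ.image qv → ¬ l ∣ N ∧ l ≠ p) ∧
    (∀ i, ¬ qv i ∣ N ∧ qv i ≠ p ∧ qv i ∉ Smin) ∧
    (∀ v : ↥Tc, ((v : Nat.Primes) : ℕ) ∣ N ∧ ((v : Nat.Primes) : ℕ) ≠ p ∧
      ((v : Nat.Primes) : ℕ) ∉ Smin) := by
  classical
  have hpS : p ∈ S := hS hpSmin
  have hqprime : ∀ i, (qv i).Prime := fun i => (hqv i).1
  have hqN : ∀ i, ¬ qv i ∣ N := fun i =>
    mlti_not_dvd_of_notMem Tc Smin hTc S hS hTcS (hqv i).1 (hqv i).2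
  have hqSmin : ∀ i, qv i ∉ Smin := fun i h => (hqv i).2 (hS h)
  have hqp : ∀ i, qv i ≠ p := fun i h => (hqv i).2 (h ▸ hpS)
  have hprodpos : 0 < ∏ i, qv i := Finset.prod_pos fun i _ => (hqprime i).pos
  have hMpos : 0 < N * ∏ i, qv i := Nat.mul_pos hN0 hprodpos
  have hMsq : Squarefree (N * ∏ i, qv i) := ihq_squarefree_level qv hNsq hqinj hqprime hqN
  -- the primes of `Tc`
  have hTcN : ∀ v : ↥Tc, ((v : Nat.Primes) : ℕ) ∣ N := fun v => ((hTc v).1 v.2).1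
  have hTcSmin : ∀ v : ↥Tc, ((v : Nat.Primes) : ℕ) ∉ Smin := fun v => ((hTc v).1 v.2).2
  have hTcp : ∀ v : ↥Tc, ((v : Nat.Primes) : ℕ) ≠ p := fun v h => hpN (h ▸ hTcN v)
  -- `6 ≤ M`
  have h7 : 7 ≤ ((q₀ : Nat.Primes) : ℕ) := mlti_seven_le hp hp2 (q₀ : Nat.Primes).2 hq₀1
  have h6N : 6 ≤ N := by
    have := Nat.le_of_dvd hN0 (hTcN q₀)
    omega
  have h6 : 6 ≤ N * ∏ i, qv i := le_trans h6N (Nat.le_mul_of_pos_right N hprodpos)
  -- `p ∤ M`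
  have hpprod : ¬ p ∣ ∏ i, qv i := by
    intro h
    obtain ⟨i, hi⟩ := ihq_prime_dvd_prod qv hqprime hp h
    exact hqp i hi
  have hpM : ¬ p ∣ N * ∏ i, qv i := by
    intro h
    rcases (Nat.Prime.dvd_mul hp).mp h with h | h
    · exact hpN h
    · exact hpprod h
  -- `Rl`
  have hRlne : ihqRl Tc qv ≠ [] := List.ne_nil_of_mem (ihq_mem_Rl_inl Tc qv q₀)
  have hRlprod := ihqRl_prod Tc qv
  have hTcprodpos : 0 < ∏ v : ↥Tc, ((v : Nat.Primes) : ℕ) :=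
    Finset.prod_pos fun v _ => (v : Nat.Primes).2.pos
  have hRlpos : 0 < (ihqRl Tc qv).prod := by
    rw [hRlprod]
    exact Nat.mul_pos hTcprodpos hprodpos
  have hN'pos : 0 < N * (∏ i, qv i) * (ihqRl Tc qv).prod := Nat.mul_pos hMpos hRlpos
  have hpTcprod : ¬ p ∣ ∏ v : ↥Tc, ((v : Nat.Primes) : ℕ) := by
    intro h
    obtain ⟨v, -, hv⟩ := (Prime.dvd_finsetProd_iff hp.prime _).mp h
    exact hTcp v ((Nat.prime_dvd_prime_iff_eq hp (v : Nat.Primes).2).mp hv).symm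
  have hpRl : ¬ p ∣ (ihqRl Tc qv).prod := by
    rw [hRlprod]
    intro h
    rcases (Nat.Prime.dvd_mul hp).mp h with h | h
    · exact hpTcprod h
    · exact hpprod h
  have hpN' : ¬ p ∣ N * (∏ i, qv i) * (ihqRl Tc qv).prod := by
    intro h
    rcases (Nat.Prime.dvd_mul hp).mp h with h | h
    · exact hpM h
    · exact hpRl h
  -- a prime of `Smin` does not divide `Rl.prod`
  have hSminRl : ∀ q ∈ Smin, q.Prime → ¬ q ∣ (ihqRl Tc qv).prod := by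
    intro q hqS hqpr
    rw [hRlprod]
    intro h
    rcases (Nat.Prime.dvd_mul hqpr).mp h with h | h
    · obtain ⟨v, -, hv⟩ := (Prime.dvd_finsetProd_iff hqpr.prime _).mp h
      have h1 : q = ((v : Nat.Primes) : ℕ) := (Nat.prime_dvd_prime_iff_eq hqpr (v : Nat.Primes).2).mp hv
      exact hTcSmin v (h1 ▸ hqS)
    · obtain ⟨i, hi⟩ := ihq_prime_dvd_prod qv hqprime hqpr h
      exact hqSmin i (hi ▸ hqS)
  -- the primes of `N`
  have hprimeN : ∀ l : ℕ, l.Prime → l ∣ N → l ∈ Smin ∨ l ∈ ihgNat Tc := by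
    intro l hl hlN
    by_cases h : l ∈ Smin
    · exact Or.inl h
    · right
      have : (⟨l, hl⟩ : Nat.Primes) ∈ Tc := (hTc ⟨l, hl⟩).2 ⟨hlN, h⟩
      exact (mem_ihgNat (v := ⟨l, hl⟩)).2 this
  refine ⟨hMpos, h6, hMsq, hpM, hRlne, hN'pos, hpN', ?_, ?_, ?_,
    fun i => ⟨hqN i, hqp i, hqSmin i⟩, fun v => ⟨hTcN v, hTcp v, hTcSmin v⟩⟩
  · intro l hl hlN'
    rw [Finset.mem_union, Finset.mem_union]
    rcases (Nat.Prime.dvd_mul hl).mp hlN' with h | h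
    · rcases (Nat.Prime.dvd_mul hl).mp h with h | h
      · exact Or.inl (hprimeN l hl h)
      · obtain ⟨i, hi⟩ := ihq_prime_dvd_prod qv hqprime hl h
        exact Or.inr (Finset.mem_image.mpr ⟨i, Finset.mem_univ i, hi⟩)
    · rw [hRlprod] at h
      rcases (Nat.Prime.dvd_mul hl).mp h with h | h
      · exact Or.inl (Or.inr (ihq_prime_dvd_prod_Tc Tc hl h))
      · obtain ⟨i, hi⟩ := ihq_prime_dvd_prod qv hqprime hl h
        exact Or.inr (Finset.mem_image.mpr ⟨i, Finset.mem_univ i, hi⟩)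
  · intro q hq hqprime' hqp'
    refine ⟨Dvd.dvd.mul_right (Dvd.dvd.mul_right (hSminN q hq hqp') _) _, ?_⟩
    intro h4
    have hcop : Nat.Coprime (q ^ 2) (ihqRl Tc qv).prod :=
      Nat.Coprime.pow_left 2 ((Nat.Prime.coprime_iff_not_dvd hqprime').mpr (hSminRl q hq hqprime'))
    have h4M : q ^ 2 ∣ N * ∏ i, qv i := hcop.dvd_of_dvd_mul_right h4
    have := Nat.squarefree_iff_prime_squarefree.mp hMsq q hqprime'
    exact this (by rwa [← pow_two])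
  · intro l hl hlS
    rw [Finset.mem_union, Finset.mem_union, not_or, not_or] at hlS
    obtain ⟨⟨h1, h2⟩, -⟩ := hlS
    refine ⟨fun hlN => ?_, fun h => h1 (h ▸ hpSmin)⟩
    rcases hprimeN l hl hlN with h | h
    · exact h1 h
    · exact h2 h

end Arith

section Lower

variable {p N r : ℕ} (Tc : Finset Nat.Primes) (qv : Fin r → ℕ) (Smin : Finset ℕ)

/-- the kernel of `κ` for an empty family is everything -/
theorem mlti_kappa_ker_eq_top {ι : Type*} [IsEmpty ι] {M : ℕ} {q m : ι → ℕ} (h : IhqData M q m) :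
    (ihqKappa h).ker = ⊤ := by
  rw [eq_top_iff]
  intro d _
  rw [MonoidHom.mem_ker]
  apply Multiplicative.toAdd.injective
  funext i
  exact isEmptyElim i

/-- **the lower level at `q₀ ∈ Tc`** -/
theorem mlti_lower (hp : p.Prime) (hp5 : 5 ≤ p) (hN0 : 0 < N) (hNsq : Squarefree N)
    (hTc : ∀ v : Nat.Primes, v ∈ Tc ↔ (v : ℕ) ∣ N ∧ (v : ℕ) ∉ Smin)
    (hTc1 : ∀ v : ↥Tc, p ∣ ((v : Nat.Primes) : ℕ) - 1)
    (hqinj : Function.Injective qv) (hqprime : ∀ i, (qv i).Prime) (hqN : ∀ i, ¬ qv i ∣ N)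
    (hq1 : ∀ i, p ∣ qv i - 1)
    (q₀ : ↥Tc)
    (h : IhqData (N * ∏ i, qv i) (ihqPrimes Tc qv) (ihqOrders Tc qv p)) :
    -- the arithmetic of the lower levels
    N / ((q₀ : Nat.Primes) : ℕ) ∣ N ∧ N / ((q₀ : Nat.Primes) : ℕ) ≠ N ∧
    0 < N / ((q₀ : Nat.Primes) : ℕ) ∧
    Squarefree (N / ((q₀ : Nat.Primes) : ℕ)) ∧
    (∀ i, ¬ qv i ∣ N / ((q₀ : Nat.Primes) : ℕ)) ∧
    N * ∏ i, qv i = N / ((q₀ : Nat.Primes) : ℕ) * (∏ i, qv i) * ((q₀ : Nat.Primes) : ℕ) ∧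
    0 < N / ((q₀ : Nat.Primes) : ℕ) * ∏ i, qv i ∧
    Squarefree (N / ((q₀ : Nat.Primes) : ℕ) * ∏ i, qv i) ∧
    ¬ ((q₀ : Nat.Primes) : ℕ) ∣ N / ((q₀ : Nat.Primes) : ℕ) * ∏ i, qv i ∧
    -- the data at the lower level and the pair
    ∃ hm : IhqData (N / ((q₀ : Nat.Primes) : ℕ) * ∏ i, qv i)
        (ihqPrimes Tc qv ∘ (Subtype.val : {j // j ≠ (Sum.inl q₀ : ↥Tc ⊕ Fin r)} → _))
        (ihqOrders Tc qv p ∘ (Subtype.val : {j // j ≠ (Sum.inl q₀ : ↥Tc ⊕ Fin r)} → _)),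
      IhtkPair (N * ∏ i, qv i)
        (ihqKappa (h.comp (Subtype.val : {j // j ≠ (Sum.inl q₀ : ↥Tc ⊕ Fin r)} → _)
          Subtype.val_injective)).ker
        (N / ((q₀ : Nat.Primes) : ℕ) * ∏ i, qv i) (ihqKappa hm).ker ((q₀ : Nat.Primes) : ℕ) ∧
      IhfLevel p (N / ((q₀ : Nat.Primes) : ℕ) * ∏ i, qv i) (ihqKappa hm).ker ∧
      (((ihqKappa hm).ker = ⊤ ∧ List.ofFn qv = []) ∨
        6 ≤ N / ((q₀ : Nat.Primes) : ℕ) * ∏ i, qv i) := by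
  classical
  have hp2 : p ≠ 2 := by omega
  set q := ((q₀ : Nat.Primes) : ℕ) with hq
  have hqpr : q.Prime := (q₀ : Nat.Primes).2
  have hqN0 : q ∣ N := ((hTc q₀).1 q₀.2).1
  obtain ⟨N₀, hN₀⟩ := hqN0
  have hdiv : N / q = N₀ := by
    rw [hN₀]
    exact Nat.mul_div_cancel_left N₀ hqpr.pos
  rw [hdiv]
  have hN₀pos : 0 < N₀ := by
    rcases Nat.eq_zero_or_pos N₀ with h0 | h0
    · rw [h0, mul_zero] at hN₀; omega
    · exact h0
  have hN₀dvd : N₀ ∣ N := ⟨q, by rw [hN₀, mul_comm]⟩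
  have hN₀sq : Squarefree N₀ := hNsq.squarefree_of_dvd hN₀dvd
  have hqN₀ : ¬ q ∣ N₀ := by
    rintro ⟨e, rfl⟩
    have := Nat.squarefree_iff_prime_squarefree.mp hNsq q hqpr
    exact this ⟨e, by rw [hN₀]; ring⟩
  have hN₀ne : N₀ ≠ N := by
    intro h0
    have : N₀ * 1 = N₀ * q := by rw [mul_one, mul_comm]; rw [← hN₀]; exact h0
    have := Nat.eq_of_mul_eq_mul_left hN₀pos this
    have := hqpr.one_lt
    omega
  have hqvN₀ : ∀ i, ¬ qv i ∣ N₀ := fun i h0 => hqN i (h0.trans hN₀dvd)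
  have hprodpos : 0 < ∏ i, qv i := Finset.prod_pos fun i _ => (hqprime i).pos
  have heq : N * ∏ i, qv i = N₀ * (∏ i, qv i) * q := by rw [hN₀]; ring
  have hNmpos : 0 < N₀ * ∏ i, qv i := Nat.mul_pos hN₀pos hprodpos
  have hNmsq : Squarefree (N₀ * ∏ i, qv i) :=
    ihq_squarefree_level qv hN₀sq hqinj hqprime hqvN₀
  have hqne : ∀ i, qv i ≠ q := fun i h0 => hqN i (h0 ▸ ⟨N₀, hN₀⟩)
  have hqNm : ¬ q ∣ N₀ * ∏ i, qv i := by
    intro h0
    rcases (Nat.Prime.dvd_mul hqpr).mp h0 with h1 | h1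
    · exact hqN₀ h1
    · obtain ⟨i, hi⟩ := ihq_prime_dvd_prod qv hqprime hqpr h1
      exact hqne i hi
  -- the data
  have h' := h.comp (Subtype.val : {j // j ≠ (Sum.inl q₀ : ↥Tc ⊕ Fin r)} → _)
    Subtype.val_injective
  have hne' : ∀ j : {j // j ≠ (Sum.inl q₀ : ↥Tc ⊕ Fin r)},
      (ihqPrimes Tc qv ∘ Subtype.val) j ≠ q := by
    intro j hj
    apply j.2
    apply h.inj
    exact hj
  have hm : IhqData (N₀ * ∏ i, qv i)
      (ihqPrimes Tc qv ∘ (Subtype.val : {j // j ≠ (Sum.inl q₀ : ↥Tc ⊕ Fin r)} → _))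
      (ihqOrders Tc qv p ∘ (Subtype.val : {j // j ≠ (Sum.inl q₀ : ↥Tc ⊕ Fin r)} → _)) :=
    ihtk_data_descend h' hqpr heq hne'
  refine ⟨hN₀dvd, hN₀ne, hN₀pos, hN₀sq, hqvN₀, heq, hNmpos, hNmsq, hqNm, hm, ?_, ?_, ?_⟩
  · exact ihtk_pair_of_data _ hm hqpr heq hqNm
  · exact ihq_level hp hp5 hNmsq hm (fun j => ihqOrders_pow Tc qv j.1)
  · -- small lower level: the family without `q₀` is empty
    rcases Nat.lt_or_ge (N₀ * ∏ i, qv i) 6 with hlt | hge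
    swap
    · exact Or.inr hge
    left
    have hall1 : ∀ j : ↥Tc ⊕ Fin r, p ∣ ihqPrimes Tc qv j - 1 := by
      intro j
      cases j with
      | inl v => exact hTc1 v
      | inr i => exact hq1 i
    haveI hemp : IsEmpty {j // j ≠ (Sum.inl q₀ : ↥Tc ⊕ Fin r)} := by
      refine ⟨fun j => ?_⟩
      have h7 : 7 ≤ ihqPrimes Tc qv j.1 := mlti_seven_le hp hp2 (h.prime j.1) (hall1 j.1)
      have hd : ihqPrimes Tc qv j.1 ∣ N₀ * ∏ i, qv i := hm.dvd j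
      have := Nat.le_of_dvd hNmpos hd
      omega
    refine ⟨mlti_kappa_ker_eq_top hm, ?_⟩
    rcases Nat.eq_zero_or_pos r with hr | hr
    · subst hr
      rfl
    · exact (hemp.false (⟨Sum.inr ⟨0, hr⟩, fun h0 => by cases h0⟩ :
        {j // j ≠ (Sum.inl q₀ : ↥Tc ⊕ Fin r)})).elim

end Lower

end Fermat.Agent.MLT
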