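/-
MLT / [L1] case (C) (helper9), part 4G: **the lower level for every odd `p`** (`Jh5 p N` instead of `5 ≤ p`):
`mlti_jh5_div`, `mlti_lowerG` (= `mlti_lower` of `C/Arith.lean` with `JhfLevel` of `Lib/MLT/Fr3`).
-/
import Mathlib
import Fermat.Agent.Lib.MLT.L1.C.Arith
import Fermat.Agent.Lib.MLT.Fr3.Grp.Level

set_option autoImplicit false
set_option linter.unusedSectionVars false
set_option linter.unusedVariables false
set_option linter.style.haveILetI false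

open Fermat.Agent.Ihara

namespace Fermat.Agent.MLT

/-- `Jh5` descends along the removal of a prime `q ≡ 1 mod p` -/
theorem mlti_jh5_div {p N q : ℕ} (hp : p.Prime) (h : Jh5 p N) (hq : q.Prime) (hqN : q ∣ N)
    (hq1 : p ∣ q - 1) : Jh5 p (N / q) := by
  refine ⟨h.1, ?_⟩
  rcases h.2 with h5 | ⟨r, hr, hrN, hr3⟩
  · exact Or.inl h5
  · by_cases h5 : 5 ≤ p
    · exact Or.inl h5
    right
    have hp3 : p = 3 := by
      have h2 := hp.two_le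
      have hne := h.1
      have h4 : p ≠ 4 := fun e => by
        rw [e] at hp
        exact absurd hp (by decide)
      omega
    subst hp3
    have hq2 := hq.two_le
    have hq3 : q % 3 = 1 := by omega
    have hne : r ≠ q := fun e => by rw [e] at hr3; omega
    obtain ⟨N₀, rfl⟩ := hqN
    rw [Nat.mul_div_cancel_left N₀ hq.pos]
    refine ⟨r, hr, ?_, hr3⟩
    rcases (Nat.Prime.dvd_mul hr).mp hrN with h1 | h1
    · exact absurd ((Nat.prime_dvd_prime_iff_eq hr hq).mp h1) hne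
    · exact h1

section Lower

variable {p N r : ℕ} (Tc : Finset Nat.Primes) (qv : Fin r → ℕ) (Smin : Finset ℕ)

/-- **the lower level at `q₀ ∈ Tc`** -/
theorem mlti_lowerG (hp : p.Prime) (hp5 : Jh5 p N) (hN0 : 0 < N) (hNsq : Squarefree N)
    (hTc : ∀ v : Nat.Primes, v ∈ Tc ↔ (v : ℕ) ∣ N ∧ (v : ℕ) ∉ Smin)
    (hTc1 : ∀ v : ↥Tc, p ∣ ((v : Nat.Primes) : ℕ) - 1)
    (hqinj : Function.Injective qv) (hqprime : ∀ i, (qv i).Prime) (hqN : ∀ i, ¬ qv i ∣ N)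
    (hq1 : ∀ i, p ∣ qv i - 1)
    (q₀ : ↥Tc)
    (h : IhqData (N * ∏ i, qv i) (ihqPrimes Tc qv) (ihqOrders Tc qv p)) :
    -- the arithmetic of the lower levels
    N / ((q₀ : Nat.Primes) : ℕ) ∣ N ∧ N / ((q₀ : Nat.Primes) : ℕ) ≠ N ∧
    0 < N / ((q₀ : Nat.Primes) : ℕ) ∧
    Squarefree (N / ((q₀ : Nat.Primes) : ℕ)) ∧
    (∀ i, ¬ qv i ∣ N / ((q₀ : Nat.Primes) : ℕ)) ∧
    N * ∏ i, qv i = N / ((q₀ : Nat.Primes) : ℕ) * (∏ i, qv i) * ((q₀ : Nat.Primes) : ℕ) ∧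
    0 < N / ((q₀ : Nat.Primes) : ℕ) * ∏ i, qv i ∧
    Squarefree (N / ((q₀ : Nat.Primes) : ℕ) * ∏ i, qv i) ∧
    ¬ ((q₀ : Nat.Primes) : ℕ) ∣ N / ((q₀ : Nat.Primes) : ℕ) * ∏ i, qv i ∧
    -- the data at the lower level and the pair
    ∃ hm : IhqData (N / ((q₀ : Nat.Primes) : ℕ) * ∏ i, qv i)
        (ihqPrimes Tc qv ∘ (Subtype.val : {j // j ≠ (Sum.inl q₀ : ↥Tc ⊕ Fin r)} → _))
        (ihqOrders Tc qv p ∘ (Subtype.val : {j // j ≠ (Sum.inl q₀ : ↥Tc ⊕ Fin r)} → _)),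
      IhtkPair (N * ∏ i, qv i)
        (ihqKappa (h.comp (Subtype.val : {j // j ≠ (Sum.inl q₀ : ↥Tc ⊕ Fin r)} → _)
          Subtype.val_injective)).ker
        (N / ((q₀ : Nat.Primes) : ℕ) * ∏ i, qv i) (ihqKappa hm).ker ((q₀ : Nat.Primes) : ℕ) ∧
      JhfLevel p (N / ((q₀ : Nat.Primes) : ℕ) * ∏ i, qv i) (ihqKappa hm).ker ∧
      (((ihqKappa hm).ker = ⊤ ∧ List.ofFn qv = []) ∨
        6 ≤ N / ((q₀ : Nat.Primes) : ℕ) * ∏ i, qv i) := by
  classical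
  have hp2 : p ≠ 2 := hp5.1
  set q := ((q₀ : Nat.Primes) : ℕ) with hq
  have hqpr : q.Prime := (q₀ : Nat.Primes).2
  have hqN0 : q ∣ N := ((hTc q₀).1 q₀.2).1
  obtain ⟨N₀, hN₀⟩ := hqN0
  have hdiv : N / q = N₀ := by
    rw [hN₀]
    exact Nat.mul_div_cancel_left N₀ hqpr.pos
  rw [hdiv]
  have hN₀pos : 0 < N₀ := by
    rcases Nat.eq_zero_or_pos N₀ with h0 | h0
    · rw [h0, mul_zero] at hN₀; omega
    · exact h0
  have hN₀dvd : N₀ ∣ N := ⟨q, by rw [hN₀, mul_comm]⟩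
  have hN₀sq : Squarefree N₀ := hNsq.squarefree_of_dvd hN₀dvd
  have hqN₀ : ¬ q ∣ N₀ := by
    rintro ⟨e, rfl⟩
    have := Nat.squarefree_iff_prime_squarefree.mp hNsq q hqpr
    exact this ⟨e, by rw [hN₀]; ring⟩
  have hN₀ne : N₀ ≠ N := by
    intro h0
    have : N₀ * 1 = N₀ * q := by rw [mul_one, mul_comm]; rw [← hN₀]; exact h0
    have := Nat.eq_of_mul_eq_mul_left hN₀pos this
    have := hqpr.one_lt
    omega
  have hqvN₀ : ∀ i, ¬ qv i ∣ N₀ := fun i h0 => hqN i (h0.trans hN₀dvd)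
  have hprodpos : 0 < ∏ i, qv i := Finset.prod_pos fun i _ => (hqprime i).pos
  have heq : N * ∏ i, qv i = N₀ * (∏ i, qv i) * q := by rw [hN₀]; ring
  have hNmpos : 0 < N₀ * ∏ i, qv i := Nat.mul_pos hN₀pos hprodpos
  have hNmsq : Squarefree (N₀ * ∏ i, qv i) :=
    ihq_squarefree_level qv hN₀sq hqinj hqprime hqvN₀
  have hqne : ∀ i, qv i ≠ q := fun i h0 => hqN i (h0 ▸ ⟨N₀, hN₀⟩)
  have hqNm : ¬ q ∣ N₀ * ∏ i, qv i := by
    intro h0
    rcases (Nat.Prime.dvd_mul hqpr).mp h0 with h1 | h1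
    · exact hqN₀ h1
    · obtain ⟨i, hi⟩ := ihq_prime_dvd_prod qv hqprime hqpr h1
      exact hqne i hi
  -- the data
  have h' := h.comp (Subtype.val : {j // j ≠ (Sum.inl q₀ : ↥Tc ⊕ Fin r)} → _)
    Subtype.val_injective
  have hne' : ∀ j : {j // j ≠ (Sum.inl q₀ : ↥Tc ⊕ Fin r)},
      (ihqPrimes Tc qv ∘ Subtype.val) j ≠ q := by
    intro j hj
    apply j.2
    apply h.inj
    exact hj
  have hm : IhqData (N₀ * ∏ i, qv i)
      (ihqPrimes Tc qv ∘ (Subtype.val : {j // j ≠ (Sum.inl q₀ : ↥Tc ⊕ Fin r)} → _))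
      (ihqOrders Tc qv p ∘ (Subtype.val : {j // j ≠ (Sum.inl q₀ : ↥Tc ⊕ Fin r)} → _)) :=
    ihtk_data_descend h' hqpr heq hne'
  refine ⟨hN₀dvd, hN₀ne, hN₀pos, hN₀sq, hqvN₀, heq, hNmpos, hNmsq, hqNm, hm, ?_, ?_, ?_⟩
  · exact ihtk_pair_of_data _ hm hqpr heq hqNm
  · exact jhq_level hp (jh5_of_dvd (Dvd.intro _ rfl) (hdiv ▸ mlti_jh5_div hp hp5 hqpr ((hTc q₀).1 q₀.2).1 (hTc1 q₀))) hNmsq hm (fun j => ihqOrders_pow Tc qv j.1)
  · -- small lower level: the family without `q₀` is empty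
    rcases Nat.lt_or_ge (N₀ * ∏ i, qv i) 6 with hlt | hge
    swap
    · exact Or.inr hge
    left
    have hall1 : ∀ j : ↥Tc ⊕ Fin r, p ∣ ihqPrimes Tc qv j - 1 := by
      intro j
      cases j with
      | inl v => exact hTc1 v
      | inr i => exact hq1 i
    haveI hemp : IsEmpty {j // j ≠ (Sum.inl q₀ : ↥Tc ⊕ Fin r)} := by
      refine ⟨fun j => ?_⟩
      have h7 : 7 ≤ ihqPrimes Tc qv j.1 := mlti_seven_le hp hp2 (h.prime j.1) (hall1 j.1)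
      have hd : ihqPrimes Tc qv j.1 ∣ N₀ * ∏ i, qv i := hm.dvd j
      have := Nat.le_of_dvd hNmpos hd
      omega
    refine ⟨mlti_kappa_ker_eq_top hm, ?_⟩
    rcases Nat.eq_zero_or_pos r with hr | hr
    · subst hr
      rfl
    · exact (hemp.false (⟨Sum.inr ⟨0, hr⟩, fun h0 => by cases h0⟩ :
        {j // j ≠ (Sum.inl q₀ : ↥Tc ⊕ Fin r)})).elim

end Lower

end Fermat.Agent.MLT
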