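/-
MLT / [L1] case (C), ORDINARY case (helper9), part 1: **the arithmetic of the levels when `p ∣ N`**
(`mlti_arithO` = `mlti_arith` of `C/Arith.lean` with `p ∣ N` (`N` squarefree, so `p ∥ N`) instead of `p ∤ N`: the level
`N' = N ∏ qv ∏ Rl` of the Hecke algebra satisfies `p ∣ N'`, `p² ∤ N'`).
-/
import Mathlib
import Fermat.Agent.Lib.MLT.L1.C.Arith

set_option autoImplicit false
set_option linter.unusedSectionVars false
set_option linter.unusedVariables false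
set_option linter.style.haveILetI false

open Fermat.Agent.Ihara

namespace Fermat.Agent.MLT

section Arith

variable {p N r : ℕ} (Tc : Finset Nat.Primes) (qv : Fin r → ℕ) (Smin : Finset ℕ)

/-- **the arithmetic of the levels, ordinary case `p ∣ N`** -/
theorem mlti_arithO (hp : p.Prime) (hp2 : p ≠ 2) (hN0 : 0 < N) (hNsq : Squarefree N)
    (hpN : p ∣ N) (hpSmin : p ∈ Smin) (hSminN : ∀ q ∈ Smin, q ≠ p → q ∣ N)
    (hTc : ∀ v : Nat.Primes, v ∈ Tc ↔ (v : ℕ) ∣ N ∧ (v : ℕ) ∉ Smin)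
    (S : Finset ℕ) (hS : Smin ⊆ S) (hTcS : ∀ v ∈ Tc, (v : ℕ) ∈ S)
    (hqinj : Function.Injective qv) (hqv : ∀ i, (qv i).Prime ∧ qv i ∉ S) (q₀ : ↥Tc)
    (hq₀1 : p ∣ ((q₀ : Nat.Primes) : ℕ) - 1) :
    0 < N * ∏ i, qv i ∧ 6 ≤ N * ∏ i, qv i ∧ Squarefree (N * ∏ i, qv i) ∧
    ihqRl Tc qv ≠ [] ∧
    0 < N * (∏ i, qv i) * (ihqRl Tc qv).prod ∧
    (p ∣ N * (∏ i, qv i) * (ihqRl Tc qv).prod ∧
      ¬ p ^ 2 ∣ N * (∏ i, qv i) * (ihqRl Tc qv).prod) ∧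
    (∀ l : ℕ, l.Prime → l ∣ N * (∏ i, qv i) * (ihqRl Tc qv).prod →
      l ∈ Smin ∪ ihgNat Tc ∪ Finset.univ.image qv) ∧
    (∀ q ∈ Smin, q.Prime → q ≠ p →
      q ∣ N * (∏ i, qv i) * (ihqRl Tc qv).prod ∧ ¬ q ^ 2 ∣ N * (∏ i, qv i) * (ihqRl Tc qv).prod) ∧
    (∀ l : ℕ, l.Prime → l ∉ Smin ∪ ihgNat Tc ∪ Finset.univ.image qv → ¬ l ∣ N ∧ l ≠ p) ∧
    (∀ i, ¬ qv i ∣ N ∧ qv i ≠ p ∧ qv i ∉ Smin) ∧
    (∀ v : ↥Tc, ((v : Nat.Primes) : ℕ) ∣ N ∧ ((v : Nat.Primes) : ℕ) ≠ p ∧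
      ((v : Nat.Primes) : ℕ) ∉ Smin) := by
  classical
  have hpS : p ∈ S := hS hpSmin
  have hqprime : ∀ i, (qv i).Prime := fun i => (hqv i).1
  have hqN : ∀ i, ¬ qv i ∣ N := fun i =>
    mlti_not_dvd_of_notMem Tc Smin hTc S hS hTcS (hqv i).1 (hqv i).2
  have hqSmin : ∀ i, qv i ∉ Smin := fun i h => (hqv i).2 (hS h)
  have hqp : ∀ i, qv i ≠ p := fun i h => (hqv i).2 (h ▸ hpS)
  have hprodpos : 0 < ∏ i, qv i := Finset.prod_pos fun i _ => (hqprime i).pos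
  have hMpos : 0 < N * ∏ i, qv i := Nat.mul_pos hN0 hprodpos
  have hMsq : Squarefree (N * ∏ i, qv i) := ihq_squarefree_level qv hNsq hqinj hqprime hqN
  -- the primes of `Tc`
  have hTcN : ∀ v : ↥Tc, ((v : Nat.Primes) : ℕ) ∣ N := fun v => ((hTc v).1 v.2).1
  have hTcSmin : ∀ v : ↥Tc, ((v : Nat.Primes) : ℕ) ∉ Smin := fun v => ((hTc v).1 v.2).2
  have hTcp : ∀ v : ↥Tc, ((v : Nat.Primes) : ℕ) ≠ p := fun v h => hTcSmin v (h ▸ hpSmin)
  -- `6 ≤ M`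
  have h7 : 7 ≤ ((q₀ : Nat.Primes) : ℕ) := mlti_seven_le hp hp2 (q₀ : Nat.Primes).2 hq₀1
  have h6N : 6 ≤ N := by
    have := Nat.le_of_dvd hN0 (hTcN q₀)
    omega
  have h6 : 6 ≤ N * ∏ i, qv i := le_trans h6N (Nat.le_mul_of_pos_right N hprodpos)
  -- `p ∤ M`
  have hpprod : ¬ p ∣ ∏ i, qv i := by
    intro h
    obtain ⟨i, hi⟩ := ihq_prime_dvd_prod qv hqprime hp h
    exact hqp i hi
  -- `Rl`
  have hRlne : ihqRl Tc qv ≠ [] := List.ne_nil_of_mem (ihq_mem_Rl_inl Tc qv q₀)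
  have hRlprod := ihqRl_prod Tc qv
  have hTcprodpos : 0 < ∏ v : ↥Tc, ((v : Nat.Primes) : ℕ) :=
    Finset.prod_pos fun v _ => (v : Nat.Primes).2.pos
  have hRlpos : 0 < (ihqRl Tc qv).prod := by
    rw [hRlprod]
    exact Nat.mul_pos hTcprodpos hprodpos
  have hN'pos : 0 < N * (∏ i, qv i) * (ihqRl Tc qv).prod := Nat.mul_pos hMpos hRlpos
  have hpTcprod : ¬ p ∣ ∏ v : ↥Tc, ((v : Nat.Primes) : ℕ) := by
    intro h
    obtain ⟨v, -, hv⟩ := (Prime.dvd_finsetProd_iff hp.prime _).mp h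
    exact hTcp v ((Nat.prime_dvd_prime_iff_eq hp (v : Nat.Primes).2).mp hv).symm
  have hpRl : ¬ p ∣ (ihqRl Tc qv).prod := by
    rw [hRlprod]
    intro h
    rcases (Nat.Prime.dvd_mul hp).mp h with h | h
    · exact hpTcprod h
    · exact hpprod h
  have hpN' : p ∣ N * (∏ i, qv i) * (ihqRl Tc qv).prod ∧
      ¬ p ^ 2 ∣ N * (∏ i, qv i) * (ihqRl Tc qv).prod := by
    refine ⟨Dvd.dvd.mul_right (Dvd.dvd.mul_right hpN _) _, fun h4 => ?_⟩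
    have hcop1 : Nat.Coprime (p ^ 2) (ihqRl Tc qv).prod :=
      Nat.Coprime.pow_left 2 ((Nat.Prime.coprime_iff_not_dvd hp).mpr hpRl)
    have h4M : p ^ 2 ∣ N * ∏ i, qv i := hcop1.dvd_of_dvd_mul_right h4
    have := Nat.squarefree_iff_prime_squarefree.mp hMsq p hp
    exact this (by rwa [← pow_two])
  -- a prime of `Smin` does not divide `Rl.prod`
  have hSminRl : ∀ q ∈ Smin, q.Prime → ¬ q ∣ (ihqRl Tc qv).prod := by
    intro q hqS hqpr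
    rw [hRlprod]
    intro h
    rcases (Nat.Prime.dvd_mul hqpr).mp h with h | h
    · obtain ⟨v, -, hv⟩ := (Prime.dvd_finsetProd_iff hqpr.prime _).mp h
      have h1 : q = ((v : Nat.Primes) : ℕ) := (Nat.prime_dvd_prime_iff_eq hqpr (v : Nat.Primes).2).mp hv
      exact hTcSmin v (h1 ▸ hqS)
    · obtain ⟨i, hi⟩ := ihq_prime_dvd_prod qv hqprime hqpr h
      exact hqSmin i (hi ▸ hqS)
  -- the primes of `N`
  have hprimeN : ∀ l : ℕ, l.Prime → l ∣ N → l ∈ Smin ∨ l ∈ ihgNat Tc := by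
    intro l hl hlN
    by_cases h : l ∈ Smin
    · exact Or.inl h
    · right
      have : (⟨l, hl⟩ : Nat.Primes) ∈ Tc := (hTc ⟨l, hl⟩).2 ⟨hlN, h⟩
      exact (mem_ihgNat (v := ⟨l, hl⟩)).2 this
  refine ⟨hMpos, h6, hMsq, hRlne, hN'pos, hpN', ?_, ?_, ?_,
    fun i => ⟨hqN i, hqp i, hqSmin i⟩, fun v => ⟨hTcN v, hTcp v, hTcSmin v⟩⟩
  · intro l hl hlN'
    rw [Finset.mem_union, Finset.mem_union]
    rcases (Nat.Prime.dvd_mul hl).mp hlN' with h | h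
    · rcases (Nat.Prime.dvd_mul hl).mp h with h | h
      · exact Or.inl (hprimeN l hl h)
      · obtain ⟨i, hi⟩ := ihq_prime_dvd_prod qv hqprime hl h
        exact Or.inr (Finset.mem_image.mpr ⟨i, Finset.mem_univ i, hi⟩)
    · rw [hRlprod] at h
      rcases (Nat.Prime.dvd_mul hl).mp h with h | h
      · exact Or.inl (Or.inr (ihq_prime_dvd_prod_Tc Tc hl h))
      · obtain ⟨i, hi⟩ := ihq_prime_dvd_prod qv hqprime hl h
        exact Or.inr (Finset.mem_image.mpr ⟨i, Finset.mem_univ i, hi⟩)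
  · intro q hq hqprime' hqp'
    refine ⟨Dvd.dvd.mul_right (Dvd.dvd.mul_right (hSminN q hq hqp') _) _, ?_⟩
    intro h4
    have hcop : Nat.Coprime (q ^ 2) (ihqRl Tc qv).prod :=
      Nat.Coprime.pow_left 2 ((Nat.Prime.coprime_iff_not_dvd hqprime').mpr (hSminRl q hq hqprime'))
    have h4M : q ^ 2 ∣ N * ∏ i, qv i := hcop.dvd_of_dvd_mul_right h4
    have := Nat.squarefree_iff_prime_squarefree.mp hMsq q hqprime'
    exact this (by rwa [← pow_two])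
  · intro l hl hlS
    rw [Finset.mem_union, Finset.mem_union, not_or, not_or] at hlS
    obtain ⟨⟨h1, h2⟩, -⟩ := hlS
    refine ⟨fun hlN => ?_, fun h => h1 (h ▸ hpSmin)⟩
    rcases hprimeN l hl hlN with h | h
    · exact h1 h
    · exact h2 h

end Arith

end Fermat.Agent.MLT
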