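/-
MLT / [L1] case (C) (helper9), part 10: **existence of the auxiliary prime for `p = 3`**.

For `p = 3` and `W[3]` satisfying `hTW` (irreducible over every index-2 subgroup, absolutely) there are
primes `r ≡ 2 mod 3` of good reduction, outside any finite set, with `3 ∤ a_r(W)`:

* `mlti_plane_sq` : an endomorphism of a plane with trace `0` and determinant `-1` is an involution;
* `mlti_exists_stable_line` : a commuting family of endomorphisms of a plane over an algebraically closed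
  field has a common stable line;
* `mlti_exists_det_tr` : under `hTW` some `σ` has `det ρbar(σ) = -1` and `tr ρbar(σ) ≠ 0` (otherwise the
  elements of determinant `-1` are involutions, conjugation by one of them inverts the image of
  `G₀ = ker (det ρbar)`, which is therefore abelian and has a stable line over the algebraic closure);
* `mlti_exists_aux` : `σ` is a power of a Frobenius element `φ` at a prime `r ∉ T` on the finite level of
  `W[3]` (Frobenius density, `s31t_exists_frobenius_pow`); then `det ρbar(φ) = -1` and `tr ρbar(φ) ≠ 0`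
  (if `tr = 0` then `ρbar(φ)² = 1` and `ρbar(σ) = ρbar(φ)`), i.e. `r ≡ 2 mod 3` and `3 ∤ a_r`.
-/
import Mathlib
import Fermat.Agent.Lib.MLT.Res.Irr
import Fermat.Agent.Lib.S31.Trace.FrobPow
import Fermat.Agent.Lib.S58.DetInv

set_option autoImplicit false
set_option linter.unusedSectionVars false
set_option linter.unusedVariables false
set_option linter.style.haveILetI false

open Polynomial WeierstrassCurve Fermat.Agent.S58
open scoped TensorProduct

namespace Fermat.Agent.MLT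

local notation "Qb" => AlgebraicClosure ℚ
local notation "GQ" => (AlgebraicClosure ℚ ≃ₐ[ℚ] AlgebraicClosure ℚ)

section Plane

variable {F : Type*} [Field F] {U : Type*} [AddCommGroup U] [Module F U]

/-- an endomorphism of a plane with trace `0` and determinant `-1` is an involution -/
theorem mlti_plane_sq [Module.Finite F U] (hU : Module.finrank F U = 2)
    (g : Module.End F U) (htr : LinearMap.trace F U g = 0) (hdet : LinearMap.det g = -1) :
    g * g = 1 := by
  have h := LinearMap.aeval_self_charpoly g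
  rw [mltr_charpoly_eq hU g, htr, hdet] at h
  simp only [map_zero, zero_mul, sub_zero, map_add, map_pow, aeval_X, map_neg,
    map_one] at h
  rw [pow_two] at h
  exact eq_of_sub_eq_zero (by rw [sub_eq_add_neg]; exact h)

/-- **a commuting family of endomorphisms of a plane over an algebraically closed field has a common
stable line** -/
theorem mlti_exists_stable_line [IsAlgClosed F] [Module.Finite F U] (hU : Module.finrank F U = 2)
    (S : Set (Module.End F U)) (hS : ∀ f ∈ S, ∀ g ∈ S, f * g = g * f) :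
    ∃ L : Submodule F U, L ≠ ⊥ ∧ L ≠ ⊤ ∧ ∀ f ∈ S, ∀ x ∈ L, f x ∈ L := by
  classical
  haveI : Nontrivial U := Module.nontrivial_of_finrank_pos (R := F) (by omega)
  by_cases hsc : ∀ f ∈ S, ∃ a : F, f = a • (1 : Module.End F U)
  · obtain ⟨v, hv⟩ := exists_ne (0 : U)
    refine ⟨Submodule.span F {v}, ?_, ?_, ?_⟩
    · intro h
      apply hv
      have : v ∈ Submodule.span F {v} := Submodule.mem_span_singleton_self v
      rw [h] at this
      exact (Submodule.mem_bot F).mp this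
    · intro h
      have h1 : Module.finrank F (Submodule.span F {v}) = 1 := finrank_span_singleton hv
      rw [h, finrank_top, hU] at h1
      omega
    · intro f hf x hx
      obtain ⟨a, rfl⟩ := hsc f hf
      rw [LinearMap.smul_apply, Module.End.one_apply]
      exact Submodule.smul_mem _ a hx
  · push Not at hsc
    obtain ⟨f₀, hf₀, hns⟩ := hsc
    obtain ⟨μ, hμ⟩ := Module.End.exists_eigenvalue f₀
    refine ⟨Module.End.eigenspace f₀ μ, hμ, ?_, ?_⟩
    · intro h
      apply hns μ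
      apply LinearMap.ext
      intro x
      have hx : x ∈ Module.End.eigenspace f₀ μ := by rw [h]; exact Submodule.mem_top
      rw [Module.End.mem_eigenspace_iff] at hx
      rw [hx, LinearMap.smul_apply, Module.End.one_apply]
    · intro f hf x hx
      rw [Module.End.mem_eigenspace_iff] at hx ⊢
      have h1 : f₀ (f x) = (f₀ * f) x := rfl
      rw [h1, hS f₀ hf₀ f hf, Module.End.mul_apply, hx, map_smul]

end Plane

noncomputable section

variable (W : WeierstrassCurve ℤ) (p : ℕ) [Fact p.Prime]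

/-- the elements of `𝔽_3ˣ` -/
theorem mlti_three_cases : ∀ x : ZMod 3, x ≠ 0 → x = 1 ∨ x = -1 := by decide

/-- a natural number which is `-1` in `𝔽_3` is `≡ 2 mod 3` -/
theorem mlti_mod_three (l : ℕ) (h : (l : ZMod 3) = -1) : l % 3 = 2 := by
  have h3 : ((l % 3 : ℕ) : ZMod 3) = -1 := by
    rw [ZMod.natCast_mod]
    exact h
  have hlt : l % 3 < 3 := Nat.mod_lt _ (by norm_num)
  interval_cases (l % 3)
  · exact absurd h3 (by decide)
  · exact absurd h3 (by decide)
  · rfl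

/-- the determinant of `ρbar(σ)` is `±1` (`p = 3`) -/
theorem mlti_det_cases (hp3 : p = 3) (hΔ : W.Δ ≠ 0) (σ : GQ) :
    LinearMap.det ((mltrE W p hΔ).ρ σ) = 1 ∨ LinearMap.det ((mltrE W p hΔ).ρ σ) = -1 := by
  have h1 : LinearMap.det ((mltrE W p hΔ).ρ σ) * LinearMap.det ((mltrE W p hΔ).ρ σ⁻¹) = 1 := by
    rw [← map_mul, ← map_mul, mul_inv_cancel, map_one, map_one]
  have h0 : LinearMap.det ((mltrE W p hΔ).ρ σ) ≠ 0 := by
    intro h
    rw [h, zero_mul] at h1
    exact zero_ne_one h1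
  subst hp3
  exact mlti_three_cases _ h0

/-- **under `hTW` some element has determinant `-1` and non-zero trace** (`p = 3`) -/
theorem mlti_exists_det_tr (hp3 : p = 3) (hΔ : W.Δ ≠ 0)
    (hTW : ∀ (K : Type) [Field K] [Algebra (ZMod p) K] (G : Subgroup GQ), G.index = 2 →
      ∀ V : Submodule K ((mltrRep W p (ZMod p) hΔ).baseChange K).V,
        (∀ s ∈ G, ∀ x ∈ V, ((mltrRep W p (ZMod p) hΔ).baseChange K).ρ s x ∈ V) → V = ⊥ ∨ V = ⊤) :
    ∃ σ : GQ, LinearMap.det ((mltrE W p hΔ).ρ σ) = -1 ∧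
      LinearMap.trace (ZMod p) (mltrE W p hΔ).V ((mltrE W p hΔ).ρ σ) ≠ 0 := by
  classical
  by_contra hcon
  push Not at hcon
  have hp2 : p ≠ 2 := by rw [hp3]; norm_num
  set E := mltrE W p hΔ with hE
  set K := AlgebraicClosure (ZMod p) with hK
  set R' := (mltrRep W p (ZMod p) hΔ).baseChange K with hR'
  -- trace and determinant of the double base change
  have htr : ∀ σ : GQ, LinearMap.trace K R'.V (R'.ρ σ) =
      algebraMap (ZMod p) K (algebraMap (ZMod p) (ZMod p) (LinearMap.trace (ZMod p) E.V (E.ρ σ))) := by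
    intro σ
    show LinearMap.trace K (K ⊗[ZMod p] (ZMod p ⊗[ZMod p] E.V))
      (((E.ρ σ).baseChange (ZMod p)).baseChange K) = _
    rw [LinearMap.trace_baseChange, LinearMap.trace_baseChange]
  have hdet : ∀ σ : GQ, LinearMap.det (R'.ρ σ) =
      algebraMap (ZMod p) K (algebraMap (ZMod p) (ZMod p) (LinearMap.det (E.ρ σ))) := by
    intro σ
    show LinearMap.det (((E.ρ σ).baseChange (ZMod p)).baseChange K) = _
    rw [LinearMap.det_baseChange, LinearMap.det_baseChange]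
  -- the elements of determinant `-1` are involutions
  have hinv : ∀ σ : GQ, LinearMap.det (E.ρ σ) = -1 → R'.ρ σ * R'.ρ σ = 1 := by
    intro σ hσ
    refine mlti_plane_sq R'.finrank_eq _ ?_ ?_
    · rw [htr, hcon σ hσ, map_zero, map_zero]
    · rw [hdet, hσ, map_neg, map_neg, map_one, map_one]
  -- the subgroup `G₀`
  set G₀ : Subgroup GQ := ((LinearMap.det : Module.End (ZMod p) E.V →* ZMod p).comp E.ρ).ker
    with hG₀
  have hmem : ∀ σ : GQ, σ ∈ G₀ ↔ LinearMap.det (E.ρ σ) = 1 := fun σ => by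
    rw [hG₀, MonoidHom.mem_ker]
    rfl
  obtain ⟨c, hc, hc1⟩ := s58d_exists_involution
  have hdc : LinearMap.det (E.ρ c) = -1 := mltr_det_involution W p hΔ hp2 c hc hc1
  have hne : (1 : ZMod p) ≠ -1 := by
    intro h
    have h2 : (2 : ZMod p) = 0 := by
      have : (1 : ZMod p) + 1 = 0 := by nth_rewrite 1 [h]; ring
      rw [← this]; norm_num
    exact mltr_two_ne_zero p hp2 h2
  have hindex : G₀.index = 2 := by
    rw [Subgroup.index_eq_two_iff]
    refine ⟨c, fun b => ?_⟩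
    rw [hmem, hmem, map_mul, map_mul, hdc]
    rcases mlti_det_cases W p hp3 hΔ b with h | h
    · rw [h, one_mul]
      exact Or.inr ⟨rfl, fun h' => hne h'.symm⟩
    · rw [h]
      refine Or.inl ⟨by ring, fun h' => hne h'.symm⟩
  -- conjugation by `c` inverts `G₀`
  have hC2 : R'.ρ c * R'.ρ c = 1 := hinv c hdc
  have hconj : ∀ h ∈ G₀, R'.ρ c * R'.ρ h * R'.ρ c = R'.ρ h⁻¹ := by
    intro h hh
    have h1 : LinearMap.det (E.ρ (c * h)) = -1 := by
      rw [map_mul, map_mul, hdc, (hmem h).1 hh, mul_one]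
    have h2 := hinv (c * h) h1
    rw [map_mul] at h2
    have h3 : R'.ρ h * R'.ρ h⁻¹ = 1 := by rw [← map_mul, mul_inv_cancel, map_one]
    calc R'.ρ c * R'.ρ h * R'.ρ c
        = R'.ρ c * R'.ρ h * R'.ρ c * (R'.ρ h * R'.ρ h⁻¹) := by rw [h3, mul_one]
      _ = (R'.ρ c * R'.ρ h * (R'.ρ c * R'.ρ h)) * R'.ρ h⁻¹ := by noncomm_ring
      _ = R'.ρ h⁻¹ := by rw [h2, one_mul]
  -- the image of `G₀` is commutative
  have hcomm : ∀ h₁ ∈ G₀, ∀ h₂ ∈ G₀, R'.ρ h₁ * R'.ρ h₂ = R'.ρ h₂ * R'.ρ h₁ := by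
    intro h₁ hh₁ h₂ hh₂
    have hi₁ : h₁⁻¹ ∈ G₀ := G₀.inv_mem hh₁
    have hi₂ : h₂⁻¹ ∈ G₀ := G₀.inv_mem hh₂
    have h12 : h₂⁻¹ * h₁⁻¹ ∈ G₀ := G₀.mul_mem hi₂ hi₁
    have e1 := hconj _ h12
    have e2 := hconj _ hi₁
    have e3 := hconj _ hi₂
    rw [mul_inv_rev, inv_inv, inv_inv] at e1
    rw [inv_inv] at e2 e3
    calc R'.ρ h₁ * R'.ρ h₂ = R'.ρ (h₁ * h₂) := (map_mul _ _ _).symm
      _ = R'.ρ c * R'.ρ (h₂⁻¹ * h₁⁻¹) * R'.ρ c := e1.symm
      _ = R'.ρ c * (R'.ρ h₂⁻¹ * R'.ρ h₁⁻¹) * R'.ρ c := by rw [map_mul]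
      _ = (R'.ρ c * R'.ρ h₂⁻¹ * R'.ρ c) * (R'.ρ c * R'.ρ h₁⁻¹ * R'.ρ c) := by
          have : R'.ρ c * (R'.ρ h₂⁻¹ * R'.ρ h₁⁻¹) * R'.ρ c
              = R'.ρ c * R'.ρ h₂⁻¹ * 1 * R'.ρ h₁⁻¹ * R'.ρ c := by noncomm_ring
          rw [this, ← hC2]
          noncomm_ring
      _ = R'.ρ h₂ * R'.ρ h₁ := by rw [e2, e3]
  -- a common stable line
  obtain ⟨L, hL0, hL1, hLst⟩ := mlti_exists_stable_line R'.finrank_eq
    {f | ∃ h ∈ G₀, f = R'.ρ h} (by
      rintro f ⟨h₁, hh₁, rfl⟩ g ⟨h₂, hh₂, rfl⟩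
      exact hcomm h₁ hh₁ h₂ hh₂)
  rcases hTW K G₀ hindex L (fun s hs x hx => hLst _ ⟨s, hs, rfl⟩ x hx) with h | h
  · exact hL0 h
  · exact hL1 h

/-- **existence of auxiliary primes** (`p = 3`): primes `r ≡ 2 mod 3` of good reduction outside any finite
set with `3 ∤ a_r(W)` -/
theorem mlti_exists_aux (hp3 : p = 3) (hΔ : W.Δ ≠ 0)
    (hTW : ∀ (K : Type) [Field K] [Algebra (ZMod p) K] (G : Subgroup GQ), G.index = 2 →
      ∀ V : Submodule K ((mltrRep W p (ZMod p) hΔ).baseChange K).V,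
        (∀ s ∈ G, ∀ x ∈ V, ((mltrRep W p (ZMod p) hΔ).baseChange K).ρ s x ∈ V) → V = ⊥ ∨ V = ⊤)
    (T : Finset ℕ) :
    ∃ r : ℕ, r.Prime ∧ r ∉ T ∧ r ≠ p ∧ r % 3 = 2 ∧ ¬ (r : ℤ) ∣ W.Δ ∧
      ¬ (p : ℤ) ∣ W.apOfModel r := by
  classical
  have hp2 : p ≠ 2 := by rw [hp3]; norm_num
  obtain ⟨σ, hσd, hσt⟩ := mlti_exists_det_tr W p hp3 hΔ hTW
  set E := mltrE W p hΔ with hE
  obtain ⟨L₀, hL₀fin, hL₀⟩ := E.factorsThroughFiniteLevel
  haveI := hL₀fin
  haveI := Fermat.Agent.Lib.Helper6.isGalois_rat_algebraicClosure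
  set L := IntermediateField.normalClosure ℚ L₀ Qb with hL
  haveI : FiniteDimensional ℚ L := normalClosure.is_finiteDimensional ℚ L₀ Qb
  haveI : Normal ℚ L := normalClosure.normal ℚ L₀ Qb
  have hL₀L : L₀ ≤ L := IntermediateField.le_normalClosure L₀
  obtain ⟨l, hl, hlT, P, φ, hP, hφ, b, hb⟩ :=
    Fermat.Agent.S31T.s31t_exists_frobenius_pow L σ (T ∪ W.Δ.natAbs.primeFactors ∪ {p})
  have hlT' : l ∉ T := fun h => hlT (Finset.mem_union_left _ (Finset.mem_union_left _ h))
  have hlΔ : ¬ (l : ℤ) ∣ W.Δ := by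
    intro h
    apply hlT
    refine Finset.mem_union_left _ (Finset.mem_union_right _ ?_)
    rw [Nat.mem_primeFactors]
    exact ⟨hl, Int.natCast_dvd.mp h, Int.natAbs_ne_zero.mpr hΔ⟩
  have hlp : l ≠ p := fun h =>
    hlT (Finset.mem_union_right _ (by rw [h]; exact Finset.mem_singleton_self p))
  -- `ρbar σ = (ρbar φ) ^ b`
  have hρ : E.ρ σ = E.ρ φ ^ b := by
    have h1 : E.ρ ((φ ^ b)⁻¹ * σ) = 1 := by
      refine hL₀ _ fun x hx => ?_
      rw [AlgEquiv.mul_apply, hb x (hL₀L hx)]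
      show (φ ^ b)⁻¹ ((φ ^ b) x) = x
      rw [← AlgEquiv.mul_apply, inv_mul_cancel]
      rfl
    rw [← map_pow]
    have h2 : σ = φ ^ b * ((φ ^ b)⁻¹ * σ) := by rw [mul_inv_cancel_left]
    conv_lhs => rw [h2]
    rw [map_mul, h1, mul_one]
  obtain ⟨htrφ, hdetφ⟩ := mltr_trace_det_frob W p hΔ hl hlΔ hlp P hP φ hφ
  have hne : (1 : ZMod p) ≠ -1 := by
    intro h
    have h2 : (2 : ZMod p) = 0 := by
      have : (1 : ZMod p) + 1 = 0 := by nth_rewrite 1 [h]; ring
      rw [← this]; norm_num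
    exact mltr_two_ne_zero p hp2 h2
  -- the determinant of `ρbar φ` is `-1`
  have hdb : LinearMap.det (E.ρ φ) ^ b = -1 := by rw [← map_pow, ← hρ, hσd]
  have hdφ : LinearMap.det (E.ρ φ) = -1 := by
    rcases mlti_det_cases W p hp3 hΔ φ with h | h
    · rw [h, one_pow] at hdb
      exact absurd hdb hne
    · exact h
  -- `b` is odd
  have hbodd : Odd b := by
    rcases Nat.even_or_odd b with h | h
    · rw [hdφ, h.neg_one_pow] at hdb
      exact absurd hdb hne
    · exact h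
  -- the trace of `ρbar φ` is not `0`
  have htφ : LinearMap.trace (ZMod p) E.V (E.ρ φ) ≠ 0 := by
    intro h0
    have hsq : E.ρ φ * E.ρ φ = 1 := mlti_plane_sq E.finrank_eq _ h0 hdφ
    obtain ⟨m, hm⟩ := hbodd
    have h1 : E.ρ φ ^ b = E.ρ φ := by
      rw [hm, pow_succ, pow_mul, pow_two, hsq, one_pow, one_mul]
    rw [h1] at hρ
    rw [hρ] at hσt
    exact hσt h0
  refine ⟨l, hl, hlT', hlp, ?_, hlΔ, ?_⟩
  · -- `l ≡ 2 mod 3`
    rw [hdφ] at hdetφ
    subst hp3
    exact mlti_mod_three l hdetφ.symm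
  · intro hdvd
    apply htφ
    rw [htrφ]
    exact (ZMod.intCast_zmod_eq_zero_iff_dvd _ p).mpr hdvd

end

end Fermat.Agent.MLT
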