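/-
MLT / [L1] case (C) (helper9), part 9: **the auxiliary prime** (`p = 3`).

To kill the elliptic elements of order `3` the level `N` is multiplied by an auxiliary prime `r` with
`r ≢ 1 mod p`, `W[p]` unramified at `r` and `(tr ρbar(Frob_r))² ≠ (1 + r)²` (for `p = 3`, `r ≡ 2 mod 3`:
`tr ρbar(Frob_r) ≠ 0`).  The Hecke side then produces representations of type
`twCond … (insert r Smin) (insert r Smin ∪ …)`: unipotent inertia at `r` (S34).  Such a representation
is automatically UNRAMIFIED at `r`: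

* `mlti_unip_eq_one` : (2×2 matrices over a commutative ring) `(U - 1)² = 0`, `F U = Uⁿ F`, `det F = n`,
  `n (1 - n)` and `(tr F)² - (1 + n)²` units `⟹ U = 1` (the tame relation and Cayley–Hamilton);
* `mlti_aux_unramified` : a continuous strict lift of `ρbar` with cyclotomic determinant and unipotent
  inertia at an auxiliary prime `r` is unramified at `r`;
* `mlti_hecke_of_aux` : `IhaHecke … (insert r Smin) … ⟹ IhaHecke … Smin …`.
-/
import Mathlib
import Fermat.Agent.Lib.Ihara.Asm.Level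
import Fermat.Agent.Lib.Ihara.Ta.Rel
import Fermat.Agent.Lib.Ihara.Ta.Mat2
import Fermat.Agent.Lib.Ihara.Img.DetCyc
import Fermat.Agent.Lib.Ihara.G1.Final
import Fermat.Agent.Lib.TW.Local.Unramified

set_option autoImplicit false
set_option linter.unusedSectionVars false
set_option linter.unusedVariables false
set_option linter.style.haveILetI false

open Fermat.Agent.S53Lib Fermat.Agent.TW IsLocalRing GaloisRep ExtCitation Fermat.Agent.Ihara Matrix

namespace Fermat.Agent.MLT

local notation "Qb" => AlgebraicClosure ℚ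
local notation "GQ" => (AlgebraicClosure ℚ ≃ₐ[ℚ] AlgebraicClosure ℚ)

/-! ### The matrix lemma -/

section Mat

variable {A : Type*} [CommRing A]

/-- powers of a unipotent matrix -/
theorem mlti_unip_pow (N : Matrix (Fin 2) (Fin 2) A) (hN : N * N = 0) (n : ℕ) :
    (1 + N) ^ n = 1 + (n : A) • N := by
  induction n with
  | zero => simp
  | succ n ih =>
    rw [pow_succ, ih, add_mul, mul_add, mul_add, one_mul, mul_one, smul_mul_assoc, hN, smul_zero,
      add_zero, Nat.cast_succ, add_smul, one_smul, one_mul]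
    abel

/-- the core of `mlti_unip_eq_one` -/
theorem mlti_unip_core (F N : Matrix (Fin 2) (Fin 2) A) (t v : A)
    (h1 : F * N = v • (N * F)) (hF : F * F = t • F - v • (1 : Matrix (Fin 2) (Fin 2) A))
    (hn : IsUnit (v * (1 - v))) (ht : IsUnit (t ^ 2 - (1 + v) ^ 2)) : N = 0 := by
  have hXF : N * F * F = t • (N * F) - v • N := by
    rw [mul_assoc, hF, mul_sub, mul_smul_comm, mul_smul_comm, mul_one]
  have hFFN₁ : F * F * N = t • (v • (N * F)) - v • N := by
    rw [hF, sub_mul, smul_mul_assoc, smul_mul_assoc, one_mul, h1]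
  have hFFN₂ : F * F * N = v • (v • (N * F * F)) := by
    rw [mul_assoc, h1, mul_smul_comm, ← mul_assoc, h1, smul_mul_assoc]
  -- `t (N F) = (1 + v) N`
  have h3 : t • (N * F) - (1 + v) • N = 0 := by
    have h4 : (v * (1 - v)) • (t • (N * F) - (1 + v) • N)
        = (t • (v • (N * F)) - v • N) - v • (v • (t • (N * F) - v • N)) := by module
    have h5 : (v * (1 - v)) • (t • (N * F) - (1 + v) • N) = 0 := by
      rw [h4, ← hFFN₁, ← hXF, ← hFFN₂, sub_self]
    exact (IsUnit.smul_eq_zero hn).mp h5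
  have h3' : t • (N * F) = (1 + v) • N := sub_eq_zero.mp h3
  -- `t (N F F) = (1 + v) N F`
  have h6 : t • (t • (N * F) - v • N) - (1 + v) • (N * F) = 0 := by
    rw [← hXF, ← smul_mul_assoc, h3', smul_mul_assoc, sub_self]
  have h7 : (t ^ 2 - (1 + v) ^ 2) • N
      = t • (t • (t • (N * F) - v • N) - (1 + v) • (N * F))
        - (t ^ 2 - (1 + v)) • (t • (N * F) - (1 + v) • N) := by module
  have h8 : (t ^ 2 - (1 + v) ^ 2) • N = 0 := by
    rw [h7, h6, h3, smul_zero, smul_zero, sub_zero]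
  exact (IsUnit.smul_eq_zero ht).mp h8

/-- **the tame relation forces a unipotent inertia matrix to be trivial** -/
theorem mlti_unip_eq_one (F U : Matrix (Fin 2) (Fin 2) A) (n : ℕ)
    (hU : (U - 1) * (U - 1) = 0) (hrel : F * U = U ^ n * F) (hdet : F.det = (n : A))
    (hn : IsUnit ((n : A) * (1 - (n : A))))
    (ht : IsUnit (F.trace ^ 2 - (1 + (n : A)) ^ 2)) : U = 1 := by
  have hU1 : U = 1 + (U - 1) := by abel
  have h1 : F * (U - 1) = (n : A) • ((U - 1) * F) := by
    have h2 : F * U = F + F * (U - 1) := by rw [mul_sub, mul_one]; abel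
    have h3 : U ^ n * F = F + (n : A) • ((U - 1) * F) := by
      conv_lhs => rw [hU1]
      rw [mlti_unip_pow (U - 1) hU n, add_mul, one_mul, smul_mul_assoc]
    rw [h2, h3] at hrel
    exact add_left_cancel hrel
  have hF : F * F = F.trace • F - (n : A) • (1 : Matrix (Fin 2) (Fin 2) A) := by
    rw [ihta_sq, hdet]
  exact sub_eq_zero.mp (mlti_unip_core F (U - 1) F.trace (n : A) h1 hF hn ht)

end Mat

/-! ### The representation -/

section Rep

variable {𝒪 : Type} [CommRing 𝒪] [IsDomain 𝒪] [IsDiscreteValuationRing 𝒪]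
  [IsAdicComplete (maximalIdeal 𝒪) 𝒪] [Finite (ResidueField 𝒪)]

/-- **an auxiliary prime for `ρbar`**: `r ≠ p`, `r ≢ 1 mod p`, `ρbar` unramified at `r` and
`(tr ρbar(Frob_r))² ≠ (1 + r)²` -/
structure MltIAuxPrime (ρbar : ResidualGaloisRep (ResidueField 𝒪)) (p r : ℕ) : Prop where
  prime : r.Prime
  ne_p : r ≠ p
  not_one : ¬ p ∣ r - 1
  unram : ρbar.IsUnramifiedAt r
  trace : ∀ P : ValuationSubring Qb, P.LiesOverPrime r → ∀ φ : GQ, P.IsFrobeniusAt φ r →
    (LinearMap.trace (ResidueField 𝒪) ρbar.V (ρbar.ρ φ)) ^ 2 ≠ (1 + (r : ResidueField 𝒪)) ^ 2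

variable {A : Type} [CommRing A] [IsLocalRing A] [IsNoetherianRing A]
  [IsAdicComplete (maximalIdeal A) A] [Algebra 𝒪 A] [IsLocalHom (algebraMap 𝒪 A)]

/-- a natural number prime to `p` is a unit of `A` -/
theorem mlti_isUnit_natCast {p : ℕ} (hp : p.Prime) (hpA : (p : A) ∈ maximalIdeal A) {m : ℕ}
    (hm : ¬ p ∣ m) : IsUnit (m : A) := by
  have hcop : Nat.Coprime m p := (Nat.Coprime.symm ((Nat.Prime.coprime_iff_not_dvd hp).mpr hm))
  have h1 : IsCoprime (m : ℤ) (p : ℤ) := Nat.isCoprime_iff_coprime.mpr hcop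
  obtain ⟨u, v, huv⟩ := h1
  have h2 : ((u : ℤ) : A) * (m : A) + ((v : ℤ) : A) * (p : A) = 1 := by
    have := congrArg (Int.cast : ℤ → A) huv
    push_cast at this
    exact this
  by_contra hnu
  have h3 : (m : A) ∈ maximalIdeal A := (mem_maximalIdeal _).mpr hnu
  have h4 : (1 : A) ∈ maximalIdeal A := by
    rw [← h2]
    exact Ideal.add_mem _ (Ideal.mul_mem_left _ _ h3) (Ideal.mul_mem_left _ _ hpA)
  exact (Ideal.ne_top_iff_one _).mp (maximalIdeal.isMaximal A).ne_top h4

/-- **a continuous strict lift of `ρbar` with cyclotomic determinant and unipotent inertia at an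
auxiliary prime `r` is unramified at `r`** -/
theorem mlti_aux_unramified {p r : ℕ} (hp : p.Prime)
    (ρbar : ResidualGaloisRep (ResidueField 𝒪))
    (b : Module.Basis (Fin 2) (ResidueField 𝒪) ρbar.V) (haux : MltIAuxPrime ρbar p r)
    (rA : GQ →* Matrix (Fin 2) (Fin 2) A) (hcts : MatCts A rA)
    (hstrict : IsStrictLift (𝒪 := 𝒪) (resMat ρbar b) rA)
    (hdet : (ofMat rA hcts).DetIsCyclotomic p)
    (hunip : (ofMat rA hcts).IsUnipotentOnInertiaAt r) :
    (ofMat rA hcts).IsUnramifiedAt r := by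
  intro P hP σ hσ
  have hpA : (p : A) ∈ maximalIdeal A := hdet.1
  obtain ⟨φ, hφ⟩ := Fermat.Agent.Lib.Helper6.exists_isFrobeniusAt P haux.prime hP
  -- the tame relation
  have hrel : rA φ * rA σ = rA σ ^ r * rA φ :=
    (ihta_rel_strictLift hp haux.prime haux.ne_p.symm hpA ρbar b haux.unram P hP rA hcts hstrict
      hφ hσ).2.2
  -- unipotent
  have hU : (rA σ - 1) * (rA σ - 1) = 0 := by
    have h1 := hunip P hP σ hσ
    rw [tw_charpoly_ofMat] at h1
    have h2 := Matrix.aeval_self_charpoly (rA σ)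
    rw [h1] at h2
    simpa [pow_two] using h2
  -- the determinant
  have hdetφ : (rA φ).det = (r : A) := by
    have h1 := ihi_det_frob hp (ofMat rA hcts) hdet haux.prime haux.ne_p hP hφ
    have h2 : LinearMap.det ((ofMat rA hcts).ρ φ) = (rA φ).det := by
      show LinearMap.det (Matrix.toLin' (rA φ)) = (rA φ).det
      exact LinearMap.det_toLin' _
    rw [← h2]
    exact h1
  -- the units
  have hr0 : IsUnit (r : A) := mlti_isUnit_natCast hp hpA (fun h =>
    haux.ne_p ((Nat.prime_dvd_prime_iff_eq hp haux.prime).mp h).symm)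
  have hr1 : IsUnit (1 - (r : A)) := by
    have h1 : IsUnit ((r - 1 : ℕ) : A) := mlti_isUnit_natCast hp hpA haux.not_one
    have h2 : ((r - 1 : ℕ) : A) = -(1 - (r : A)) := by
      rw [Nat.cast_sub haux.prime.one_lt.le, Nat.cast_one]
      ring
    rw [h2] at h1
    exact (IsUnit.neg_iff _).mp h1
  have htr : IsUnit ((rA φ).trace ^ 2 - (1 + (r : A)) ^ 2) := by
    rw [← isUnit_map_iff (residue A)]
    rw [isUnit_iff_ne_zero]
    have h1 : residue A ((rA φ).trace) = (ResidueField.map (algebraMap 𝒪 A))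
        (LinearMap.trace (ResidueField 𝒪) ρbar.V (ρbar.ρ φ)) := by
      have hij : ∀ i j, residue A (rA φ i j)
          = ResidueField.map (algebraMap 𝒪 A) (resMat ρbar b φ i j) := fun i j => by
        have := congrFun (congrFun (hstrict φ) i) j
        simpa only [Matrix.map_apply] using this
      have h6 : LinearMap.trace (ResidueField 𝒪) ρbar.V (ρbar.ρ φ)
          = resMat ρbar b φ 0 0 + resMat ρbar b φ 1 1 := by
        rw [LinearMap.trace_eq_matrix_trace (ResidueField 𝒪) b, Matrix.trace_fin_two, resMat_apply]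
      rw [Matrix.trace_fin_two, map_add, hij, hij, ← map_add, h6]
    rw [map_sub, map_pow, map_pow, map_add, map_one, map_natCast, h1]
    have h4 := haux.trace P hP φ hφ
    intro h5
    apply h4
    apply (ResidueField.map (algebraMap 𝒪 A)).injective
    rw [map_pow, map_pow, map_add, map_one, map_natCast]
    exact sub_eq_zero.mp h5
  have hone := mlti_unip_eq_one (rA φ) (rA σ) r hU hrel hdetφ (hr0.mul hr1) htr
  ext v : 1
  rw [ofMat_ρ_apply, hone, Matrix.one_mulVec]
  rfl

/-- the type `twCond` with the auxiliary prime removed -/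
theorem mlti_twCond_of_aux {p r₀ : ℕ} (hp : p.Prime)
    (X : ∀ ⦃A : Type⦄ [CommRing A] [IsLocalRing A], GaloisRepAdic A → Prop)
    (ρbar : ResidualGaloisRep (ResidueField 𝒪))
    (b : Module.Basis (Fin 2) (ResidueField 𝒪) ρbar.V) (haux : MltIAuxPrime ρbar p r₀)
    (Smin T : Finset ℕ)
    (rA : GQ →* Matrix (Fin 2) (Fin 2) A) (hcts : MatCts A rA)
    (hstrict : IsStrictLift (𝒪 := 𝒪) (resMat ρbar b) rA)
    (h : twCond 𝒪 X p (insert r₀ Smin) (insert r₀ T) (ofMat rA hcts)) :
    twCond 𝒪 X p Smin T (ofMat rA hcts) := by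
  obtain ⟨⟨hdet, hX, hunr⟩, hunip⟩ := h
  refine ⟨⟨hdet, hX, fun q hq hqT => ?_⟩, fun q hq hqpr hqp =>
    hunip q (Finset.mem_insert_of_mem hq) hqpr hqp⟩
  by_cases hqr : q = r₀
  · subst hqr
    exact mlti_aux_unramified hp ρbar b haux rA hcts hstrict hdet
      (hunip q (Finset.mem_insert_self _ _) haux.prime haux.ne_p)
  · exact hunr q hq (fun h => by
      rcases Finset.mem_insert.mp h with h | h
      · exact hqr h
      · exact hqT h)

end Rep

section Hecke

variable {𝒪 : Type} [CommRing 𝒪] [IsDomain 𝒪] [IsDiscreteValuationRing 𝒪]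
  [IsAdicComplete (maximalIdeal 𝒪) 𝒪] [Finite (ResidueField 𝒪)]

/-- **the Hecke-module datum with the auxiliary prime removed from `Smin`** -/
theorem mlti_hecke_of_aux (p : ℕ) [Fact p.Prime] (ρbar : ResidualGaloisRep (ResidueField 𝒪))
    (b : Module.Basis (Fin 2) (ResidueField 𝒪) ρbar.V)
    (X : ∀ ⦃A : Type⦄ [CommRing A] [IsLocalRing A], GaloisRepAdic A → Prop)
    {r₀ : ℕ} (haux : MltIAuxPrime ρbar p r₀)
    (Smin : Finset ℕ) (Tc : Finset Nat.Primes) (φv σv : Nat.Primes → GQ) (ϖ : 𝒪)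
    (μ : ↥Tc → Finset 𝒪ˣ) (cs : ↥Tc → 𝒪ˣ) (q₀ : ↥Tc) (r d : ℕ) (qv : Fin r → ℕ) (n : ℕ)
    (h : IhaHecke p ρbar b X (insert r₀ Smin) Tc φv σv ϖ μ cs q₀ r d qv n) :
    IhaHecke p ρbar b X Smin Tc φv σv ϖ μ cs q₀ r d qv n := by
  obtain ⟨A, iA1, iA2, iA3, iA4, iA5, iA6, rA, hcts, M, iM1, iM2, iM3, ρM, G, iG1, iG2, x, w, bM,
    γ, c, aq, hres, hstrict, htype, rest⟩ := h
  refine ⟨A, iA1, iA2, iA3, iA4, iA5, iA6, rA, hcts, M, iM1, iM2, iM3, ρM, G, iG1, iG2, x, w, bM,
    γ, c, aq, hres, hstrict, ?_, rest⟩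
  have hT : insert r₀ Smin ∪ ihgNat Tc ∪ Finset.univ.image qv
      = insert r₀ (Smin ∪ ihgNat Tc ∪ Finset.univ.image qv) := by
    rw [Finset.insert_union, Finset.insert_union]
  rw [hT] at htype
  exact mlti_twCond_of_aux (Fact.out : p.Prime) X ρbar b haux Smin _ rA hcts hstrict htype

end Hecke

end Fermat.Agent.MLT
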