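/-
MLT / [L1] case (C) (helper9), part 2: **literal sub-contracts of case (C) for a general semistable `W`**.

`MltL1Ihara p` (helper3, `Lib/MLT/L1/Defs.lean`) is split according to the behaviour at `p`:

* `MltL1IharaFlat p` : the case `p ∤ N` (the deformation problem is FLAT at `p`);
* `MltL1IharaOrd p`  : the case `p ∣ N` (`p ∥ N`: ORDINARY at `p`; needs the Hida-cut Hecke modules of [M]);
* `mlti_ihara_of_cases : MltL1IharaFlat p → MltL1IharaOrd p → MltL1Ihara p` (trivial).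

`MltIModular p` is **the target of the modular side in the flat case** (the analogue of `IhaModular` of
`Lib/Ihara/Asm/Top.lean` with `FreyPackage` replaced by a semistable `W`, `ihrRep` by the lead's `mltrRep`,
`Smin = {2, p}` by `Smin = {p} ∪ {q : W[p] ramified at q}` and `Tc` = the primes of `N` outside `Smin`).

`MltIhTW p` is the hypothesis `hTW` of S56 for `W[p]` (irreducibility over the index-2 subgroups), owned by
[R] (`mltr_hTW_of_ramified` when `W[p]` is ramified at some `q ≠ p`; the remaining case needs (U)).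
-/
import Mathlib
import Fermat.Agent.Lib.MLT.L1.Defs
import Fermat.Agent.Lib.MLT.Res.Defs
import Fermat.Agent.Lib.Ihara.Asm.Level

set_option autoImplicit false
set_option linter.unusedSectionVars false
set_option linter.unusedVariables false

open Fermat.Agent.S53Lib Fermat.Agent.TW IsLocalRing GaloisRep ExtCitation Fermat.Agent.Ihara
open WeierstrassCurve WeierstrassCurve.Affine WeierstrassCurve.Affine.Point

namespace Fermat.Agent.MLT

local notation "Qb" => AlgebraicClosure ℚ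

/-- **(C), flat case**: `p ∤ N` -/
def MltL1IharaFlat (p : ℕ) [Fact p.Prime] : Prop :=
  ∀ (W : WeierstrassCurve ℤ), W.Δ ≠ 0 → W.IsSemistableModel → W.ModRepIsIrreducible p →
    ∀ (N : ℕ), 0 < N → Squarefree N → ¬ p ∣ N → W.IsResiduallyModularOfLevel p N →
      (∀ M : ℕ, M ∣ N → M ≠ N → ¬ W.IsResiduallyModularOfLevel p M) →
      (∀ r : ℕ, r.Prime → r ∣ N → r ≠ p → MltL1Unram W p r → MltL1CPrime W p r) →
      ∀ q : ℕ, q.Prime → q ∣ N → q ≠ p → MltL1Unram W p q → False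

/-- **(C), ordinary case**: `p ∣ N` -/
def MltL1IharaOrd (p : ℕ) [Fact p.Prime] : Prop :=
  ∀ (W : WeierstrassCurve ℤ), W.Δ ≠ 0 → W.IsSemistableModel → W.ModRepIsIrreducible p →
    ∀ (N : ℕ), 0 < N → Squarefree N → p ∣ N → W.IsResiduallyModularOfLevel p N →
      (∀ M : ℕ, M ∣ N → M ≠ N → ¬ W.IsResiduallyModularOfLevel p M) →
      (∀ r : ℕ, r.Prime → r ∣ N → r ≠ p → MltL1Unram W p r → MltL1CPrime W p r) →
      ∀ q : ℕ, q.Prime → q ∣ N → q ≠ p → MltL1Unram W p q → False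

/-- (C) from its two cases -/
theorem mlti_ihara_of_cases (p : ℕ) [Fact p.Prime] (hflat : MltL1IharaFlat p)
    (hord : MltL1IharaOrd p) : MltL1Ihara p := by
  intro W hΔ hss hirr N hN hNsq hres hmin hC q hq hqN hqp hunr
  by_cases hpN : p ∣ N
  · exact hord W hΔ hss hirr N hN hNsq hpN hres hmin hC q hq hqN hqp hunr
  · exact hflat W hΔ hss hirr N hN hNsq hpN hres hmin hC q hq hqN hqp hunr

/-- **the hypothesis `hTW` of S56 for `W[p]`** (owner: [R]) -/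
def MltIhTW (p : ℕ) [Fact p.Prime] : Prop :=
  ∀ (W : WeierstrassCurve ℤ) (hΔ : W.Δ ≠ 0), W.IsSemistableModel → W.ModRepIsIrreducible p →
    ∀ (k : Type) [Field k] [Algebra (ZMod p) k],
      ∀ (K : Type) [Field K] [Algebra k K] (G : Subgroup GQ), G.index = 2 →
        ∀ V : Submodule K ((mltrRep W p k hΔ).baseChange K).V,
          (∀ s ∈ G, ∀ x ∈ V, ((mltrRep W p k hΔ).baseChange K).ρ s x ∈ V) → V = ⊥ ∨ V = ⊤

/-- **THE TARGET OF THE MODULAR SIDE, flat case** (case (C) of S38 for a general semistable `W`) -/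
def MltIModular (p : ℕ) [Fact p.Prime] : Prop :=
  ∀ (W : WeierstrassCurve ℤ) (hΔ : W.Δ ≠ 0), W.IsSemistableModel → W.ModRepIsIrreducible p →
    ∀ (N : ℕ), 0 < N → Squarefree N → ¬ p ∣ N → W.IsResiduallyModularOfLevel p N →
    (∀ M : ℕ, M ∣ N → M ≠ N → ¬ W.IsResiduallyModularOfLevel p M) →
    (∀ r : ℕ, r.Prime → r ∣ N → r ≠ p → MltL1Unram W p r → MltL1CPrime W p r) →
    ∀ (𝒪 : Type) [CommRing 𝒪] [IsDomain 𝒪] [IsDiscreteValuationRing 𝒪]
      [IsAdicComplete (maximalIdeal 𝒪) 𝒪] [Finite (ResidueField 𝒪)] [CharZero 𝒪]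
      [Algebra (ZMod p) (ResidueField 𝒪)],
      (p : 𝒪) ∈ maximalIdeal 𝒪 →
      (∀ a : ZMod p, IsSquare (algebraMap (ZMod p) (ResidueField 𝒪) a)) →
      ∀ (b : Module.Basis (Fin 2) (ResidueField 𝒪) (mltrRep W p (ResidueField 𝒪) hΔ).V)
        (Smin : Finset ℕ), p ∈ Smin → (∀ q ∈ Smin, q.Prime) →
        (∀ q : ℕ, q.Prime → q ≠ p →
          (q ∈ Smin ↔ ¬ (mltrRep W p (ResidueField 𝒪) hΔ).IsUnramifiedAt q)) →
      ∀ (Tc : Finset Nat.Primes), (∀ v : Nat.Primes, v ∈ Tc ↔ (v : ℕ) ∣ N ∧ (v : ℕ) ∉ Smin) →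
      ∀ (φv σv : Nat.Primes → GQ),
        (∀ v ∈ Tc, (primeLocalPlace v).IsFrobeniusAt (φv v) (v : ℕ)) →
        (∀ v ∈ Tc, IhgGen p (primeLocalPlace v) (σv v)) →
      ∀ (ϖ : 𝒪), maximalIdeal 𝒪 = Ideal.span {ϖ} →
      ∀ (μ : ↥Tc → Finset 𝒪ˣ),
        (∀ v : ↥Tc, ∃ a u : ℕ, ((v : Nat.Primes) : ℕ) = 1 + p ^ a * u ∧ ¬ p ∣ u ∧ 0 < a ∧
          (Polynomial.X ^ (p ^ a) - 1 : Polynomial 𝒪) =
            (Polynomial.X - 1) * ∏ ζ ∈ μ v, (Polynomial.X - Polynomial.C (ζ : 𝒪)) ∧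
          (∀ ζ ∈ μ v, ζ ^ (p ^ a) = 1 ∧ ζ ≠ 1) ∧
          ∃ ζ ∈ μ v, IsPrimitiveRoot (ζ : 𝒪) (p ^ a)) →
      ∀ (cs : ↥Tc → 𝒪ˣ), (∀ v, (cs v : 𝒪) ^ 2 = 1) →
        (∀ v : ↥Tc, (mltrRep W p (ResidueField 𝒪) hΔ).ρ (φv v) = residue 𝒪 (cs v : 𝒪) • 1) →
      ∀ q₀ : ↥Tc,
      ∃ S : Finset ℕ, Smin ⊆ S ∧ (∀ v ∈ Tc, (v : ℕ) ∈ S) ∧
        ∃ d : ℕ, 0 < d ∧ ∀ (r n : ℕ) (qv : Fin r → ℕ), Function.Injective qv →
          (∀ i, (qv i).Prime ∧ qv i ∉ S ∧ p ^ (n + 1) ∣ qv i - 1) →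
          (∀ i, IsTWPrime (mltrRep W p (ResidueField 𝒪) hΔ) (qv i)) →
          IhaHecke p (mltrRep W p (ResidueField 𝒪) hΔ) b (fun _ _ _ ρ => ρ.IsFlatAt p)
            Smin Tc φv σv ϖ μ cs q₀ r d qv n

end Fermat.Agent.MLT
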