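/-
MLT / [L1] case (C), ORDINARY case (helper9), part 5: **literals of the ordinary case**.

* `MltL1IharaOrdNF p` : case (C) for `p ∣ N` when `W[p]` is NOT finite at `p` (`p ∤ v_p(Δ_W)`; lead's m54: Top runs
  [P] first, so this is the only case in which `p` is in the level) — together with `MltL1IharaFlat p` it gives
  helper3's `MltL1Ihara' p` (`mlti_ihara'_of_cases`);
* `MltIResOrd p`   : `W[p] ⊗ k` is ordinary at `p` (`GaloisRepAdic.IsOrdinaryAt`) when `W` is multiplicative at `p`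
  (owner: [W]/[AtPG]: helper5's `mltpg_ordInput_of_mult`, helper8's `mltw_tate2`);
* `MltIFirstOrderStrict p` : helper7's case-C hypothesis `MltTWOOrdFirstOrderStrict p (W[p] ⊗ k)` when `W` is
  multiplicative at `p` with `p ∤ v_p(Δ_W)` (helper7's `mlto_hC_of_tres` + helper5's `mltpg_tres_all`);
* `MltIModularOrd p` : the target of the modular side (the analogue of `MltIModular p`, `C/Defs.lean`).
-/
import Mathlib
import Fermat.Agent.Lib.MLT.L1.C.Defs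
import Fermat.Agent.Lib.MLT.L1.DefsP
import Fermat.Agent.Lib.MLT.Contracts.TWO

set_option autoImplicit false
set_option linter.unusedSectionVars false
set_option linter.unusedVariables false

open Fermat.Agent.S53Lib Fermat.Agent.TW IsLocalRing GaloisRep ExtCitation Fermat.Agent.Ihara
open WeierstrassCurve WeierstrassCurve.Affine WeierstrassCurve.Affine.Point

namespace Fermat.Agent.MLT

local notation "Qb" => AlgebraicClosure ℚ

/-- **(C), ordinary case, `W[p]` not finite at `p`** -/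
def MltL1IharaOrdNF (p : ℕ) [Fact p.Prime] : Prop :=
  ∀ (W : WeierstrassCurve ℤ), W.Δ ≠ 0 → W.IsSemistableModel → W.ModRepIsIrreducible p →
    ∀ (N : ℕ), 0 < N → Squarefree N → p ∣ N →
      ¬ (p : ℤ) ∣ padicValRat p (W.map (Int.castRingHom ℚ)).Δ →
      W.IsResiduallyModularOfLevel p N →
      (∀ M : ℕ, M ∣ N → M ≠ N → ¬ W.IsResiduallyModularOfLevel p M) →
      (∀ r : ℕ, r.Prime → r ∣ N → r ≠ p → MltL1Unram W p r → MltL1CPrime W p r) →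
      ∀ q : ℕ, q.Prime → q ∣ N → q ≠ p → MltL1Unram W p q → False

/-- helper3's `MltL1Ihara'` from the two cases -/
theorem mlti_ihara'_of_cases (p : ℕ) [Fact p.Prime] (hflat : MltL1IharaFlat p)
    (hord : MltL1IharaOrdNF p) : MltL1Ihara' p := by
  intro W hΔ hss hirr N hN hsq hfin hres hmin hC q hq hqN hqp hunr
  by_cases hpN : p ∣ N
  · exact hord W hΔ hss hirr N hN hsq hpN (hfin hpN) hres hmin hC q hq hqN hqp hunr
  · exact hflat W hΔ hss hirr N hN hsq hpN hres hmin hC q hq hqN hqp hunr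

/-- if `p ∤ v_p(Δ_W)` then `p ∣ Δ_W` -/
theorem mlti_dvd_disc_of_nf (W : WeierstrassCurve ℤ) (p : ℕ) [Fact p.Prime]
    (h : ¬ (p : ℤ) ∣ padicValRat p (W.map (Int.castRingHom ℚ)).Δ) : (p : ℤ) ∣ W.Δ := by
  by_contra hnd
  apply h
  have h1 : (W.map (Int.castRingHom ℚ)).Δ = ((W.Δ : ℤ) : ℚ) := by
    rw [WeierstrassCurve.map_Δ]
    rfl
  rw [h1, padicValRat.of_int, padicValInt.eq_zero_of_not_dvd hnd]
  simp

/-- **`W[p] ⊗ k` is ordinary at a multiplicative prime `p`** (owner: [W] / [AtPG]) -/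
def MltIResOrd (p : ℕ) [Fact p.Prime] : Prop :=
  ∀ (W : WeierstrassCurve ℤ) (hΔ : W.Δ ≠ 0), W.IsSemistableModel → (p : ℤ) ∣ W.Δ →
    ∀ (k : Type) [Field k] [Algebra (ZMod p) k],
      (GaloisRepAdic.ofResidualGaloisRep (mltrRep W p k hΔ)).IsOrdinaryAt p

/-- **the case-C hypothesis of the ordinary Taylor–Wiles primes** for `W[p] ⊗ k`, `W` multiplicative at `p`
with `p ∤ v_p(Δ_W)` (owner: helper7 `mlto_hC_of_tres` + helper5 `mltpg_tres_all`) -/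
def MltIFirstOrderStrict (p : ℕ) [Fact p.Prime] : Prop :=
  ∀ (W : WeierstrassCurve ℤ) (hΔ : W.Δ ≠ 0), W.IsSemistableModel → W.ModRepIsIrreducible p →
    (p : ℤ) ∣ W.Δ → ¬ (p : ℤ) ∣ padicValRat p (W.map (Int.castRingHom ℚ)).Δ →
    ∀ (k : Type) [Field k] [Finite k] [Algebra (ZMod p) k],
      MltTWOOrdFirstOrderStrict p (mltrRep W p k hΔ)

/-- **THE TARGET OF THE MODULAR SIDE, ordinary case** (the analogue of `MltIModular p`) -/
def MltIModularOrd (p : ℕ) [Fact p.Prime] : Prop :=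
  ∀ (W : WeierstrassCurve ℤ) (hΔ : W.Δ ≠ 0), W.IsSemistableModel → W.ModRepIsIrreducible p →
    ∀ (N : ℕ), 0 < N → Squarefree N → p ∣ N → W.IsResiduallyModularOfLevel p N →
    (∀ M : ℕ, M ∣ N → M ≠ N → ¬ W.IsResiduallyModularOfLevel p M) →
    (∀ r : ℕ, r.Prime → r ∣ N → r ≠ p → MltL1Unram W p r → MltL1CPrime W p r) →
    ∀ (𝒪 : Type) [CommRing 𝒪] [IsDomain 𝒪] [IsDiscreteValuationRing 𝒪]
      [IsAdicComplete (maximalIdeal 𝒪) 𝒪] [Finite (ResidueField 𝒪)] [CharZero 𝒪]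
      [Algebra (ZMod p) (ResidueField 𝒪)],
      (p : 𝒪) ∈ maximalIdeal 𝒪 →
      (∀ a : ZMod p, IsSquare (algebraMap (ZMod p) (ResidueField 𝒪) a)) →
      (GaloisRepAdic.ofResidualGaloisRep (mltrRep W p (ResidueField 𝒪) hΔ)).IsOrdinaryAt p →
      ∀ (b : Module.Basis (Fin 2) (ResidueField 𝒪) (mltrRep W p (ResidueField 𝒪) hΔ).V)
        (Smin : Finset ℕ), p ∈ Smin → (∀ q ∈ Smin, q.Prime) →
        (∀ q : ℕ, q.Prime → q ≠ p →
          (q ∈ Smin ↔ ¬ (mltrRep W p (ResidueField 𝒪) hΔ).IsUnramifiedAt q)) →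
      ∀ (Tc : Finset Nat.Primes), (∀ v : Nat.Primes, v ∈ Tc ↔ (v : ℕ) ∣ N ∧ (v : ℕ) ∉ Smin) →
      ∀ (φv σv : Nat.Primes → GQ),
        (∀ v ∈ Tc, (primeLocalPlace v).IsFrobeniusAt (φv v) (v : ℕ)) →
        (∀ v ∈ Tc, IhgGen p (primeLocalPlace v) (σv v)) →
      ∀ (ϖ : 𝒪), maximalIdeal 𝒪 = Ideal.span {ϖ} →
      ∀ (μ : ↥Tc → Finset 𝒪ˣ),
        (∀ v : ↥Tc, ∃ a u : ℕ, ((v : Nat.Primes) : ℕ) = 1 + p ^ a * u ∧ ¬ p ∣ u ∧ 0 < a ∧
          (Polynomial.X ^ (p ^ a) - 1 : Polynomial 𝒪) =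
            (Polynomial.X - 1) * ∏ ζ ∈ μ v, (Polynomial.X - Polynomial.C (ζ : 𝒪)) ∧
          (∀ ζ ∈ μ v, ζ ^ (p ^ a) = 1 ∧ ζ ≠ 1) ∧
          ∃ ζ ∈ μ v, IsPrimitiveRoot (ζ : 𝒪) (p ^ a)) →
      ∀ (cs : ↥Tc → 𝒪ˣ), (∀ v, (cs v : 𝒪) ^ 2 = 1) →
        (∀ v : ↥Tc, (mltrRep W p (ResidueField 𝒪) hΔ).ρ (φv v) = residue 𝒪 (cs v : 𝒪) • 1) →
      ∀ q₀ : ↥Tc,
      ∃ S : Finset ℕ, Smin ⊆ S ∧ (∀ v ∈ Tc, (v : ℕ) ∈ S) ∧
        ∃ d : ℕ, 0 < d ∧ ∀ (r n : ℕ) (qv : Fin r → ℕ), Function.Injective qv →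
          (∀ i, (qv i).Prime ∧ qv i ∉ S ∧ p ^ (n + 1) ∣ qv i - 1) →
          (∀ i, IsTWPrime (mltrRep W p (ResidueField 𝒪) hΔ) (qv i)) →
          IhaHecke p (mltrRep W p (ResidueField 𝒪) hΔ) b (fun _ _ _ ρ => ρ.IsOrdinaryAt p)
            Smin Tc φv σv ϖ μ cs q₀ r d qv n

end Fermat.Agent.MLT
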