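/-
MLT / [L1] case (C) (helper9), part 5: **the Hecke eigensystem of `W[p]` at ALL primes `ℓ ∤ N p`** for a
general `W` (the analogue of `Lib/Ihara/Rb/{Plus,Lower,TwLocal}.lean`), from the lead's `mltr_cong_all`.

* `MltIEig W p hΔ f 𝔪 t`, `mlti_exists_eig` : integers `t ℓ` (`ℓ ∤ N p` prime) with `t ℓ ≡ a_ℓ(f) mod 𝔪` and
  `t ℓ mod p = tr (W[p])(Frob_ℓ)` for EVERY Frobenius element at `ℓ`;
* `mlti_frob_eig`, `mlti_frob_theta0` : `hfrob` in the form of helper7's `ihk_main_chi`;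
* `mlti_eig_good`, `mlti_eig_good_sub_mem`, `mlti_theta_good` : `t ℓ ≡ a_ℓ(W)` at the good primes;
* `mlti_part_ne_bot'`, `mlti_rank_pos` : the `t`-part of the Betti module of level `N` is non-zero;
* `mlti_tw_local` : the local data at the Taylor–Wiles primes.
-/
import Mathlib
import Fermat.Agent.Lib.MLT.Res.CongAll
import Fermat.Agent.Lib.Ihara.Rb.Level2
import Fermat.Agent.Lib.Ihara.Rb.TwTheta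
import Fermat.Agent.Lib.Ihara.Rb.TwLocal

set_option autoImplicit false
set_option linter.unusedSectionVars false
set_option linter.unusedVariables false
set_option linter.style.haveILetI false

open Polynomial CuspForm IsLocalRing Fermat.Agent.Ihara Fermat.Agent.TW

namespace Fermat.Agent.MLT

local notation "Qb" => AlgebraicClosure ℚ
local notation "GQ" => (AlgebraicClosure ℚ ≃ₐ[ℚ] AlgebraicClosure ℚ)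

noncomputable section

variable (W : WeierstrassCurve ℤ) (p : ℕ) [Fact p.Prime]

/-- the property of an integer eigenvalue function `t` of `W[p]` at level `N` -/
def MltIEig (hΔ : W.Δ ≠ 0) {N : ℕ} (f : CuspForm (CongruenceSubgroup.Gamma0 N) 2)
    (𝔪 : Ideal (integralClosure ℤ ℂ)) (t : ℕ → ℤ) : Prop :=
  ∀ ℓ : ℕ, ℓ.Prime → ¬ ℓ ∣ N → ℓ ≠ p →
    (∃ a : integralClosure ℤ ℂ, (a : ℂ) = ModularFormClass.qCoeff f ℓ ∧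
      a - ((t ℓ : ℤ) : integralClosure ℤ ℂ) ∈ 𝔪) ∧
    ∀ A : ValuationSubring Qb, A.LiesOverPrime ℓ → ∀ σ : GQ, A.IsFrobeniusAt σ ℓ →
      ((t ℓ : ℤ) : ZMod p) = mltrTr W p hΔ σ

section Mod

variable {N : ℕ} [NeZero N] {f : CuspForm (CongruenceSubgroup.Gamma0 N) 2}
  (hf : f.IsNormalizedEigenform) (hΔ : W.Δ ≠ 0)
  {𝔪 : Ideal (integralClosure ℤ ℂ)} (h𝔪 : 𝔪.IsMaximal)
  (hp𝔪 : (p : integralClosure ℤ ℂ) ∈ 𝔪)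
  (hcong : ∀ ℓ : ℕ, ℓ.Prime → W.IsGoodPrimeFor ℓ → ¬ ℓ ∣ N → ℓ ≠ p →
    ∃ a : integralClosure ℤ ℂ, (a : ℂ) = ModularFormClass.qCoeff f ℓ ∧
      a - ((W.apOfModel ℓ : ℤ) : integralClosure ℤ ℂ) ∈ 𝔪)

include hf h𝔪 hp𝔪 hcong in
/-- **the integer eigenvalues of `W[p]` at all primes `ℓ ∤ N p`** -/
theorem mlti_exists_eig : ∃ t : ℕ → ℤ, MltIEig W p hΔ f 𝔪 t := by
  classical
  have hp : p.Prime := Fact.out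
  haveI := h𝔪
  letI : Field (integralClosure ℤ ℂ ⧸ 𝔪) := Ideal.Quotient.field 𝔪
  haveI : CharP (integralClosure ℤ ℂ ⧸ 𝔪) p := by
    rw [CharP.charP_iff_prime_eq_zero hp, ← map_natCast (Ideal.Quotient.mk 𝔪)]
    exact Ideal.Quotient.eq_zero_iff_mem.mpr hp𝔪
  have hcong' : ∀ ℓ : ℕ, ℓ.Prime → W.IsGoodPrimeFor ℓ → ¬ ℓ ∣ N → ℓ ≠ p → ℓ ∉ (∅ : Finset ℕ) →
      ∃ a : integralClosure ℤ ℂ, (a : ℂ) = ModularFormClass.qCoeff f ℓ ∧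
        a - ((W.apOfModel ℓ : ℤ) : integralClosure ℤ ℂ) ∈ 𝔪 :=
    fun ℓ hℓ hg hℓN hℓp _ => hcong ℓ hℓ hg hℓN hℓp
  have key : ∀ ℓ : ℕ, ∃ t : ℤ, ℓ.Prime → ¬ ℓ ∣ N → ℓ ≠ p →
      (∃ a : integralClosure ℤ ℂ, (a : ℂ) = ModularFormClass.qCoeff f ℓ ∧
        a - ((t : ℤ) : integralClosure ℤ ℂ) ∈ 𝔪) ∧
      ∀ A : ValuationSubring Qb, A.LiesOverPrime ℓ → ∀ σ : GQ, A.IsFrobeniusAt σ ℓ →
        ((t : ℤ) : ZMod p) = mltrTr W p hΔ σ := by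
    intro ℓ
    by_cases h : ℓ.Prime ∧ ¬ ℓ ∣ N ∧ ℓ ≠ p
    · obtain ⟨hℓ, hℓN, hℓp⟩ := h
      obtain ⟨A₀, σ₀, hA₀, hσ₀⟩ := Fermat.Agent.Lib.Helper6.exists_frobenius ℓ hℓ
      obtain ⟨a, ha, t, ht, hat⟩ :=
        mltr_cong_all W p hf hΔ h𝔪 hp𝔪 ∅ hcong' ℓ hℓ hℓN hℓp A₀ hA₀ σ₀ hσ₀
      refine ⟨t, fun _ _ _ => ⟨⟨a, ha, hat⟩, fun A hA σ hσ => ?_⟩⟩
      obtain ⟨a', ha', t', ht', hat'⟩ :=
        mltr_cong_all W p hf hΔ h𝔪 hp𝔪 ∅ hcong' ℓ hℓ hℓN hℓp A hA σ hσ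
      have haa : a' = a := Subtype.ext (ha'.trans ha.symm)
      rw [haa] at hat'
      have h1 : ((t : ℤ) : integralClosure ℤ ℂ ⧸ 𝔪) = ((t' : ℤ) : integralClosure ℤ ℂ ⧸ 𝔪) := by
        have h2 := 𝔪.sub_mem hat' hat
        rw [sub_sub_sub_cancel_left, ← Ideal.Quotient.eq_zero_iff_mem, map_sub, map_intCast,
          map_intCast, sub_eq_zero] at h2
        exact h2
      have h3 := (CharP.intCast_eq_intCast (integralClosure ℤ ℂ ⧸ 𝔪) p).1 h1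
      rw [← ht']
      exact (ZMod.intCast_eq_intCast_iff _ _ _).2 h3
    · exact ⟨0, fun h1 h2 h3 => absurd ⟨h1, h2, h3⟩ h⟩
  choose t ht using key
  exact ⟨t, ht⟩

end Mod

section Consequences

variable {N : ℕ} [NeZero N] {f : CuspForm (CongruenceSubgroup.Gamma0 N) 2}
  (hf : f.IsNormalizedEigenform) {𝔪 : Ideal (integralClosure ℤ ℂ)} (h𝔪 : 𝔪.IsMaximal)
  (hp𝔪 : (p : integralClosure ℤ ℂ) ∈ 𝔪) (hΔ : W.Δ ≠ 0) {t : ℕ → ℤ} (ht : MltIEig W p hΔ f 𝔪 t)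

include ht in
/-- `hfrob` for the eigenvalue function `t` -/
theorem mlti_frob_eig (k : Type) [Field k] [Algebra (ZMod p) k] {ℓ : ℕ} (hℓ : ℓ.Prime)
    (hℓN : ¬ ℓ ∣ N) (hℓp : ℓ ≠ p) (A : ValuationSubring Qb) (hA : A.LiesOverPrime ℓ) (σ : GQ)
    (hσ : A.IsFrobeniusAt σ ℓ) :
    LinearMap.charpoly ((mltrRep W p k hΔ).ρ σ) = X ^ 2 - C (((t ℓ : ℤ) : k)) * X + C ((ℓ : k)) := by
  rw [mltr_charpoly_frob_tr W p hΔ k hℓ hℓp A hA σ hσ, ← (ht ℓ hℓ hℓN hℓp).2 A hA σ hσ, map_intCast]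

include ht in
/-- **`hfrob` in the form of helper7's `ihk_main_chi`**: `θ₀ : ℕ → 𝒪` any lift of `t` -/
theorem mlti_frob_theta0 {𝒪 : Type} [CommRing 𝒪] [IsLocalRing 𝒪]
    [Algebra (ZMod p) (ResidueField 𝒪)] (θ₀ : ℕ → 𝒪) {ℓ : ℕ} (hℓ : ℓ.Prime)
    (hℓN : ¬ ℓ ∣ N) (hℓp : ℓ ≠ p) (hθ₀ : θ₀ ℓ - ((t ℓ : ℤ) : 𝒪) ∈ maximalIdeal 𝒪)
    (A : ValuationSubring Qb) (hA : A.LiesOverPrime ℓ) (σ : GQ) (hσ : A.IsFrobeniusAt σ ℓ) :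
    LinearMap.charpoly ((mltrRep W p (ResidueField 𝒪) hΔ).ρ σ) =
      X ^ 2 - C (residue 𝒪 (θ₀ ℓ)) * X + C ((ℓ : ResidueField 𝒪)) := by
  rw [mlti_frob_eig W p hΔ ht (ResidueField 𝒪) hℓ hℓN hℓp A hA σ hσ]
  have h1 : residue 𝒪 (θ₀ ℓ) = ((t ℓ : ℤ) : ResidueField 𝒪) := by
    have := (residue_eq_zero_iff _).2 hθ₀
    rwa [map_sub, sub_eq_zero, map_intCast] at this
  rw [h1]

include ht in
/-- at the good primes the eigenvalue function is `a_ℓ(W)` modulo `p` -/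
theorem mlti_eig_good {ℓ : ℕ} (hℓ : ℓ.Prime) (hgood : W.IsGoodPrimeFor ℓ) (hℓN : ¬ ℓ ∣ N)
    (hℓp : ℓ ≠ p) : ((t ℓ : ℤ) : ZMod p) = ((W.apOfModel ℓ : ℤ) : ZMod p) := by
  obtain ⟨A, σ, hA, hσ⟩ := Fermat.Agent.Lib.Helper6.exists_frobenius ℓ hℓ
  rw [(ht ℓ hℓ hℓN hℓp).2 A hA σ hσ]
  exact (mltr_trace_det_frob W p hΔ hℓ hgood hℓp A hA σ hσ).1

include ht in
/-- the same in a local ring `𝒪` with `p ∈ 𝔪_𝒪` -/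
theorem mlti_eig_good_sub_mem {𝒪 : Type*} [CommRing 𝒪] [IsLocalRing 𝒪]
    (hp𝒪 : (p : 𝒪) ∈ maximalIdeal 𝒪)
    {ℓ : ℕ} (hℓ : ℓ.Prime) (hgood : W.IsGoodPrimeFor ℓ) (hℓN : ¬ ℓ ∣ N) (hℓp : ℓ ≠ p) :
    ((t ℓ : ℤ) : 𝒪) - ((W.apOfModel ℓ : ℤ) : 𝒪) ∈ maximalIdeal 𝒪 := by
  have h1 := mlti_eig_good W p hΔ ht hℓ hgood hℓN hℓp
  rw [ZMod.intCast_eq_intCast_iff_dvd_sub] at h1
  obtain ⟨c, hc⟩ := h1
  have h2 : ((t ℓ : ℤ) : 𝒪) - ((W.apOfModel ℓ : ℤ) : 𝒪) = -((p : 𝒪) * (c : 𝒪)) := by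
    have := congrArg (fun z : ℤ => (z : 𝒪)) hc
    simp only [Int.cast_sub, Int.cast_mul, Int.cast_natCast] at this
    rw [← this]
    ring
  rw [h2]
  exact neg_mem (Ideal.mul_mem_right _ _ hp𝒪)

include ht in
/-- **`hθW`** over any coefficient ring `R` (local, `p ∈ 𝔪_R`) -/
theorem mlti_theta_good {R : Type*} [CommRing R] [IsLocalRing R] (hpR : (p : R) ∈ maximalIdeal R)
    (θ : ℕ → R) (hθ : ∀ ℓ ∈ ihrPs N p, θ ℓ = ((t ℓ : ℤ) : R)) :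
    ∀ ℓ ∈ ihrPs N p, W.IsGoodPrimeFor ℓ →
      θ ℓ - ((W.apOfModel ℓ : ℤ) : R) ∈ maximalIdeal R := by
  intro ℓ hℓ hgood
  rw [hθ ℓ hℓ]
  exact mlti_eig_good_sub_mem W p hΔ ht hpR hℓ.1 hgood hℓ.2.1 hℓ.2.2

include hf h𝔪 hp𝔪 ht in
/-- **(R3)** a nonzero `θ₀`-part of the Betti module of level `N` for ANY set `Ps` of primes
`ℓ ∤ N p` (e.g. all of them), `θ₀ ℓ ≡ t ℓ mod 𝔪_𝒪` on `Ps` -/
theorem mlti_part_ne_bot' (𝒪 : Type) [CommRing 𝒪] [IsDomain 𝒪] [CharZero 𝒪] [IsLocalRing 𝒪]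
    [IsNoetherianRing 𝒪] [IsAdicComplete (maximalIdeal 𝒪) 𝒪]
    (hp𝒪 : (p : 𝒪) ∈ maximalIdeal 𝒪) (Ps : Set ℕ)
    (hPs : ∀ ℓ ∈ Ps, ℓ.Prime ∧ ¬ ℓ ∣ N ∧ ℓ ≠ p) (θ₀ : ℕ → 𝒪)
    (hθ₀ : ∀ ℓ ∈ Ps, θ₀ ℓ - ((t ℓ : ℤ) : 𝒪) ∈ maximalIdeal 𝒪) :
    ih4Part 𝒪 N Ps θ₀ ≠ ⊥ :=
  ihr_part_ne_bot_of_cong 𝒪 N (Fact.out : p.Prime) hp𝒪 hf h𝔪 hp𝔪 Ps t
    (fun ℓ hℓ => ⟨(hPs ℓ hℓ).1, (hPs ℓ hℓ).2.1, (ht ℓ (hPs ℓ hℓ).1 (hPs ℓ hℓ).2.1 (hPs ℓ hℓ).2.2).1⟩)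
    θ₀ hθ₀

include hf h𝔪 hp𝔪 ht in
/-- **the rank `d`** of `MltIModular` -/
theorem mlti_rank_pos (𝒪 : Type) [CommRing 𝒪] [IsDomain 𝒪] [CharZero 𝒪] [IsLocalRing 𝒪]
    [IsNoetherianRing 𝒪] [IsAdicComplete (maximalIdeal 𝒪) 𝒪]
    (hp𝒪 : (p : 𝒪) ∈ maximalIdeal 𝒪) :
    0 < Module.finrank 𝒪 ↥(ih4Part 𝒪 N (ihrPs N p) (fun ℓ => ((t ℓ : ℤ) : 𝒪))) :=
  ih4_finrank_part_pos 𝒪 N _ _
    (mlti_part_ne_bot' W p hf h𝔪 hp𝔪 hΔ ht 𝒪 hp𝒪 (ihrPs N p) (fun ℓ hℓ => hℓ) _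
      (fun ℓ _ => by rw [sub_self]; exact zero_mem _))

end Consequences

section Local

variable {N : ℕ} [NeZero N]

/-- **the local data at the Taylor–Wiles primes** -/
theorem mlti_tw_local (hΔ : W.Δ ≠ 0) (hp2 : p ≠ 2) (hirr : W.ModRepIsIrreducible p)
    (hmod : W.IsResiduallyModularOfLevel p N)
    (k : Type) [Field k] [Algebra (ZMod p) k] {r : ℕ} (qv : Fin r → ℕ)
    (hq : ∀ i, (qv i).Prime ∧ ¬ qv i ∣ N ∧ qv i ≠ p) :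
    ∃ (Pl : Fin r → ValuationSubring Qb) (φ σ : Fin r → GQ), ∀ i,
      (Pl i).LiesOverPrime (qv i) ∧ (Pl i).IsFrobeniusAt (φ i) (qv i) ∧ IhgGen p (Pl i) (σ i) ∧
      (mltrRep W p k hΔ).IsUnramifiedAt (qv i) := by
  obtain ⟨f, 𝔪, hf, h𝔪, hp𝔪, hcong⟩ := hmod
  obtain ⟨Pl, φ, σ, h⟩ := ihg_exists_frob_gen_fn p qv (fun i => (hq i).1) (fun i => (hq i).2.2)
  exact ⟨Pl, φ, σ, fun i => ⟨(h i).1, (h i).2.1, (h i).2.2,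
    mltr_unramified_of_not_dvd W p hf hΔ h𝔪 hp𝔪 ∅
      (fun ℓ hℓ hg hℓN hℓp _ => hcong ℓ hℓ hg hℓN hℓp) hp2 hirr k (hq i).1 (hq i).2.1 (hq i).2.2⟩⟩

end Local

end

end Fermat.Agent.MLT
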