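/-
MLT / [L1] case (C), ORDINARY case (helper9), part 2: **the `hE` binder of `khk_hecke` for a general `W`**
(= `mlti_hEG` of `C/FieldEG.lean` with `p ∥ N'` and `W[p]` ordinary at `p` instead of `p ∤ N'`; the forks
`KhkOut`, `khv_hE` of `Lib/MLT/CO`).
-/
import Mathlib
import Fermat.Agent.Lib.MLT.L1.C.FieldEG
import Fermat.Agent.Lib.MLT.CO.J.Van.HE

set_option autoImplicit false
set_option linter.unusedSectionVars false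
set_option linter.unusedVariables false
set_option linter.style.haveILetI false

open IsLocalRing Matrix Polynomial Fermat.Agent.S53Lib Fermat.Agent.TW Fermat.Agent.Ihara
open Matrix MatrixGroups CongruenceSubgroup ModularCurve ModularCurve.Period Module
open Fermat.Agent.DS Fermat.Agent.T1 Fermat.Agent.T1G Fermat.Agent.T2
open WeierstrassCurve WeierstrassCurve.Affine WeierstrassCurve.Affine.Point ExtCitation

namespace Fermat.Agent.MLT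

local notation "Qbar" => AlgebraicClosure ℚ
local notation "GQ" => (AlgebraicClosure ℚ ≃ₐ[ℚ] AlgebraicClosure ℚ)

section FieldE

variable (W : WeierstrassCurve ℤ) (p : ℕ) [Fact p.Prime] {N : ℕ} [NeZero N]

/-- **the `hE` binder of `khk_hecke`** for a general `W`, every odd `p`, ordinary case -/
theorem mlti_hEO (hΔ : W.Δ ≠ 0) (hp5 : Jh5 p N) (hNsq : Squarefree N)
    (hirr : W.ModRepIsIrreducible p)
    {f : CuspForm (CongruenceSubgroup.Gamma0 N) 2}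
    {𝔪 : Ideal (integralClosure ℤ ℂ)} {t : ℕ → ℤ}
    (hf : f.IsNormalizedEigenform) (h𝔪 : 𝔪.IsMaximal)
    (hp𝔪 : (p : integralClosure ℤ ℂ) ∈ 𝔪) (ht : MltIEig W p hΔ f 𝔪 t)
    (O : Type) [CommRing O] [IsDomain O] [IsDiscreteValuationRing O] [CharZero O]
    [IsAdicComplete (IsLocalRing.maximalIdeal O) O] [Finite (ResidueField O)]
    [Algebra (ZMod p) (ResidueField O)]
    (hpO : (p : O) ∈ IsLocalRing.maximalIdeal O)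
    (b : Module.Basis (Fin 2) (ResidueField O) (mltrRep W p (ResidueField O) hΔ).V)
    (Smin : Finset ℕ)
    {Tc : Finset Nat.Primes} (hTc : ∀ v : Nat.Primes, v ∈ Tc ↔ (v : ℕ) ∣ N ∧ (v : ℕ) ∉ Smin)
    (hTc1 : ∀ v : ↥Tc, p ∣ ((v : Nat.Primes) : ℕ) - 1)
    {r : ℕ} {qv : Fin r → ℕ} (hqinj : Function.Injective qv)
    (hqv : ∀ i, (qv i).Prime ∧ ¬ qv i ∣ N ∧ qv i ≠ p) (hq1 : ∀ i, p ∣ qv i - 1)
    -- the level
    (M : ℕ) [NeZero M] (hM : 6 ≤ M) (hMN : M = N * ∏ i, qv i)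
    (h : IhqData M (ihqPrimes Tc qv) (ihqOrders Tc qv p))
    -- the eigenvalue functions
    (θ bq : ℕ → O) (hoff : ∀ ℓ, ℓ ∉ List.ofFn qv → θ ℓ = ((t ℓ : ℤ) : O))
    (hθQ : ∀ q ∈ List.ofFn qv, θ q * bq q = ((q : ℕ) : O) ∧ IsUnit (θ q) ∧ IsUnit (θ q - bq q) ∧
      IsUnit (1 - θ q ^ 2))
    (hshift : ih4Shift O θ bq (List.ofFn qv) = fun ℓ => ((t ℓ : ℤ) : O))
    -- the non-Eisenstein prime
    {ℓ₀ : ℕ} (hℓ₀ : ℓ₀.Prime) (hℓ₀M : ¬ ℓ₀ ∣ M) (hℓ₀Ps : ℓ₀ ∈ ihrPs N p)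
    (hθ : IsUnit (θ ℓ₀ - ((ℓ₀ : O) + 1)))
    (χ : ↥(ihqD1 h) →* O)
    -- the composite twist and the level of the Hecke algebra
    {Rl : List ℕ} {k : ℕ → ℕ} (hyp : IhtcHyp M (ihqKappa h).ker Rl k) (hne : Rl ≠ [])
    {N' : ℕ} [NeZero N'] (hN' : N' = M * Rl.prod)
    {S : Finset ℕ} (hpS : p ∈ S)
    (hS : ∀ l : ℕ, l.Prime → l ∣ N' → l ∈ S) (hPs : ∀ l : ℕ, l.Prime → l ∉ S → l ∈ ihrPs N p)
    (hpN' : p ∣ N' ∧ ¬ p ^ 2 ∣ N')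
    (hord : (GaloisRepAdic.ofResidualGaloisRep (mltrRep W p (ResidueField O) hΔ)).IsOrdinaryAt p)
    (hSmin : ∀ q ∈ Smin, q.Prime → q ≠ p → q ∣ N' ∧ ¬ q ^ 2 ∣ N')
    (hfrob : ∀ (ℓ : ℕ), ℓ.Prime → ℓ ∉ S →
      ∀ A : ValuationSubring Qbar, A.LiesOverPrime ℓ → ∀ σ : GQ, A.IsFrobeniusAt σ ℓ →
        LinearMap.charpoly ((mltrRep W p (ResidueField O) hΔ).ρ σ) =
          X ^ 2 - C (residue O (θ ℓ)) * X + C ((ℓ : ResidueField O)))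
    -- the data at `q₀`
    (φv : Nat.Primes → GQ)
    (hφv : ∀ v ∈ Tc, (primeLocalPlace v).IsFrobeniusAt (φv v) (v : ℕ))
    (ϖ : O) (hϖ : maximalIdeal O = Ideal.span {ϖ})
    (cs : ↥Tc → Oˣ) (hcs : ∀ v, (cs v : O) ^ 2 = 1)
    (hcsρ : ∀ v : ↥Tc, (mltrRep W p (ResidueField O) hΔ).ρ (φv v) = residue O (cs v : O) • 1)
    (q₀ : ↥Tc) (hq₀Rl : ((q₀ : Nat.Primes) : ℕ) ∈ Rl) (hq₀p : ((q₀ : Nat.Primes) : ℕ) ≠ p)
    (hlow : ¬ W.IsResiduallyModularOfLevel p (N / ((q₀ : Nat.Primes) : ℕ))) :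
    ∀ (a : CuspForm.heckeAlgebra N' 2 (↑S : Set ℕ) →+*
          Module.End O (IhmChiPart O M hM (ihqKappa h).ker (ihrPs N p) θ (ihqD1 h) χ))
        (θ' : CuspForm.heckeAlgebra N' 2 (↑S : Set ℕ) →+* ResidueField O)
        (hpart : ihdPart O a θ' = ⊤) [Nontrivial ↥(ihdPart O a θ')]
        (rA : GQ →* Matrix (Fin 2) (Fin 2) (IhdImg O a θ')) (hcts : MatCts (IhdImg O a θ') rA),
        KhkOut O M hM (ihqKappa h).ker (ihrPs N p) θ (ihqD1 h) χ (ihtcZ M Rl k) p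
          (mltrRep W p (ResidueField O) hΔ) b Smin a θ' hpart rA hcts →
        ∀ v, ∃ v', ihiAct O a θ' hpart ((rA (φv q₀)).trace -
          algebraMap O (IhdImg O a θ') ((cs q₀ : O) * (1 + (((q₀ : Nat.Primes) : ℕ) : O)))) v
            = ϖ • v' := by
  classical
  intro a θ' hpart hnt rA hcts out v
  subst hMN
  have hp : p.Prime := Fact.out
  have hp2 : p ≠ 2 := hp5.1
  have hN0 : 0 < N := Nat.pos_of_ne_zero (NeZero.ne N)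
  have hqprime : ∀ i, (qv i).Prime := fun i => (hqv i).1
  have hqN : ∀ i, ¬ qv i ∣ N := fun i => (hqv i).2.1
  have hqp : ∀ i, qv i ≠ p := fun i => (hqv i).2.2
  have hMsq : Squarefree (N * ∏ i, qv i) := ihq_squarefree_level qv hNsq hqinj hqprime hqN
  have hL : JhfLevel p (N * ∏ i, qv i) (ihqKappa h).ker :=
    jhq_level hp (jh5_of_dvd (Dvd.intro _ rfl) hp5) hMsq h (ihqOrders_pow Tc qv)
  -- the list of Taylor–Wiles primes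
  have hmem : ∀ q ∈ List.ofFn qv, ∃ i, qv i = q := fun q hq => (List.mem_ofFn' qv q).mp hq
  have hMQ : N * ∏ i, qv i = (List.ofFn qv).foldl (· * ·) N := (ihr_foldl_ofFn N qv).symm
  have hnd : (List.ofFn qv).Nodup := List.nodup_ofFn.mpr hqinj
  have hQ : ∀ q ∈ List.ofFn qv, q.Prime ∧ ¬ q ∣ N := by
    intro q hq
    obtain ⟨i, rfl⟩ := hmem q hq
    exact ⟨hqprime i, hqN i⟩
  have hPsQ : ∀ q ∈ List.ofFn qv, q ∈ ihrPs N p := by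
    intro q hq
    obtain ⟨i, rfl⟩ := hmem q hq
    exact ⟨hqprime i, hqN i, hqp i⟩
  -- the companion character
  obtain ⟨χ'', hχ''q₀, -, hχcong⟩ := ihq_exists_companion h hp hpO χ q₀
  have hϖmax : (Ideal.span {ϖ}).IsMaximal := hϖ ▸ maximalIdeal.isMaximal O
  have hχ : ∀ g : ↥(ihqD1 h), χ g - χ'' g ∈ Ideal.span {ϖ} := fun g => hϖ ▸ hχcong g
  -- the instances
  have hpartne : ih4Part O N (ihrPs N p) (ih4Shift O θ bq (List.ofFn qv)) ≠ ⊥ := by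
    rw [hshift]
    exact mlti_part_ne_bot' W p hf h𝔪 hp𝔪 hΔ ht O hpO (ihrPs N p) (fun ℓ hℓ => hℓ) _
      (fun ℓ _ => by rw [sub_self]; exact zero_mem _)
  obtain ⟨hfree1, hnt1⟩ := jhm_lvl_chi_inst O (N * ∏ i, qv i) hM (ihqKappa h).ker (ihrPs N p) θ hL
    hpO hℓ₀ hℓ₀M hℓ₀Ps hθ N (List.ofFn qv) hMQ hnd hQ hPsQ bq hθQ (ihqD1 h) χ (ihqD2 h)
    (ihqD_isCompl h)
  obtain ⟨hfree2, hnt2⟩ := jhm_lvl_chi_inst O (N * ∏ i, qv i) hM (ihqKappa h).ker (ihrPs N p) θ hL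
    hpO hℓ₀ hℓ₀M hℓ₀Ps hθ N (List.ofFn qv) hMQ hnd hQ hPsQ bq hθQ (ihqD1 h) χ'' (ihqD2 h)
    (ihqD_isCompl h)
  haveI := hfree1
  haveI := hfree2
  haveI : Nontrivial (IhmChiPart O (N * ∏ i, qv i) hM (ihqKappa h).ker (ihrPs N p) θ (ihqD1 h)
    χ'') := hnt2 hpartne
  -- the lower level
  obtain ⟨hN₀dvd, hN₀ne, hN₀pos, hN₀sq, hqvN₀, heq, hNmpos, hNmsq, hq₀Nm, hm, hP, hLm, hsmall⟩ :=
    mlti_lowerG Tc qv Smin hp hp5 hN0 hNsq hTc hTc1 hqinj hqprime hqN hq1 q₀ h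
  haveI : NeZero (N / ((q₀ : Nat.Primes) : ℕ)) := ⟨hN₀pos.ne'⟩
  haveI : NeZero (N / ((q₀ : Nat.Primes) : ℕ) * ∏ i, qv i) := ⟨hNmpos.ne'⟩
  have hq₀pr : (((q₀ : Nat.Primes) : ℕ)).Prime := (q₀ : Nat.Primes).2
  have hq₀N : ((q₀ : Nat.Primes) : ℕ) ∣ N := ((hTc q₀).1 q₀.2).1
  have hMN' : N * ∏ i, qv i ∣ N' := hN' ▸ Dvd.intro _ rfl
  have hNeq : N = N / ((q₀ : Nat.Primes) : ℕ) * ((q₀ : Nat.Primes) : ℕ) :=
    (Nat.div_mul_cancel hq₀N).symm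
  have hq₀N₀ : ¬ ((q₀ : Nat.Primes) : ℕ) ∣ N / ((q₀ : Nat.Primes) : ℕ) := fun h0 =>
    hq₀Nm (Dvd.dvd.mul_right h0 _)
  -- the hypotheses of `jhv_hbot`, for the model scaled by `q₀`
  set W' : WeierstrassCurve ℤ := mltl1Scale W ((q₀ : Nat.Primes) : ℕ) with hW'
  have hMQm : N / ((q₀ : Nat.Primes) : ℕ) * ∏ i, qv i
      = (List.ofFn qv).foldl (· * ·) (N / ((q₀ : Nat.Primes) : ℕ)) :=
    (ihr_foldl_ofFn (N / ((q₀ : Nat.Primes) : ℕ)) qv).symm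
  have hQm : ∀ q ∈ List.ofFn qv, q.Prime ∧ ¬ q ∣ N / ((q₀ : Nat.Primes) : ℕ) := by
    intro q hq
    obtain ⟨i, rfl⟩ := hmem q hq
    exact ⟨hqprime i, hqvN₀ i⟩
  have hθW₀ : ∀ ℓ ∈ ihrPs N p, W.IsGoodPrimeFor ℓ →
      ih4Shift O θ bq (List.ofFn qv) ℓ - ((W.apOfModel ℓ : ℤ) : O) ∈ maximalIdeal O :=
    mlti_theta_good W p hΔ ht hpO (ih4Shift O θ bq (List.ofFn qv)) (fun ℓ _ => by rw [hshift])
  have hθW : ∀ ℓ ∈ ihrPs N p, W'.IsGoodPrimeFor ℓ →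
      ih4Shift O θ bq (List.ofFn qv) ℓ - ((W'.apOfModel ℓ : ℤ) : O) ∈ maximalIdeal O := by
    intro ℓ hℓ hg
    rw [hW', mltl1Scale_ap W hΔ hq₀pr.ne_zero hℓ.1 hg]
    exact hθW₀ ℓ hℓ (mltl1Scale_good W hg).1
  have hPsW : ∀ ℓ : ℕ, ℓ.Prime → W'.IsGoodPrimeFor ℓ → ¬ ℓ ∣ N / ((q₀ : Nat.Primes) : ℕ) →
      ℓ ≠ p → ℓ ∈ ihrPs N p := by
    intro ℓ hℓ hg hℓN₀ hℓp
    refine ⟨hℓ, fun hℓN => ?_, hℓp⟩
    rw [hNeq] at hℓN
    rcases (Nat.Prime.dvd_mul hℓ).mp hℓN with h0 | h0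
    · exact hℓN₀ h0
    · exact (mltl1Scale_good W hg).2 ((Nat.prime_dvd_prime_iff_eq hℓ hq₀pr).mp h0)
  have hminW : ¬ W'.IsResiduallyModularOfLevel p (N / ((q₀ : Nat.Primes) : ℕ)) := fun h0 =>
    hlow (mlti_resid_of_scale W p hΔ hq₀pr hq₀p hq₀N₀ h0)
  have hcase : ((ihqKappa hm).ker = ⊤ ∧ List.ofFn qv = []) ∨
      (6 ≤ N / ((q₀ : Nat.Primes) : ℕ) * ∏ i, qv i ∧
        JhfLevel p (N / ((q₀ : Nat.Primes) : ℕ) * ∏ i, qv i) (ihqKappa hm).ker ∧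
        ∃ ℓ₀ : ℕ, ℓ₀.Prime ∧ ¬ ℓ₀ ∣ N / ((q₀ : Nat.Primes) : ℕ) * ∏ i, qv i ∧ ℓ₀ ∈ ihrPs N p ∧
          IsUnit (θ ℓ₀ - ((ℓ₀ : O) + 1))) := by
    rcases hsmall with h2 | h6
    · exact Or.inl h2
    · right
      exact ⟨h6, hLm, ℓ₀, hℓ₀, fun hd => hℓ₀M (heq ▸ Dvd.dvd.mul_right hd _), hℓ₀Ps, hθ⟩
  exact khv_hE O (N * ∏ i, qv i) hM (ihqKappa h).ker (ihrPs N p) θ hL hpO (ihqD1 h) χ χ'' ϖ
    hϖmax hχ hyp hq₀Rl hq₀p (hTc1 q₀) hN' hpS hS hPs hpN'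
    (ihqKappa (h.comp (Subtype.val : {j // j ≠ (Sum.inl q₀ : ↥Tc ⊕ Fin r)} → _)
      Subtype.val_injective)).ker
    (ihq_ker_le_comp h (Subtype.val : {j // j ≠ (Sum.inl q₀ : ↥Tc ⊕ Fin r)} → _)
      Subtype.val_injective) (fun u => ihq_iota_mem_ker_ne hMsq h (Sum.inl q₀) u)
    (ihq_chi_trivial_inl h χ'' q₀ hχ''q₀) hP (ihrPs N p) (Set.Subset.refl _)
    (ihr_notMem_Ps_of_dvd hq₀N _)
    (fun R _ _ _ _ _ _ _ _ => jhv_hbot O (N / ((q₀ : Nat.Primes) : ℕ) * ∏ i, qv i) (ihqKappa hm).ker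
      (ihrPs N p) θ hp hpO (N / ((q₀ : Nat.Primes) : ℕ)) (List.ofFn qv) hMQm hnd hQm hPsQ bq hθQ
      W' hθW hPsW hminW hcase R)
    (mltrRep W p (ResidueField O) hΔ) (mltr_habs W p (ResidueField O) hΔ hp2 hirr) hord hfrob b Smin
    hSmin (φv q₀)
    (primeLocalPlace q₀) (tw_primeLocalPlace_liesOver q₀) (hφv q₀ q₀.2) (cs q₀ : O) (hcs q₀)
    (hcsρ q₀) a θ' hpart rA hcts out v

end FieldE

end Fermat.Agent.MLT
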