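/-
MLT / [L1] case (C) (helper9), part 7G: **the target of the modular side, flat case, EVERY odd `p`**:

  `mlti_modularG : MltIModularG p`

`MltIModularG p` generalises `MltIModular p` (`C/Defs.lean`):
* `Jh5 p N` (`p ≠ 2`, and `5 ≤ p` or a prime `r ≡ 2 mod 3` divides `N`) instead of `5 ≤ p`: the freeness /
  control machinery is the fork `Lib/MLT/Fr3`;
* `Smin` is ANY finite set of primes containing `p` whose other elements divide `N` (it has to contain the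
  ramified primes of `W[p]` only for the Galois side), `Tc` = the primes of `N` outside `Smin`, all of type (C);
  this allows an AUXILIARY prime `r₀ ∈ Smin` (`C/AuxPrime.lean`) when `p = 3` and no prime `≡ 2 mod 3` divides
  the level;
* the minimality of `N` is replaced by its only used instance: `W[p]` is not modular of level `N / q₀`.
-/
import Mathlib
import Fermat.Agent.Lib.MLT.L1.C.Defs
import Fermat.Agent.Lib.MLT.L1.C.Res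
import Fermat.Agent.Lib.MLT.L1.C.FieldEG
import Fermat.Agent.Lib.Ihara.Rb.Modular
import Fermat.Agent.Lib.MLT.Fr3.Glue.Hecke
import Fermat.Agent.Lib.MLT.Fr3.Hm.LvlTW
import Fermat.Agent.Lib.MLT.Fr3.Sc.AQ

set_option autoImplicit false
set_option linter.unusedSectionVars false
set_option linter.unusedVariables false
set_option linter.style.haveILetI false
set_option maxHeartbeats 1000000

open IsLocalRing Matrix Polynomial Fermat.Agent.S53Lib Fermat.Agent.TW Fermat.Agent.Ihara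
open Matrix MatrixGroups CongruenceSubgroup ModularCurve ModularCurve.Period Module
open Fermat.Agent.DS Fermat.Agent.T1 Fermat.Agent.T1G Fermat.Agent.T2
open WeierstrassCurve WeierstrassCurve.Affine WeierstrassCurve.Affine.Point ExtCitation

namespace Fermat.Agent.MLT

local notation "Qbar" => AlgebraicClosure ℚ
local notation "GQ" => (AlgebraicClosure ℚ ≃ₐ[ℚ] AlgebraicClosure ℚ)

/-- **THE TARGET OF THE MODULAR SIDE, flat case, every odd `p`, general `Smin`** -/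
def MltIModularG (p : ℕ) [Fact p.Prime] : Prop :=
  ∀ (W : WeierstrassCurve ℤ) (hΔ : W.Δ ≠ 0), W.IsSemistableModel → W.ModRepIsIrreducible p →
    ∀ (N : ℕ), 0 < N → Squarefree N → ¬ p ∣ N → W.IsResiduallyModularOfLevel p N → Jh5 p N →
    ∀ (𝒪 : Type) [CommRing 𝒪] [IsDomain 𝒪] [IsDiscreteValuationRing 𝒪]
      [IsAdicComplete (maximalIdeal 𝒪) 𝒪] [Finite (ResidueField 𝒪)] [CharZero 𝒪]
      [Algebra (ZMod p) (ResidueField 𝒪)],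
      (p : 𝒪) ∈ maximalIdeal 𝒪 →
      (∀ a : ZMod p, IsSquare (algebraMap (ZMod p) (ResidueField 𝒪) a)) →
      ∀ (b : Module.Basis (Fin 2) (ResidueField 𝒪) (mltrRep W p (ResidueField 𝒪) hΔ).V)
        (Smin : Finset ℕ), p ∈ Smin → (∀ q ∈ Smin, q.Prime) →
        (∀ q ∈ Smin, q ≠ p → q ∣ N) →
      ∀ (Tc : Finset Nat.Primes), (∀ v : Nat.Primes, v ∈ Tc ↔ (v : ℕ) ∣ N ∧ (v : ℕ) ∉ Smin) →
        (∀ v : ↥Tc, MltL1CPrime W p ((v : Nat.Primes) : ℕ)) →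
      ∀ (φv σv : Nat.Primes → GQ),
        (∀ v ∈ Tc, (primeLocalPlace v).IsFrobeniusAt (φv v) (v : ℕ)) →
        (∀ v ∈ Tc, IhgGen p (primeLocalPlace v) (σv v)) →
      ∀ (ϖ : 𝒪), maximalIdeal 𝒪 = Ideal.span {ϖ} →
      ∀ (μ : ↥Tc → Finset 𝒪ˣ),
        (∀ v : ↥Tc, ∃ a u : ℕ, ((v : Nat.Primes) : ℕ) = 1 + p ^ a * u ∧ ¬ p ∣ u ∧ 0 < a ∧
          (Polynomial.X ^ (p ^ a) - 1 : Polynomial 𝒪) =
            (Polynomial.X - 1) * ∏ ζ ∈ μ v, (Polynomial.X - Polynomial.C (ζ : 𝒪)) ∧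
          (∀ ζ ∈ μ v, ζ ^ (p ^ a) = 1 ∧ ζ ≠ 1) ∧
          ∃ ζ ∈ μ v, IsPrimitiveRoot (ζ : 𝒪) (p ^ a)) →
      ∀ (cs : ↥Tc → 𝒪ˣ), (∀ v, (cs v : 𝒪) ^ 2 = 1) →
        (∀ v : ↥Tc, (mltrRep W p (ResidueField 𝒪) hΔ).ρ (φv v) = residue 𝒪 (cs v : 𝒪) • 1) →
      ∀ q₀ : ↥Tc, ¬ W.IsResiduallyModularOfLevel p (N / ((q₀ : Nat.Primes) : ℕ)) →
      ∃ S : Finset ℕ, Smin ⊆ S ∧ (∀ v ∈ Tc, (v : ℕ) ∈ S) ∧
        ∃ d : ℕ, 0 < d ∧ ∀ (r n : ℕ) (qv : Fin r → ℕ), Function.Injective qv →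
          (∀ i, (qv i).Prime ∧ qv i ∉ S ∧ p ^ (n + 1) ∣ qv i - 1) →
          (∀ i, IsTWPrime (mltrRep W p (ResidueField 𝒪) hΔ) (qv i)) →
          IhaHecke p (mltrRep W p (ResidueField 𝒪) hΔ) b (fun _ _ _ ρ => ρ.IsFlatAt p)
            Smin Tc φv σv ϖ μ cs q₀ r d qv n

/-- **the target of the modular side, flat case, every odd `p`** -/
theorem mlti_modularG (p : ℕ) [Fact p.Prime] : MltIModularG p := by
  classical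
  intro W hΔ hss hirr N hN0 hNsq hpN hmodN hp5 𝒪 _ _ _ _ _ _ _ hp𝒪 hsq b Smin hpSmin hSminpr
    hSminN Tc hTc hCv φv σv hφv hσv ϖ hϖ μ hμ cs hcs hcsρ q₀ hlow
  haveI : NeZero N := ⟨hN0.ne'⟩
  have hp : p.Prime := Fact.out
  have hp2 : p ≠ 2 := hp5.1
  obtain ⟨f, 𝔪, hf, h𝔪, hp𝔪, hcong⟩ := hmodN
  have hmodN' : W.IsResiduallyModularOfLevel p N := ⟨f, 𝔪, hf, h𝔪, hp𝔪, hcong⟩
  obtain ⟨t, ht⟩ := mlti_exists_eig W p hf hΔ h𝔪 hp𝔪 hcong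
  have habs : (mltrRep W p (ResidueField 𝒪) hΔ).IsAbsolutelyIrreducible :=
    mltr_habs W p (ResidueField 𝒪) hΔ hp2 hirr
  have hTc1 : ∀ v : ↥Tc, p ∣ ((v : Nat.Primes) : ℕ) - 1 := fun v => (hCv v).one_mod
  -- the set `S₀ = Smin ∪ Tc`
  have hS₀sub : Smin ⊆ Smin ∪ ihgNat Tc := Finset.subset_union_left
  have hpS₀ : p ∈ Smin ∪ ihgNat Tc := hS₀sub hpSmin
  have hTcS₀ : ∀ v ∈ Tc, ((v : Nat.Primes) : ℕ) ∈ Smin ∪ ihgNat Tc :=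
    fun v hv => Finset.mem_union_right _ (mem_ihgNat.2 hv)
  have hS₀N : ∀ ℓ : ℕ, ℓ.Prime → ℓ ∉ Smin ∪ ihgNat Tc → ¬ ℓ ∣ N ∧ ℓ ≠ p :=
    fun ℓ hℓ hℓS => ⟨mlti_not_dvd_of_notMem Tc Smin hTc _ hS₀sub hTcS₀ hℓ hℓS,
      fun h => hℓS (h ▸ hpS₀)⟩
  -- the eigenvalue function at level `N`
  have hfrob₀ : ∀ (ℓ : ℕ), ℓ.Prime → ℓ ∉ Smin ∪ ihgNat Tc →
      ∀ A : ValuationSubring Qbar, A.LiesOverPrime ℓ → ∀ σ : GQ, A.IsFrobeniusAt σ ℓ →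
        LinearMap.charpoly ((mltrRep W p (ResidueField 𝒪) hΔ).ρ σ) =
          X ^ 2 - C (residue 𝒪 ((fun ℓ => ((t ℓ : ℤ) : 𝒪)) ℓ)) * X + C ((ℓ : ResidueField 𝒪)) :=
    fun ℓ hℓ hℓS A hA σ hσ => mlti_frob_theta0 W p hΔ ht (fun ℓ => ((t ℓ : ℤ) : 𝒪)) hℓ
      (hS₀N ℓ hℓ hℓS).1 (hS₀N ℓ hℓ hℓS).2 (by simp only [sub_self]; exact zero_mem _) A hA σ hσ
  refine ⟨Smin ∪ ihgNat Tc, hS₀sub, hTcS₀,
    Module.finrank 𝒪 ↥(ih4Part 𝒪 N (ihrPs N p) (fun ℓ => ((t ℓ : ℤ) : 𝒪))),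
    mlti_rank_pos W p hf h𝔪 hp𝔪 hΔ ht 𝒪 hp𝒪, ?_⟩
  intro r n qv hqinj hqv hTW
  have hqv' : ∀ i, (qv i).Prime ∧ qv i ∉ Smin ∪ ihgNat Tc :=
    fun i => ⟨(hqv i).1, (hqv i).2.1⟩
  have hqn : ∀ i, p ^ (n + 1) ∣ qv i - 1 := fun i => (hqv i).2.2
  have hq1 : ∀ i, p ∣ qv i - 1 :=
    fun i => (dvd_pow_self p (Nat.succ_ne_zero n)).trans (hqn i)
  have h : IhqData (N * ∏ i, qv i) (ihqPrimes Tc qv) (ihqOrders Tc qv p) :=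
    mlti_data_of_modular Tc qv Smin hTc _ hS₀sub hTcS₀ hqinj hqv'
  obtain ⟨hM0, hM6, hMsq, hpM, hRlne, hN'0, hpN', hS, hSmin, hPsform, hqfacts, hTcfacts⟩ :=
    mlti_arith Tc qv Smin hp hp2 hN0 hNsq hpN hpSmin hSminN hTc _ hS₀sub hTcS₀ hqinj hqv' q₀
      (hTc1 q₀)
  haveI : NeZero (N * ∏ i, qv i) := ⟨hM0.ne'⟩
  haveI : NeZero (N * (∏ i, qv i) * (ihqRl Tc qv).prod) := ⟨hN'0.ne'⟩
  have hqv3 : ∀ i, (qv i).Prime ∧ ¬ qv i ∣ N ∧ qv i ≠ p :=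
    fun i => ⟨(hqv i).1, (hqfacts i).1, (hqfacts i).2.1⟩
  have hL : JhfLevel p (N * ∏ i, qv i) (ihqKappa h).ker :=
    jhq_level hp (jh5_of_dvd (Dvd.intro _ rfl) hp5) hMsq h (ihqOrders_pow Tc qv)
  -- the list of Taylor–Wiles primes
  have hmem : ∀ q ∈ List.ofFn qv, ∃ i, qv i = q := fun q hq => (List.mem_ofFn' qv q).mp hq
  have hMQ : N * ∏ i, qv i = (List.ofFn qv).foldl (· * ·) N := (ihr_foldl_ofFn N qv).symm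
  have hnd : (List.ofFn qv).Nodup := List.nodup_ofFn.mpr hqinj
  have hQ4 : ∀ q ∈ List.ofFn qv, q.Prime ∧ q ∉ Smin ∪ ihgNat Tc ∧ p ∣ q - 1 ∧
      IsTWPrime (mltrRep W p (ResidueField 𝒪) hΔ) q := by
    intro q hq
    obtain ⟨i, rfl⟩ := hmem q hq
    exact ⟨(hqv i).1, (hqv i).2.1, hq1 i, hTW i⟩
  have hQ2 : ∀ q ∈ List.ofFn qv, q.Prime ∧ ¬ q ∣ N := by
    intro q hq
    obtain ⟨i, rfl⟩ := hmem q hq
    exact ⟨(hqv3 i).1, (hqv3 i).2.1⟩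
  have hPsQ : ∀ q ∈ List.ofFn qv, q ∈ ihrPs N p := by
    intro q hq
    obtain ⟨i, rfl⟩ := hmem q hq
    exact hqv3 i
  have hSN : ∀ ℓ : ℕ, ℓ.Prime → ℓ ∣ N → ℓ ∈ Smin ∪ ihgNat Tc := by
    intro ℓ hℓ hℓN
    by_contra hℓS
    exact (hS₀N ℓ hℓ hℓS).1 hℓN
  have hPs₀ : ∀ ℓ : ℕ, ℓ.Prime → ℓ ∉ Smin ∪ ihgNat Tc → ℓ ∈ ihrPs N p :=
    fun ℓ hℓ hℓS => ⟨hℓ, (hS₀N ℓ hℓ hℓS).1, (hS₀N ℓ hℓ hℓS).2⟩
  -- (B) the eigensystem at level `M`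
  obtain ⟨θ, bq, hoff, hsum, hθQ, hcharQ, hneQ, -, -, hinst⟩ :=
    jhm_lvl_free_TW 𝒪 (mltrRep W p (ResidueField 𝒪) hΔ) habs _ (fun ℓ => ((t ℓ : ℤ) : 𝒪)) hfrob₀
      hp𝒪 N hSN (List.ofFn qv) hnd hQ4 (N * ∏ i, qv i) hM6 hMQ (ihqKappa h).ker hL (ihrPs N p) hPs₀
  have hshift : ih4Shift 𝒪 θ bq (List.ofFn qv) = fun ℓ => ((t ℓ : ℤ) : 𝒪) := by
    funext ℓ
    unfold ih4Shift
    by_cases hℓ : ℓ ∈ List.ofFn qv
    · simp only [hℓ, if_true]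
      exact hsum ℓ hℓ
    · simp only [hℓ, if_false]
      exact hoff ℓ hℓ
  -- the non-Eisenstein prime
  obtain ⟨ℓ₀, hℓ₀, hℓ₀S, hℓ₀T, hθ₀⟩ := ihm_exists_nonEis 𝒪 (mltrRep W p (ResidueField 𝒪) hΔ) habs _
    (Finset.univ.image qv) (fun ℓ => ((t ℓ : ℤ) : 𝒪)) hfrob₀
  have hℓ₀q : ∀ i, ℓ₀ ≠ qv i :=
    fun i h0 => hℓ₀T (Finset.mem_image.mpr ⟨i, Finset.mem_univ i, h0.symm⟩)
  have hℓ₀Q : ℓ₀ ∉ List.ofFn qv := fun h0 => by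
    obtain ⟨i, hi⟩ := hmem ℓ₀ h0
    exact hℓ₀q i hi.symm
  have hℓ₀M : ¬ ℓ₀ ∣ N * ∏ i, qv i := fun h0 => by
    rcases (Nat.Prime.dvd_mul hℓ₀).mp h0 with h1 | h1
    · exact (hS₀N ℓ₀ hℓ₀ hℓ₀S).1 h1
    · exact ihr_not_dvd_prod qv (fun i => (hqv i).1) hℓ₀ hℓ₀q h1
  have hℓ₀Ps : ℓ₀ ∈ ihrPs N p := hPs₀ ℓ₀ hℓ₀ hℓ₀S
  have hθ : IsUnit (θ ℓ₀ - ((ℓ₀ : 𝒪) + 1)) := by
    rw [hoff ℓ₀ hℓ₀Q]
    exact hθ₀
  -- the character `χ` of `Δ₁`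
  choose av uv hvau hu ha hμpoly hμroots hμprim using hμ
  choose ζv hζvmem hζvprim using hμprim
  obtain ⟨χ, hχ⟩ := ihq_exists_chi h (fun v : ↥Tc => ((ζv v : 𝒪ˣ) : 𝒪)) (fun v => by
    rw [ihq_padicValNat_eq hp (hvau v) (hu v)]
    have h1 := (hμroots v (ζv v) (hζvmem v)).1
    have h2 := congrArg Units.val h1
    simpa using h2)
  have hχv : ∀ v : ↥Tc, χ ((ihqD1Equiv h).symm (ihqGen _ v)) ≠ 1 := by
    intro v h1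
    rw [hχ v] at h1
    exact (hμroots v (ζv v) (hζvmem v)).2 (Units.ext h1)
  -- the Hecke set and the Frobenius condition
  have hPs : ∀ l : ℕ, l.Prime →
      l ∉ Smin ∪ ihgNat Tc ∪ Finset.univ.image qv → l ∈ ihrPs N p :=
    fun l hl hlS => ⟨hl, (hPsform l hl hlS).1, (hPsform l hl hlS).2⟩
  have hfrob : ∀ (ℓ : ℕ), ℓ.Prime →
      ℓ ∉ Smin ∪ ihgNat Tc ∪ Finset.univ.image qv →
      ∀ A : ValuationSubring Qbar, A.LiesOverPrime ℓ → ∀ σ : GQ, A.IsFrobeniusAt σ ℓ →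
        LinearMap.charpoly ((mltrRep W p (ResidueField 𝒪) hΔ).ρ σ) =
          X ^ 2 - C (residue 𝒪 (θ ℓ)) * X + C ((ℓ : ResidueField 𝒪)) := by
    intro ℓ hℓ hℓS A hA σ hσ
    have hℓS₀ : ℓ ∉ Smin ∪ ihgNat Tc :=
      fun h0 => hℓS (Finset.mem_union_left _ h0)
    have hℓQ : ℓ ∉ List.ofFn qv := fun h0 => by
      obtain ⟨i, hi⟩ := hmem ℓ h0
      exact hℓS (Finset.mem_union_right _ (Finset.mem_image.mpr ⟨i, Finset.mem_univ i, hi⟩))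
    rw [hoff ℓ hℓQ]
    exact hfrob₀ ℓ hℓ hℓS₀ A hA σ hσ
  -- the local data
  obtain ⟨Pl, φ, σ, hloc⟩ := mlti_tw_local W p hΔ hp2 hirr hmodN' (ResidueField 𝒪) qv hqv3
  have hTcp : ∀ v : ↥Tc, ((v : Nat.Primes) : ℕ) ≠ p := fun v => (hTcfacts v).2.1
  have hσv' : ∀ v ∈ Tc, σv v ∈ (primeLocalPlace v).inertiaSubgroupIn ℚ :=
    fun v hv => (hσv v hv).mem
  have hunr : ∀ v : ↥Tc,
      (mltrRep W p (ResidueField 𝒪) hΔ).IsUnramifiedAt ((v : Nat.Primes) : ℕ) :=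
    fun v => mlti_unramified W p _ hΔ (hCv v).unram
  have hq₀1 : p ∣ ((q₀ : Nat.Primes) : ℕ) - 1 := (hCv q₀).one_mod
  -- the instances on `M^χ`
  haveI : Module.Free 𝒪 (IhmChiPart 𝒪 (N * ∏ i, qv i) hM6 (ihqKappa h).ker (ihrPs N p) θ
    (ihqD1 h) χ) := (hinst (ihqD1 h) χ).1
  have hd : Module.finrank 𝒪 ↥(ih4Part 𝒪 N (ihrPs N p) (ih4Shift 𝒪 θ bq (List.ofFn qv)))
      = Module.finrank 𝒪 ↥(ih4Part 𝒪 N (ihrPs N p) (fun ℓ => ((t ℓ : ℤ) : 𝒪))) := by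
    rw [hshift]
  have hpS : p ∈ Smin ∪ ihgNat Tc ∪ Finset.univ.image qv :=
    Finset.mem_union_left _ hpS₀
  have hyp : IhtcHyp (N * ∏ i, qv i) (ihqKappa h).ker (ihqRl Tc qv) (ihqK Tc qv p) :=
    ihq_tcHyp_sum Tc qv hMsq hp hp2 h
  exact jhk_hecke 𝒪 p (N * ∏ i, qv i) hM6 h (ihrPs N p) θ χ (jh5_of_dvd (Dvd.intro _ rfl) hp5) hp𝒪 hMsq hyp hRlne
    (N' := N * (∏ i, qv i) * (ihqRl Tc qv).prod) rfl Smin
    (S := Smin ∪ ihgNat Tc ∪ Finset.univ.image qv) rfl hS hPs hpSmin hpN' hSmin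
    (mltrRep W p (ResidueField 𝒪) hΔ) habs hfrob b hℓ₀ hℓ₀M hℓ₀Ps hθ N (List.ofFn qv) hMQ hnd hQ2
    hPsQ bq hθQ _ hd (mlti_rank_pos W p hf h𝔪 hp𝔪 hΔ ht 𝒪 hp𝒪) n hqn φv σv hTcp hφv hσv' ϖ μ cs q₀
    (fun a θ' hpart _ rA hcts out v => ihk_fields_TC 𝒪 p (N * ∏ i, qv i) hM6 h (ihrPs N p) θ χ
      (mltrRep W p (ResidueField 𝒪) hΔ) b Smin a θ' hpart rA hcts out rfl hpS hS hp2 hp𝒪 hMsq v
      (hTcp v) (hunr v) (hφv v v.2) (hσv v v.2) (av v) (uv v) (hvau v) (hu v) (ha v) (μ v)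
      (hμpoly v) (hχv v))
    (fun a θ' hpart _ rA hcts out => jhsc_hAQ 𝒪 p (N * ∏ i, qv i) hM6 h (ihrPs N p) θ χ (jh5_of_dvd (Dvd.intro _ rfl) hp5) hp𝒪
      hMsq rfl hpS hS (mltrRep W p (ResidueField 𝒪) hΔ) habs b Smin
      (fun Δ₁' χ' => (hinst Δ₁' χ').1) (List.ofFn qv)
      (fun i => (List.mem_ofFn' qv _).mpr ⟨i, rfl⟩) hPsQ bq hθQ n hqn q₀ Pl φ σ hloc hTW a θ' hpart
      rA hcts out)
    (mlti_hEG W p hΔ hp5 hNsq hirr hf h𝔪 hp𝔪 ht 𝒪 hp𝒪 b Smin hTc hTc1 hqinj hqv3 hq1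
      (N * ∏ i, qv i) hM6 rfl h θ
      bq (fun ℓ hℓ => hoff ℓ hℓ) hθQ hshift hℓ₀ hℓ₀M hℓ₀Ps hθ χ hyp hRlne rfl hpS hS hPs
      hpN' hSmin hfrob φv hφv ϖ hϖ cs hcs hcsρ q₀ (ihq_mem_Rl_inl Tc qv q₀) hlow)

end Fermat.Agent.MLT
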