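/-
MLT / [L1] case (C) (helper9), part 1: **the primes of type (C) for a general `W`** (the analogue of
`Lib/Ihara/Rb/Sign.lean`), on top of the residual package [R] of the lead (`Lib/MLT/Res/*`).

* `mlti_unramified`   : `MltL1Unram W p q` ⟹ `(mltrRep W p k hΔ).IsUnramifiedAt q`;
* `mlti_unram_of_rep` : the converse;
* `mlti_inertia_eq_one` : inertia elements at an unramified prime act trivially;
* `mlti_scalar`, `mlti_sign` : a scalar Frobenius element at a prime `v ≡ 1 mod p` acts on `k ⊗ W[p]` as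
  the residue of a sign `cs ∈ 𝒪ˣ`, `cs² = 1`.
-/
import Mathlib
import Fermat.Agent.Lib.MLT.L1.Defs
import Fermat.Agent.Lib.MLT.Res.CongAll
import Fermat.Agent.Lib.Ihara.Rb.Gen

set_option autoImplicit false
set_option linter.unusedSectionVars false
set_option linter.unusedVariables false
set_option linter.style.haveILetI false

open IsLocalRing WeierstrassCurve WeierstrassCurve.Affine.Point Fermat.Agent.S58 Fermat.Agent.Ihara
open scoped WeierstrassCurve.Affine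

namespace Fermat.Agent.MLT

local notation "Qb" => AlgebraicClosure ℚ
local notation "GQ" => (AlgebraicClosure ℚ ≃ₐ[ℚ] AlgebraicClosure ℚ)

noncomputable section

variable (W : WeierstrassCurve ℤ) (p : ℕ) [Fact p.Prime] (k : Type) [Field k] [Algebra (ZMod p) k]

/-- pointwise unramifiedness gives unramifiedness of `mltrRep` -/
theorem mlti_unramified (hΔ : W.Δ ≠ 0) {q : ℕ} (h : MltL1Unram W p q) :
    (mltrRep W p k hΔ).IsUnramifiedAt q := by
  intro A hA σ hσ
  have h1 : (mltrE W p hΔ).ρ σ = 1 := LinearMap.ext (fun x => h A hA σ hσ x)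
  show ((mltrE W p hΔ).ρ σ).baseChange k = 1
  rw [h1]
  exact LinearMap.baseChange_one _ _

/-- unramifiedness of `mltrRep` gives pointwise unramifiedness -/
theorem mlti_unram_of_rep (hΔ : W.Δ ≠ 0) {q : ℕ} (h : (mltrRep W p k hΔ).IsUnramifiedAt q) :
    MltL1Unram W p q := by
  intro A hA σ hσ x
  have h1 : (mltrE W p hΔ).ρ σ = 1 :=
    (ihr_baseChange_ρ_eq_one_iff (mltrE W p hΔ) k σ).1 (h A hA σ hσ)
  have h2 := congrArg (fun f => f x) h1
  exact h2

/-- inertia elements at an unramified prime act trivially -/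
theorem mlti_inertia_eq_one (hΔ : W.Δ ≠ 0) {v : ℕ} (hunr : MltL1Unram W p v)
    {A : ValuationSubring Qb} (hA : A.LiesOverPrime v) {σ : GQ}
    (hσ : σ ∈ A.inertiaSubgroupIn ℚ) : (mltrRep W p k hΔ).ρ σ = 1 :=
  mlti_unramified W p k hΔ hunr A hA σ hσ

/-- a pointwise scalar element acts as a scalar on `W[p]` -/
theorem mlti_scalar_E (hΔ : W.Δ ≠ 0) {φ : GQ} {c : ℤ}
    (hc : ∀ x : Submodule.torsionBy ℤ ((W.map (Int.castRingHom ℚ)).toAffine⁄Qb).Point p,
      φ • x = c • x) :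
    (mltrE W p hΔ).ρ φ = ((c : ℤ) : ZMod p) • 1 := by
  apply LinearMap.ext
  intro x
  show (mltrE W p hΔ).ρ φ x = ((c : ℤ) : ZMod p) • x
  rw [Int.cast_smul_eq_zsmul]
  exact hc x

/-- scalar Frobenius elements -/
theorem mlti_scalar (hΔ : W.Δ ≠ 0) {φ : GQ}
    (hsc : ∃ c : ℤ, ∀ x : Submodule.torsionBy ℤ ((W.map (Int.castRingHom ℚ)).toAffine⁄Qb).Point p,
      φ • x = c • x) :
    ∃ c : k, (mltrRep W p k hΔ).ρ φ = c • 1 := by
  obtain ⟨c, hc⟩ := hsc
  exact ⟨_, ihr_baseChange_ρ_scalar (mltrE W p hΔ) k (mlti_scalar_E W p hΔ hc)⟩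

/-- **the sign of a scalar Frobenius element at a prime `v ≡ 1 mod p`** -/
theorem mlti_sign (hΔ : W.Δ ≠ 0) {𝒪 : Type} [CommRing 𝒪] [IsLocalRing 𝒪]
    [Algebra (ZMod p) (ResidueField 𝒪)]
    {v : ℕ} (hv : v.Prime) (hvp : v ≠ p) (h1 : p ∣ v - 1)
    {A : ValuationSubring Qb} (hA : A.LiesOverPrime v) {φ : GQ} (hφ : A.IsFrobeniusAt φ v)
    (hsc : ∃ c : ℤ, ∀ x : Submodule.torsionBy ℤ ((W.map (Int.castRingHom ℚ)).toAffine⁄Qb).Point p,
      φ • x = c • x) :
    ∃ cs : 𝒪ˣ, (cs : 𝒪) ^ 2 = 1 ∧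
      (mltrRep W p (ResidueField 𝒪) hΔ).ρ φ = residue 𝒪 (cs : 𝒪) • 1 := by
  have hp : p.Prime := Fact.out
  obtain ⟨c, hc⟩ := hsc
  have h : (mltrE W p hΔ).ρ φ = ((c : ℤ) : ZMod p) • 1 := mlti_scalar_E W p hΔ hc
  -- the determinant
  have hdet : LinearMap.det ((mltrE W p hΔ).ρ φ) = ((c : ℤ) : ZMod p) ^ 2 := by
    rw [h, LinearMap.det_smul, (mltrE W p hΔ).finrank_eq, map_one, mul_one]
  have hcyc : LinearMap.det ((mltrE W p hΔ).ρ φ) = (v : ZMod p) :=
    mltr_det_frob_E W p hΔ hv hvp A hA φ hφ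
  have hv1 : (v : ZMod p) = 1 := by
    obtain ⟨m, hm⟩ := h1
    have h2 : v = 1 + p * m := by have := hv.pos; omega
    rw [h2]
    push_cast
    rw [ZMod.natCast_self, zero_mul, add_zero]
  have hsq : ((c : ℤ) : ZMod p) * ((c : ℤ) : ZMod p) = 1 := by
    rw [← pow_two, ← hdet, hcyc, hv1]
  have hk := ihr_baseChange_ρ_scalar (mltrE W p hΔ) (ResidueField 𝒪) h
  rcases mul_self_eq_one_iff.1 hsq with h1' | h1'
  · refine ⟨1, by simp, ?_⟩
    show ((mltrE W p hΔ).baseChange (ResidueField 𝒪)).ρ φ = _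
    rw [hk, h1', map_one, Units.val_one, map_one]
    rfl
  · refine ⟨-1, by simp, ?_⟩
    show ((mltrE W p hΔ).baseChange (ResidueField 𝒪)).ρ φ = _
    rw [hk, h1', map_neg, map_one, Units.val_neg, Units.val_one, map_neg, map_one]
    rfl

end

end Fermat.Agent.MLT
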