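/-
MLT / [L1] case (C) (helper9), part 3: **the top-level wiring of case (C), flat case, for a general
semistable `W`**:

  `mlti_ihara_flat : p ≠ 2 → MltIhTW p → MltIModular p → MltL1IharaFlat p`

(the analogue of `iha_ihara` of `Lib/Ihara/Asm/Top.lean`).  Ingredients: the residual package [R] of the lead
(`mltr_habs`, `mltr_hdet`, `mltr_hsplit`, `mltr_dvd_of_ramified`), `Lib/MLT/L1/C/Res.lean` (`mlti_sign`, …),
`[O]` (`iho_exists`), `[G1]` (`ihg_main`, `ihg_exists_frob_gen`), `ihta_exists_mu`, `iha_level_of_hecke`,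
`iha_main` — all of which are independent of the Frey curve.
-/
import Mathlib
import Fermat.Agent.Lib.MLT.L1.C.Defs
import Fermat.Agent.Lib.MLT.L1.C.Res
import Fermat.Agent.Lib.MLT.Res.Irr
import Fermat.Agent.Lib.Ihara.Asm.Top
import Fermat.Agent.Lib.Ihara.Grp.Inst

set_option autoImplicit false
set_option linter.unusedSectionVars false
set_option linter.unusedVariables false
set_option linter.style.haveILetI false
set_option maxHeartbeats 1000000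

open Fermat.Agent.S53Lib Fermat.Agent.TW IsLocalRing GaloisRep ExtCitation Fermat.Agent.Ihara
open WeierstrassCurve WeierstrassCurve.Affine WeierstrassCurve.Affine.Point

namespace Fermat.Agent.MLT

local notation "Qb" => AlgebraicClosure ℚ

/-- **(W3) for a general `W`: case (C), flat case, from the modular side** -/
theorem mlti_ihara_flat (p : ℕ) [Fact p.Prime] (hp2 : p ≠ 2) (hTWall : MltIhTW p)
    (hmod : MltIModular p) : MltL1IharaFlat p := by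
  classical
  intro W hΔ hss hirr N hN0 hNsq hpN hmodN hmin hC q hq hqN hqp hqunr
  have hp : p.Prime := Fact.out
  have hp2' : 2 < p := lt_of_le_of_ne hp.two_le (Ne.symm hp2)
  -- the valuations: a bound for the exponents `a_v`
  -- the coefficient ring (it must contain the `p^A`-th roots of unity, `A` large)
  set Amax : ℕ := ∑ r ∈ N.primeFactors, padicValNat p (r - 1) with hAmax
  obtain ⟨𝒪, i1, i2, i3, i4, i5, i6, hp𝒪, ⟨ζ₀, hζ₀⟩, hsqZ⟩ :=
    iho_exists p hp2 (p ^ Amax) (pow_pos hp.pos _)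
  letI : Algebra (ZMod p) (ResidueField 𝒪) := tw_algebraZModResidue p hp𝒪
  have hsq : ∀ a : ZMod p, IsSquare (algebraMap (ZMod p) (ResidueField 𝒪) a) := by
    intro a
    have h1 : a = ((a.val : ℤ) : ZMod p) := by
      rw [Int.cast_natCast, ZMod.natCast_zmod_val]
    rw [h1, map_intCast]
    exact hsqZ _
  set ρbar : ResidualGaloisRep (ResidueField 𝒪) := mltrRep W p (ResidueField 𝒪) hΔ with hρbar
  set b : Module.Basis (Fin 2) (ResidueField 𝒪) ρbar.V :=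
    Module.finBasisOfFinrankEq (ResidueField 𝒪) ρbar.V ρbar.finrank_eq with hb
  -- the set `Smin`
  set Smin : Finset ℕ :=
    insert p ((W.Δ.natAbs.primeFactors).filter (fun r => ¬ ρbar.IsUnramifiedAt r)) with hSmindef
  have hpSmin : p ∈ Smin := Finset.mem_insert_self _ _
  have hSminprime : ∀ r ∈ Smin, r.Prime := by
    intro r hr
    rw [hSmindef, Finset.mem_insert, Finset.mem_filter] at hr
    rcases hr with rfl | ⟨hr, -⟩
    · exact hp
    · exact Nat.prime_of_mem_primeFactors hr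
  have hSmin : ∀ r : ℕ, r.Prime → r ≠ p → (r ∈ Smin ↔ ¬ ρbar.IsUnramifiedAt r) := by
    intro r hr hrp
    rw [hSmindef, Finset.mem_insert, Finset.mem_filter]
    constructor
    · rintro (h | ⟨-, h⟩)
      · exact absurd h hrp
      · exact h
    · intro hram
      right
      refine ⟨?_, hram⟩
      have hdvd : (r : ℤ) ∣ W.Δ := mltr_dvd_of_ramified W p (ResidueField 𝒪) hΔ hr hrp hram
      rw [Nat.mem_primeFactors]
      refine ⟨hr, Int.natCast_dvd.mp hdvd, ?_⟩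
      exact Int.natAbs_ne_zero.mpr hΔ
  -- the C-primes
  set Tc : Finset Nat.Primes :=
    (Finset.subtype Nat.Prime (N.primeFactors.filter (· ∉ Smin)) : Finset {x : ℕ // x.Prime})
    with hTcdef
  have hTc : ∀ v : Nat.Primes, v ∈ Tc ↔ (v : ℕ) ∣ N ∧ (v : ℕ) ∉ Smin := by
    intro v
    have h0 : v ∈ Tc ↔ (v : ℕ) ∈ N.primeFactors.filter (· ∉ Smin) :=
      Finset.mem_subtype (p := Nat.Prime) (s := N.primeFactors.filter (· ∉ Smin)) (a := v)
    rw [h0, Finset.mem_filter, Nat.mem_primeFactors]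
    constructor
    · rintro ⟨⟨-, h1, -⟩, h2⟩
      exact ⟨h1, h2⟩
    · rintro ⟨h1, h2⟩
      exact ⟨⟨v.2, h1, hN0.ne'⟩, h2⟩
  have hTcp : ∀ v ∈ Tc, (v : ℕ) ≠ p := by
    intro v hv h
    exact ((hTc v).1 hv).2 (h ▸ hpSmin)
  have hTcunr : ∀ v : ↥Tc, MltL1Unram W p ((v : Nat.Primes) : ℕ) := by
    intro v
    have h1 : ¬ ¬ ρbar.IsUnramifiedAt ((v : Nat.Primes) : ℕ) := fun h =>
      ((hTc v).1 v.2).2 ((hSmin _ (v : Nat.Primes).2 (hTcp v v.2)).2 h)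
    exact mlti_unram_of_rep W p (ResidueField 𝒪) hΔ (not_not.mp h1)
  have hCv : ∀ v : ↥Tc, MltL1CPrime W p ((v : Nat.Primes) : ℕ) := fun v =>
    hC _ (v : Nat.Primes).2 ((hTc v).1 v.2).1 (hTcp v v.2) (hTcunr v)
  -- the valuations
  have hval : ∀ v : ↥Tc, ∃ a u : ℕ, ((v : Nat.Primes) : ℕ) = 1 + p ^ a * u ∧ ¬ p ∣ u ∧ 0 < a :=
    fun v => iha_exists_val hp (v : Nat.Primes).2.one_lt (hCv v).one_mod
  choose av uv hav huv hav0 using hval
  have hav_le : ∀ v : ↥Tc, av v ≤ Amax := by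
    intro v
    have h1 : av v = padicValNat p (((v : Nat.Primes) : ℕ) - 1) :=
      (ihq_padicValNat_eq hp (hav v) (huv v)).symm
    rw [h1, hAmax]
    exact Finset.single_le_sum (f := fun r => padicValNat p (r - 1)) (fun _ _ => Nat.zero_le _)
      (Nat.mem_primeFactors.mpr ⟨(v : Nat.Primes).2, ((hTc v).1 v.2).1, hN0.ne'⟩)
  -- Frobenius elements and generators
  obtain ⟨φv, σv, hφv, hσv⟩ := ihg_exists_frob_gen p Tc hTcp
  -- the uniformiser
  obtain ⟨ϖ, hϖirr⟩ := IsDiscreteValuationRing.exists_irreducible 𝒪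
  have hϖ : maximalIdeal 𝒪 = Ideal.span {ϖ} := hϖirr.maximalIdeal_eq
  have hϖ0 : ϖ ≠ 0 := hϖirr.ne_zero
  -- the roots of unity
  have hμex : ∀ v : ↥Tc, ∃ μ : Finset 𝒪ˣ,
      (Polynomial.X ^ (p ^ av v) - 1 : Polynomial 𝒪) =
        (Polynomial.X - 1) * ∏ ζ ∈ μ, (Polynomial.X - Polynomial.C (ζ : 𝒪)) ∧
      (∀ ζ ∈ μ, (ζ : 𝒪) - 1 ∈ maximalIdeal 𝒪) ∧ (∀ ζ ∈ μ, (ζ : 𝒪) ^ 2 ≠ 1) ∧
      (∀ ζ ∈ μ, ζ ^ (p ^ av v) = 1 ∧ ζ ≠ 1) ∧
      ∃ ζ ∈ μ, IsPrimitiveRoot (ζ : 𝒪) (p ^ av v) := by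
    intro v
    have h1 : IsPrimitiveRoot (ζ₀ ^ (p ^ (Amax - av v))) (p ^ av v) := by
      refine hζ₀.pow (pow_pos hp.pos _) ?_
      rw [← pow_add, Nat.sub_add_cancel (hav_le v)]
    obtain ⟨μ, h2, h3, h4, h5⟩ := ihta_exists_mu hp hp2 hp𝒪 (av v) _ h1
    refine ⟨μ, h2, h3, h4, h5, ?_⟩
    set z : 𝒪 := ζ₀ ^ (p ^ (Amax - av v)) with hz
    have hz1 : z ≠ 1 := by
      intro h
      have h7 : p ^ av v = 1 := by
        have := h1.eq_orderOf
        rw [h, orderOf_one] at this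
        exact this
      have h8 : 1 < p ^ av v := Nat.one_lt_pow (hav0 v).ne' hp.one_lt
      omega
    have h6 := congrArg (Polynomial.eval z) h2
    rw [Polynomial.eval_sub, Polynomial.eval_pow, Polynomial.eval_X, Polynomial.eval_one,
      h1.pow_eq_one, sub_self, Polynomial.eval_mul, Polynomial.eval_sub, Polynomial.eval_X,
      Polynomial.eval_one, Polynomial.eval_prod] at h6
    rcases mul_eq_zero.mp h6.symm with h7 | h7
    · exact absurd (sub_eq_zero.mp h7) hz1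
    · obtain ⟨ζ, hζμ, hζ⟩ := Finset.prod_eq_zero_iff.mp h7
      rw [Polynomial.eval_sub, Polynomial.eval_X, Polynomial.eval_C, sub_eq_zero] at hζ
      exact ⟨ζ, hζμ, by rw [← hζ]; exact h1⟩
  choose μ hμ hμ1 hμ2 hμ3 hμ4 using hμex
  -- the signs
  have hcsex : ∀ v : ↥Tc, ∃ cs : 𝒪ˣ, (cs : 𝒪) ^ 2 = 1 ∧
      ρbar.ρ (φv v) = residue 𝒪 (cs : 𝒪) • 1 := fun v =>
    mlti_sign W p hΔ (v : Nat.Primes).2 (hCv v).ne_p (hCv v).one_mod
      (tw_primeLocalPlace_liesOver v) (hφv v v.2)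
      ((hCv v).scalar _ (tw_primeLocalPlace_liesOver v) _ (hφv v v.2))
  choose cs hcs hcsρ using hcsex
  have hσρ : ∀ v : ↥Tc, ρbar.ρ (σv v) = 1 := fun v =>
    mlti_inertia_eq_one W p (ResidueField 𝒪) hΔ (hCv v).unram (tw_primeLocalPlace_liesOver v)
      (hσv v v.2).mem
  have hTc1 : ∀ v : ↥Tc, ((((v : Nat.Primes) : ℕ) : 𝒪) - 1) ∈ maximalIdeal 𝒪 := fun v =>
    iho_sub_one_mem hp𝒪 (v : Nat.Primes).2.pos (hCv v).one_mod
  -- the distinguished prime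
  have hqSmin : q ∉ Smin := fun h =>
    (hSmin q hq hqp).1 h (mlti_unramified W p (ResidueField 𝒪) hΔ hqunr)
  set q₀ : ↥Tc := ⟨⟨q, hq⟩, (hTc ⟨q, hq⟩).2 ⟨hqN, hqSmin⟩⟩ with hq₀
  -- the modular side
  obtain ⟨S, hS1, hS2, d, hd, hHecke⟩ := hmod W hΔ hss hirr N hN0 hNsq hpN hmodN hmin hC 𝒪 hp𝒪 hsq b
    Smin hpSmin hSminprime hSmin Tc hTc φv σv hφv hσv ϖ hϖ μ
    (fun v => ⟨av v, uv v, hav v, huv v, hav0 v, hμ v, hμ3 v, hμ4 v⟩) cs hcs hcsρ q₀
  -- `[G1]`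
  have hTcSmin : ∀ v ∈ Tc, (v : ℕ) ∉ Smin := fun v hv => ((hTc v).1 hv).2
  obtain ⟨r, hG1⟩ := ihg_main p hp2 hp𝒪 ρbar (mltr_habs W p (ResidueField 𝒪) hΔ hp2 hirr)
    (mltr_hdet W p (ResidueField 𝒪) hΔ) (mltr_hsplit W p (ResidueField 𝒪) hΔ hp2 hsq)
    (hTWall W hΔ hss hirr (ResidueField 𝒪)) b S Smin hpSmin hS1 hSmin Tc hTcSmin hS2 φv σv hφv hσv
    (fun v hv => ⟨_, hcsρ ⟨v, hv⟩⟩)
  -- the assembly
  exact iha_main p ρbar b (fun _ _ _ ρ => ρ.IsFlatAt p)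
    (iho_isUnit_two hp hp2 hp𝒪) ϖ hϖ hϖ0 hp𝒪 S Smin Tc φv σv μ hμ1 hμ2 cs hcs hcsρ hσρ hTc1
    q₀ r d hd hG1
    (fun n qv h1 h2 h3 => iha_level_of_hecke p ρbar b (fun _ _ _ ρ => ρ.IsFlatAt p) hp2' hp𝒪
      (by exact_mod_cast hp.ne_zero) Smin Tc φv σv ϖ μ cs q₀ r d qv n
      (hHecke r n qv h1 h2 h3))

end Fermat.Agent.MLT
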