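/-
MLT / [L1] case (C) (helper9), part 11: **case (C), flat case, for EVERY odd `p`** (in particular `p = 3`):

  `mlti_modular_all   : p ≠ 2 → MltIhTW p → MltL1Mazur p → MltIModular p`
  `mlti_ihara_flat_all : p ≠ 2 → MltIhTW p → MltL1Mazur p → MltL1IharaFlat p`

If `Jh5 p N` (`5 ≤ p`, or a prime `≡ 2 mod 3` divides the minimal level `N`) the modular side is
`mlti_modularG` at the level `N`.  Otherwise `p = 3`; an auxiliary prime `r₀ ≡ 2 mod 3`, `r₀ ∤ N Δ`,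
`3 ∤ a_{r₀}(W)` exists (`mlti_exists_aux`, from `hTW` and Frobenius density), the modular side is run at the level
`N r₀` with `Smin₁ = insert r₀ Smin` (`W[p]` is not modular of level `(N / q₀) r₀` by Mazur's principle at `r₀`,
`r₀ ≢ 1 mod p`, and the minimality of `N`), and `r₀` is removed from `Smin₁` by `mlti_hecke_of_aux`.
-/
import Mathlib
import Fermat.Agent.Lib.MLT.L1.C.ModularG
import Fermat.Agent.Lib.MLT.L1.C.AuxPrime
import Fermat.Agent.Lib.MLT.L1.C.AuxExists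
import Fermat.Agent.Lib.MLT.L1.C.Top

set_option autoImplicit false
set_option linter.unusedSectionVars false
set_option linter.unusedVariables false
set_option linter.style.haveILetI false
set_option maxHeartbeats 1000000

open IsLocalRing Matrix Polynomial Fermat.Agent.S53Lib Fermat.Agent.TW Fermat.Agent.Ihara
open WeierstrassCurve WeierstrassCurve.Affine WeierstrassCurve.Affine.Point ExtCitation
open scoped TensorProduct

namespace Fermat.Agent.MLT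

local notation "Qbar" => AlgebraicClosure ℚ
local notation "GQ" => (AlgebraicClosure ℚ ≃ₐ[ℚ] AlgebraicClosure ℚ)

section Aux

variable (W : WeierstrassCurve ℤ) (p : ℕ) [Fact p.Prime]
  {𝒪 : Type} [CommRing 𝒪] [IsDomain 𝒪] [IsDiscreteValuationRing 𝒪]
  [IsAdicComplete (maximalIdeal 𝒪) 𝒪] [Finite (ResidueField 𝒪)]
  [Algebra (ZMod p) (ResidueField 𝒪)]

/-- a good prime `r ≡ 2 mod 3` with `3 ∤ a_r(W)` is an auxiliary prime for `W[3]` -/
theorem mlti_auxPrime_of_good (hp3 : p = 3) (hΔ : W.Δ ≠ 0) {r : ℕ} (hr : r.Prime) (hrp : r ≠ p)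
    (hr3 : r % 3 = 2) (hgood : ¬ (r : ℤ) ∣ W.Δ) (ha : ¬ (p : ℤ) ∣ W.apOfModel r) :
    MltIAuxPrime (𝒪 := 𝒪) (mltrRep W p (ResidueField 𝒪) hΔ) p r := by
  refine ⟨hr, hrp, ?_, mltr_unramified_of_good W p (ResidueField 𝒪) hΔ hr hrp hgood, ?_⟩
  · rw [hp3]
    have := hr.two_le
    omega
  · intro P hP φ hφ
    obtain ⟨htr, -⟩ := mltr_trace_det_frob W p hΔ hr hgood hrp P hP φ hφ
    have h1 : LinearMap.trace (ResidueField 𝒪) (mltrRep W p (ResidueField 𝒪) hΔ).V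
        ((mltrRep W p (ResidueField 𝒪) hΔ).ρ φ) =
        algebraMap (ZMod p) (ResidueField 𝒪) ((W.apOfModel r : ℤ) : ZMod p) := by
      show LinearMap.trace (ResidueField 𝒪) (ResidueField 𝒪 ⊗[ZMod p] (mltrE W p hΔ).V)
        (((mltrE W p hΔ).ρ φ).baseChange (ResidueField 𝒪)) = _
      rw [LinearMap.trace_baseChange, htr]
    have h2 : (1 + (r : ResidueField 𝒪)) = 0 := by
      obtain ⟨m, hm⟩ : 3 ∣ 1 + r := by omega
      have h3 : ((1 + r : ℕ) : ResidueField 𝒪) = 0 := by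
        rw [hm, ← hp3, Nat.cast_mul, mltr_p_eq_zero p (ResidueField 𝒪), zero_mul]
      rw [← h3]
      push_cast
      ring
    rw [h1, h2]
    have h4 : ((W.apOfModel r : ℤ) : ZMod p) ≠ 0 := fun h0 =>
      ha ((ZMod.intCast_zmod_eq_zero_iff_dvd _ p).mp h0)
    have h5 : algebraMap (ZMod p) (ResidueField 𝒪) ((W.apOfModel r : ℤ) : ZMod p) ≠ 0 := fun h0 =>
      h4 ((map_eq_zero_iff _ (RingHom.injective _)).mp h0)
    intro h6
    rw [zero_pow (by norm_num : 2 ≠ 0)] at h6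
    exact h5 (pow_eq_zero_iff (by norm_num : 2 ≠ 0) |>.mp h6)

end Aux

/-- **the target of the modular side, flat case, for every odd `p`** -/
theorem mlti_modular_all (p : ℕ) [Fact p.Prime] (hp2 : p ≠ 2) (hTWall : MltIhTW p)
    (hmaz : MltL1Mazur p) : MltIModular p := by
  classical
  intro W hΔ hss hirr N hN0 hNsq hpN hmodN hmin hC 𝒪 _ _ _ _ _ _ _ hp𝒪 hsq b Smin hpSmin hSminpr
    hSminiff Tc hTc φv σv hφv hσv ϖ hϖ μ hμ cs hcs hcsρ q₀
  haveI : NeZero N := ⟨hN0.ne'⟩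
  have hp : p.Prime := Fact.out
  -- the primes of `Smin` divide `N`
  have hSminN : ∀ q ∈ Smin, q ≠ p → q ∣ N := fun q hq hqp =>
    mltr_dvd_level_of_ramified W p hΔ hp2 hirr (ResidueField 𝒪) hmodN (hSminpr q hq) hqp
      ((hSminiff q (hSminpr q hq) hqp).1 hq)
  -- the primes of `Tc` are of type (C)
  have hTcp₀ : ∀ v ∈ Tc, ((v : Nat.Primes) : ℕ) ≠ p := fun v hv h =>
    ((hTc v).1 hv).2 (h ▸ hpSmin)
  have hTcunr : ∀ v : ↥Tc, MltL1Unram W p ((v : Nat.Primes) : ℕ) := by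
    intro v
    have h1 : ¬ ¬ (mltrRep W p (ResidueField 𝒪) hΔ).IsUnramifiedAt ((v : Nat.Primes) : ℕ) :=
      fun h => ((hTc v).1 v.2).2 ((hSminiff _ (v : Nat.Primes).2 (hTcp₀ v v.2)).2 h)
    exact mlti_unram_of_rep W p (ResidueField 𝒪) hΔ (not_not.mp h1)
  have hCv : ∀ v : ↥Tc, MltL1CPrime W p ((v : Nat.Primes) : ℕ) := fun v =>
    hC _ (v : Nat.Primes).2 ((hTc v).1 v.2).1 (hTcp₀ v v.2) (hTcunr v)
  -- the lower level
  set q := ((q₀ : Nat.Primes) : ℕ) with hq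
  have hqpr : q.Prime := (q₀ : Nat.Primes).2
  have hqN : q ∣ N := ((hTc q₀).1 q₀.2).1
  have hdvd : N / q ∣ N := Nat.div_dvd_of_dvd hqN
  have hNq : N / q * q = N := Nat.div_mul_cancel hqN
  have hN₀pos : 0 < N / q := Nat.div_pos (Nat.le_of_dvd hN0 hqN) hqpr.pos
  have hne : N / q ≠ N := by
    intro h
    have h1 : N / q * 1 = N / q * q := by rw [mul_one, hNq]; exact h
    have := Nat.eq_of_mul_eq_mul_left hN₀pos h1
    have := hqpr.one_lt
    omega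
  have hlowN : ¬ W.IsResiduallyModularOfLevel p (N / q) := hmin _ hdvd hne
  by_cases h5 : Jh5 p N
  · exact mlti_modularG p W hΔ hss hirr N hN0 hNsq hpN hmodN h5 𝒪 hp𝒪 hsq b Smin hpSmin hSminpr
      hSminN Tc hTc hCv φv σv hφv hσv ϖ hϖ μ hμ cs hcs hcsρ q₀ hlowN
  -- `p = 3`, no prime `≡ 2 mod 3` divides `N`: an auxiliary prime
  have hp3 : p = 3 := by
    have h2 := hp.two_le
    have h5' : ¬ 5 ≤ p := fun h => h5 (jh5_of_five_le N h)
    have h4 : p ≠ 4 := fun e => by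
      rw [e] at hp
      exact absurd hp (by decide)
    omega
  obtain ⟨r₀, hr₀, hr₀T, hr₀p, hr₀3, hr₀Δ, hr₀a⟩ := mlti_exists_aux W p hp3 hΔ
    (hTWall W hΔ hss hirr (ZMod p)) (N.primeFactors ∪ Smin)
  have hr₀N : ¬ r₀ ∣ N := fun h =>
    hr₀T (Finset.mem_union_left _ (Nat.mem_primeFactors.mpr ⟨hr₀, h, hN0.ne'⟩))
  have hr₀Smin : r₀ ∉ Smin := fun h => hr₀T (Finset.mem_union_right _ h)
  have haux : MltIAuxPrime (𝒪 := 𝒪) (mltrRep W p (ResidueField 𝒪) hΔ) p r₀ :=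
    mlti_auxPrime_of_good W p hp3 hΔ hr₀ hr₀p hr₀3 hr₀Δ hr₀a
  have hr₀unr : MltL1Unram W p r₀ := mlti_unram_of_rep W p (ResidueField 𝒪) hΔ haux.unram
  -- the level `N r₀`
  have hcop : Nat.Coprime N r₀ := (Nat.Coprime.symm ((Nat.Prime.coprime_iff_not_dvd hr₀).mpr hr₀N))
  have hN₁sq : Squarefree (N * r₀) :=
    (Nat.squarefree_mul hcop).mpr ⟨hNsq, hr₀.squarefree⟩
  have hN₁0 : 0 < N * r₀ := Nat.mul_pos hN0 hr₀.pos
  have hpN₁ : ¬ p ∣ N * r₀ := fun h => by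
    rcases (Nat.Prime.dvd_mul hp).mp h with h1 | h1
    · exact hpN h1
    · exact hr₀p ((Nat.prime_dvd_prime_iff_eq hp hr₀).mp h1).symm
  have hmodN₁ : W.IsResiduallyModularOfLevel p (N * r₀) :=
    mltl1_raise W p hN₁0.ne' (Dvd.intro _ rfl) hN₁sq hmodN
  have h5₁ : Jh5 p (N * r₀) := jh5_of_prime_dvd hp2 hr₀ (Dvd.intro_left _ rfl) hr₀3
  have hTc₁ : ∀ v : Nat.Primes, v ∈ Tc ↔ (v : ℕ) ∣ N * r₀ ∧ (v : ℕ) ∉ insert r₀ Smin := by
    intro v
    rw [hTc v, Finset.mem_insert, not_or]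
    constructor
    · rintro ⟨h1, h2⟩
      exact ⟨Dvd.dvd.mul_right h1 _, fun h => hr₀N (h ▸ h1), h2⟩
    · rintro ⟨h1, h2, h3⟩
      refine ⟨?_, h3⟩
      rcases (Nat.Prime.dvd_mul v.2).mp h1 with h | h
      · exact h
      · exact absurd ((Nat.prime_dvd_prime_iff_eq v.2 hr₀).mp h) h2
  have hSminN₁ : ∀ q' ∈ insert r₀ Smin, q' ≠ p → q' ∣ N * r₀ := by
    intro q' hq' hq'p
    rcases Finset.mem_insert.mp hq' with rfl | h
    · exact Dvd.intro_left _ rfl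
    · exact Dvd.dvd.mul_right (hSminN q' h hq'p) _
  have hSminpr₁ : ∀ q' ∈ insert r₀ Smin, q'.Prime := by
    intro q' hq'
    rcases Finset.mem_insert.mp hq' with rfl | h
    · exact hr₀
    · exact hSminpr q' h
  -- `W[p]` is not modular of level `(N r₀) / q₀`
  have hqr₀ : q ≠ r₀ := fun h => hr₀N (h ▸ hqN)
  have hdiv₁ : N * r₀ / q = N / q * r₀ := by
    rw [← hNq, mul_assoc, mul_comm q r₀, ← mul_assoc, Nat.mul_div_cancel _ hqpr.pos, hNq]
  have hlow₁ : ¬ W.IsResiduallyModularOfLevel p (N * r₀ / q) := by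
    rw [hdiv₁]
    intro h
    refine hlowN (hmaz W hΔ hss hirr (N / q) r₀ hN₀pos ?_ hr₀ hr₀p
      (fun h' => hr₀N (h'.trans hdvd)) hr₀unr (fun h' => haux.not_one h'.1) h)
    exact hN₁sq.squarefree_of_dvd (Nat.mul_dvd_mul_right hdvd r₀)
  obtain ⟨S, hS1, hS2, d, hd, hH⟩ := mlti_modularG p W hΔ hss hirr (N * r₀) hN₁0 hN₁sq hpN₁
    hmodN₁ h5₁ 𝒪 hp𝒪 hsq b (insert r₀ Smin) (Finset.mem_insert_of_mem hpSmin) hSminpr₁ hSminN₁ Tc
    hTc₁ hCv φv σv hφv hσv ϖ hϖ μ hμ cs hcs hcsρ q₀ hlow₁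
  refine ⟨S, (Finset.subset_insert _ _).trans hS1, hS2, d, hd, fun r n qv hinj hqv hTW => ?_⟩
  exact mlti_hecke_of_aux p _ b _ haux Smin Tc φv σv ϖ μ cs q₀ r d qv n (hH r n qv hinj hqv hTW)

/-- **case (C), flat case, every odd `p`** -/
theorem mlti_ihara_flat_all (p : ℕ) [Fact p.Prime] (hp2 : p ≠ 2) (hTW : MltIhTW p)
    (hmaz : MltL1Mazur p) : MltL1IharaFlat p :=
  mlti_ihara_flat p hp2 hTW (mlti_modular_all p hp2 hTW hmaz)

end Fermat.Agent.MLT
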