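/-
MLT / [L1] case (C), ORDINARY case (helper9), part 6: **case (C) for `p ∣ N`, `W[p]` not finite at `p`**:

  `mlti_modular_ord_all : p ≠ 2 → MltIhTW p → MltL1Mazur p → MltIModularOrd p`
  `mlti_ihara_ord      : p ≠ 2 → MltIhTW p → MltIFirstOrderStrict p → MltIResOrd p → MltIModularOrd p → MltL1IharaOrdNF p`
  `mlti_ihara_ord_all  : p ≠ 2 → MltIhTW p → MltL1Mazur p → MltIFirstOrderStrict p → MltIResOrd p → MltL1IharaOrdNF p`
  `mlti_ihara'_all     : … → MltL1Ihara' p` (helper3's literal of `L1/DefsP.lean`).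

Same proofs as `C/Top.lean` and `C/TopG.lean` with `X := IsOrdinaryAt p`: the Galois side is `khg_main`
(`Lib/MLT/CO/G1Ord.lean`), the modular side `mlti_modularO` (`C/ModularO.lean`), the auxiliary prime for `p = 3` as in
the flat case.
-/
import Mathlib
import Fermat.Agent.Lib.MLT.L1.C.DefsO
import Fermat.Agent.Lib.MLT.L1.C.ModularO
import Fermat.Agent.Lib.MLT.L1.C.TopG
import Fermat.Agent.Lib.MLT.CO.G1Ord

set_option autoImplicit false
set_option linter.unusedSectionVars false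
set_option linter.unusedVariables false
set_option linter.style.haveILetI false
set_option maxHeartbeats 1000000

open IsLocalRing Matrix Polynomial Fermat.Agent.S53Lib Fermat.Agent.TW Fermat.Agent.Ihara GaloisRep
open WeierstrassCurve WeierstrassCurve.Affine WeierstrassCurve.Affine.Point ExtCitation
open scoped TensorProduct

namespace Fermat.Agent.MLT

local notation "Qb" => AlgebraicClosure ℚ
local notation "Qbar" => AlgebraicClosure ℚ
local notation "GQ" => (AlgebraicClosure ℚ ≃ₐ[ℚ] AlgebraicClosure ℚ)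

/-- **the target of the modular side, ordinary case, for every odd `p`** -/
theorem mlti_modular_ord_all (p : ℕ) [Fact p.Prime] (hp2 : p ≠ 2) (hTWall : MltIhTW p)
    (hmaz : MltL1Mazur p) : MltIModularOrd p := by
  classical
  intro W hΔ hss hirr N hN0 hNsq hpN hmodN hmin hC 𝒪 _ _ _ _ _ _ _ hp𝒪 hsq hord b Smin hpSmin hSminpr
    hSminiff Tc hTc φv σv hφv hσv ϖ hϖ μ hμ cs hcs hcsρ q₀
  haveI : NeZero N := ⟨hN0.ne'⟩
  have hp : p.Prime := Fact.out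
  -- the primes of `Smin` divide `N`
  have hSminN : ∀ q ∈ Smin, q ≠ p → q ∣ N := fun q hq hqp =>
    mltr_dvd_level_of_ramified W p hΔ hp2 hirr (ResidueField 𝒪) hmodN (hSminpr q hq) hqp
      ((hSminiff q (hSminpr q hq) hqp).1 hq)
  -- the primes of `Tc` are of type (C)
  have hTcp₀ : ∀ v ∈ Tc, ((v : Nat.Primes) : ℕ) ≠ p := fun v hv h =>
    ((hTc v).1 hv).2 (h ▸ hpSmin)
  have hTcunr : ∀ v : ↥Tc, MltL1Unram W p ((v : Nat.Primes) : ℕ) := by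
    intro v
    have h1 : ¬ ¬ (mltrRep W p (ResidueField 𝒪) hΔ).IsUnramifiedAt ((v : Nat.Primes) : ℕ) :=
      fun h => ((hTc v).1 v.2).2 ((hSminiff _ (v : Nat.Primes).2 (hTcp₀ v v.2)).2 h)
    exact mlti_unram_of_rep W p (ResidueField 𝒪) hΔ (not_not.mp h1)
  have hCv : ∀ v : ↥Tc, MltL1CPrime W p ((v : Nat.Primes) : ℕ) := fun v =>
    hC _ (v : Nat.Primes).2 ((hTc v).1 v.2).1 (hTcp₀ v v.2) (hTcunr v)
  -- the lower level
  set q := ((q₀ : Nat.Primes) : ℕ) with hq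
  have hqpr : q.Prime := (q₀ : Nat.Primes).2
  have hqN : q ∣ N := ((hTc q₀).1 q₀.2).1
  have hdvd : N / q ∣ N := Nat.div_dvd_of_dvd hqN
  have hNq : N / q * q = N := Nat.div_mul_cancel hqN
  have hN₀pos : 0 < N / q := Nat.div_pos (Nat.le_of_dvd hN0 hqN) hqpr.pos
  have hne : N / q ≠ N := by
    intro h
    have h1 : N / q * 1 = N / q * q := by rw [mul_one, hNq]; exact h
    have := Nat.eq_of_mul_eq_mul_left hN₀pos h1
    have := hqpr.one_lt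
    omega
  have hlowN : ¬ W.IsResiduallyModularOfLevel p (N / q) := hmin _ hdvd hne
  by_cases h5 : Jh5 p N
  · exact mlti_modularO p W hΔ hss hirr N hN0 hNsq hpN hmodN h5 𝒪 hp𝒪 hsq hord b Smin hpSmin hSminpr
      hSminN Tc hTc hCv φv σv hφv hσv ϖ hϖ μ hμ cs hcs hcsρ q₀ hlowN
  -- `p = 3`, no prime `≡ 2 mod 3` divides `N`: an auxiliary prime
  have hp3 : p = 3 := by
    have h2 := hp.two_le
    have h5' : ¬ 5 ≤ p := fun h => h5 (jh5_of_five_le N h)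
    have h4 : p ≠ 4 := fun e => by
      rw [e] at hp
      exact absurd hp (by decide)
    omega
  obtain ⟨r₀, hr₀, hr₀T, hr₀p, hr₀3, hr₀Δ, hr₀a⟩ := mlti_exists_aux W p hp3 hΔ
    (hTWall W hΔ hss hirr (ZMod p)) (N.primeFactors ∪ Smin)
  have hr₀N : ¬ r₀ ∣ N := fun h =>
    hr₀T (Finset.mem_union_left _ (Nat.mem_primeFactors.mpr ⟨hr₀, h, hN0.ne'⟩))
  have hr₀Smin : r₀ ∉ Smin := fun h => hr₀T (Finset.mem_union_right _ h)
  have haux : MltIAuxPrime (𝒪 := 𝒪) (mltrRep W p (ResidueField 𝒪) hΔ) p r₀ :=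
    mlti_auxPrime_of_good W p hp3 hΔ hr₀ hr₀p hr₀3 hr₀Δ hr₀a
  have hr₀unr : MltL1Unram W p r₀ := mlti_unram_of_rep W p (ResidueField 𝒪) hΔ haux.unram
  -- the level `N r₀`
  have hcop : Nat.Coprime N r₀ := (Nat.Coprime.symm ((Nat.Prime.coprime_iff_not_dvd hr₀).mpr hr₀N))
  have hN₁sq : Squarefree (N * r₀) :=
    (Nat.squarefree_mul hcop).mpr ⟨hNsq, hr₀.squarefree⟩
  have hN₁0 : 0 < N * r₀ := Nat.mul_pos hN0 hr₀.pos
  have hpN₁ : p ∣ N * r₀ := Dvd.dvd.mul_right hpN _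
  have hmodN₁ : W.IsResiduallyModularOfLevel p (N * r₀) :=
    mltl1_raise W p hN₁0.ne' (Dvd.intro _ rfl) hN₁sq hmodN
  have h5₁ : Jh5 p (N * r₀) := jh5_of_prime_dvd hp2 hr₀ (Dvd.intro_left _ rfl) hr₀3
  have hTc₁ : ∀ v : Nat.Primes, v ∈ Tc ↔ (v : ℕ) ∣ N * r₀ ∧ (v : ℕ) ∉ insert r₀ Smin := by
    intro v
    rw [hTc v, Finset.mem_insert, not_or]
    constructor
    · rintro ⟨h1, h2⟩
      exact ⟨Dvd.dvd.mul_right h1 _, fun h => hr₀N (h ▸ h1), h2⟩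
    · rintro ⟨h1, h2, h3⟩
      refine ⟨?_, h3⟩
      rcases (Nat.Prime.dvd_mul v.2).mp h1 with h | h
      · exact h
      · exact absurd ((Nat.prime_dvd_prime_iff_eq v.2 hr₀).mp h) h2
  have hSminN₁ : ∀ q' ∈ insert r₀ Smin, q' ≠ p → q' ∣ N * r₀ := by
    intro q' hq' hq'p
    rcases Finset.mem_insert.mp hq' with rfl | h
    · exact Dvd.intro_left _ rfl
    · exact Dvd.dvd.mul_right (hSminN q' h hq'p) _
  have hSminpr₁ : ∀ q' ∈ insert r₀ Smin, q'.Prime := by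
    intro q' hq'
    rcases Finset.mem_insert.mp hq' with rfl | h
    · exact hr₀
    · exact hSminpr q' h
  -- `W[p]` is not modular of level `(N r₀) / q₀`
  have hqr₀ : q ≠ r₀ := fun h => hr₀N (h ▸ hqN)
  have hdiv₁ : N * r₀ / q = N / q * r₀ := by
    rw [← hNq, mul_assoc, mul_comm q r₀, ← mul_assoc, Nat.mul_div_cancel _ hqpr.pos, hNq]
  have hlow₁ : ¬ W.IsResiduallyModularOfLevel p (N * r₀ / q) := by
    rw [hdiv₁]
    intro h
    refine hlowN (hmaz W hΔ hss hirr (N / q) r₀ hN₀pos ?_ hr₀ hr₀p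
      (fun h' => hr₀N (h'.trans hdvd)) hr₀unr (fun h' => haux.not_one h'.1) h)
    exact hN₁sq.squarefree_of_dvd (Nat.mul_dvd_mul_right hdvd r₀)
  obtain ⟨S, hS1, hS2, d, hd, hH⟩ := mlti_modularO p W hΔ hss hirr (N * r₀) hN₁0 hN₁sq hpN₁
    hmodN₁ h5₁ 𝒪 hp𝒪 hsq hord b (insert r₀ Smin) (Finset.mem_insert_of_mem hpSmin) hSminpr₁ hSminN₁ Tc
    hTc₁ hCv φv σv hφv hσv ϖ hϖ μ hμ cs hcs hcsρ q₀ hlow₁
  refine ⟨S, (Finset.subset_insert _ _).trans hS1, hS2, d, hd, fun r n qv hinj hqv hTW => ?_⟩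
  exact mlti_hecke_of_aux p _ b _ haux Smin Tc φv σv ϖ μ cs q₀ r d qv n (hH r n qv hinj hqv hTW)


/-- **case (C), ordinary case (`W[p]` not finite at `p`), from the modular side** -/
theorem mlti_ihara_ord (p : ℕ) [Fact p.Prime] (hp2 : p ≠ 2) (hTWall : MltIhTW p)
    (hFOS : MltIFirstOrderStrict p) (hRO : MltIResOrd p)
    (hmod : MltIModularOrd p) : MltL1IharaOrdNF p := by
  classical
  intro W hΔ hss hirr N hN0 hNsq hpN hnf hmodN hmin hC q hq hqN hqp hqunr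
  have hpΔ : (p : ℤ) ∣ W.Δ := mlti_dvd_disc_of_nf W p hnf
  have hp : p.Prime := Fact.out
  have hp2' : 2 < p := lt_of_le_of_ne hp.two_le (Ne.symm hp2)
  -- the valuations: a bound for the exponents `a_v`
  -- the coefficient ring (it must contain the `p^A`-th roots of unity, `A` large)
  set Amax : ℕ := ∑ r ∈ N.primeFactors, padicValNat p (r - 1) with hAmax
  obtain ⟨𝒪, i1, i2, i3, i4, i5, i6, hp𝒪, ⟨ζ₀, hζ₀⟩, hsqZ⟩ :=
    iho_exists p hp2 (p ^ Amax) (pow_pos hp.pos _)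
  letI : Algebra (ZMod p) (ResidueField 𝒪) := tw_algebraZModResidue p hp𝒪
  have hsq : ∀ a : ZMod p, IsSquare (algebraMap (ZMod p) (ResidueField 𝒪) a) := by
    intro a
    have h1 : a = ((a.val : ℤ) : ZMod p) := by
      rw [Int.cast_natCast, ZMod.natCast_zmod_val]
    rw [h1, map_intCast]
    exact hsqZ _
  set ρbar : ResidualGaloisRep (ResidueField 𝒪) := mltrRep W p (ResidueField 𝒪) hΔ with hρbar
  have hord : (GaloisRepAdic.ofResidualGaloisRep ρbar).IsOrdinaryAt p :=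
    hRO W hΔ hss hpΔ (ResidueField 𝒪)
  set b : Module.Basis (Fin 2) (ResidueField 𝒪) ρbar.V :=
    Module.finBasisOfFinrankEq (ResidueField 𝒪) ρbar.V ρbar.finrank_eq with hb
  -- the set `Smin`
  set Smin : Finset ℕ :=
    insert p ((W.Δ.natAbs.primeFactors).filter (fun r => ¬ ρbar.IsUnramifiedAt r)) with hSmindef
  have hpSmin : p ∈ Smin := Finset.mem_insert_self _ _
  have hSminprime : ∀ r ∈ Smin, r.Prime := by
    intro r hr
    rw [hSmindef, Finset.mem_insert, Finset.mem_filter] at hr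
    rcases hr with rfl | ⟨hr, -⟩
    · exact hp
    · exact Nat.prime_of_mem_primeFactors hr
  have hSmin : ∀ r : ℕ, r.Prime → r ≠ p → (r ∈ Smin ↔ ¬ ρbar.IsUnramifiedAt r) := by
    intro r hr hrp
    rw [hSmindef, Finset.mem_insert, Finset.mem_filter]
    constructor
    · rintro (h | ⟨-, h⟩)
      · exact absurd h hrp
      · exact h
    · intro hram
      right
      refine ⟨?_, hram⟩
      have hdvd : (r : ℤ) ∣ W.Δ := mltr_dvd_of_ramified W p (ResidueField 𝒪) hΔ hr hrp hram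
      rw [Nat.mem_primeFactors]
      refine ⟨hr, Int.natCast_dvd.mp hdvd, ?_⟩
      exact Int.natAbs_ne_zero.mpr hΔ
  -- the C-primes
  set Tc : Finset Nat.Primes :=
    (Finset.subtype Nat.Prime (N.primeFactors.filter (· ∉ Smin)) : Finset {x : ℕ // x.Prime})
    with hTcdef
  have hTc : ∀ v : Nat.Primes, v ∈ Tc ↔ (v : ℕ) ∣ N ∧ (v : ℕ) ∉ Smin := by
    intro v
    have h0 : v ∈ Tc ↔ (v : ℕ) ∈ N.primeFactors.filter (· ∉ Smin) :=
      Finset.mem_subtype (p := Nat.Prime) (s := N.primeFactors.filter (· ∉ Smin)) (a := v)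
    rw [h0, Finset.mem_filter, Nat.mem_primeFactors]
    constructor
    · rintro ⟨⟨-, h1, -⟩, h2⟩
      exact ⟨h1, h2⟩
    · rintro ⟨h1, h2⟩
      exact ⟨⟨v.2, h1, hN0.ne'⟩, h2⟩
  have hTcp : ∀ v ∈ Tc, (v : ℕ) ≠ p := by
    intro v hv h
    exact ((hTc v).1 hv).2 (h ▸ hpSmin)
  have hTcunr : ∀ v : ↥Tc, MltL1Unram W p ((v : Nat.Primes) : ℕ) := by
    intro v
    have h1 : ¬ ¬ ρbar.IsUnramifiedAt ((v : Nat.Primes) : ℕ) := fun h =>
      ((hTc v).1 v.2).2 ((hSmin _ (v : Nat.Primes).2 (hTcp v v.2)).2 h)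
    exact mlti_unram_of_rep W p (ResidueField 𝒪) hΔ (not_not.mp h1)
  have hCv : ∀ v : ↥Tc, MltL1CPrime W p ((v : Nat.Primes) : ℕ) := fun v =>
    hC _ (v : Nat.Primes).2 ((hTc v).1 v.2).1 (hTcp v v.2) (hTcunr v)
  -- the valuations
  have hval : ∀ v : ↥Tc, ∃ a u : ℕ, ((v : Nat.Primes) : ℕ) = 1 + p ^ a * u ∧ ¬ p ∣ u ∧ 0 < a :=
    fun v => iha_exists_val hp (v : Nat.Primes).2.one_lt (hCv v).one_mod
  choose av uv hav huv hav0 using hval
  have hav_le : ∀ v : ↥Tc, av v ≤ Amax := by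
    intro v
    have h1 : av v = padicValNat p (((v : Nat.Primes) : ℕ) - 1) :=
      (ihq_padicValNat_eq hp (hav v) (huv v)).symm
    rw [h1, hAmax]
    exact Finset.single_le_sum (f := fun r => padicValNat p (r - 1)) (fun _ _ => Nat.zero_le _)
      (Nat.mem_primeFactors.mpr ⟨(v : Nat.Primes).2, ((hTc v).1 v.2).1, hN0.ne'⟩)
  -- Frobenius elements and generators
  obtain ⟨φv, σv, hφv, hσv⟩ := ihg_exists_frob_gen p Tc hTcp
  -- the uniformiser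
  obtain ⟨ϖ, hϖirr⟩ := IsDiscreteValuationRing.exists_irreducible 𝒪
  have hϖ : maximalIdeal 𝒪 = Ideal.span {ϖ} := hϖirr.maximalIdeal_eq
  have hϖ0 : ϖ ≠ 0 := hϖirr.ne_zero
  -- the roots of unity
  have hμex : ∀ v : ↥Tc, ∃ μ : Finset 𝒪ˣ,
      (Polynomial.X ^ (p ^ av v) - 1 : Polynomial 𝒪) =
        (Polynomial.X - 1) * ∏ ζ ∈ μ, (Polynomial.X - Polynomial.C (ζ : 𝒪)) ∧
      (∀ ζ ∈ μ, (ζ : 𝒪) - 1 ∈ maximalIdeal 𝒪) ∧ (∀ ζ ∈ μ, (ζ : 𝒪) ^ 2 ≠ 1) ∧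
      (∀ ζ ∈ μ, ζ ^ (p ^ av v) = 1 ∧ ζ ≠ 1) ∧
      ∃ ζ ∈ μ, IsPrimitiveRoot (ζ : 𝒪) (p ^ av v) := by
    intro v
    have h1 : IsPrimitiveRoot (ζ₀ ^ (p ^ (Amax - av v))) (p ^ av v) := by
      refine hζ₀.pow (pow_pos hp.pos _) ?_
      rw [← pow_add, Nat.sub_add_cancel (hav_le v)]
    obtain ⟨μ, h2, h3, h4, h5⟩ := ihta_exists_mu hp hp2 hp𝒪 (av v) _ h1
    refine ⟨μ, h2, h3, h4, h5, ?_⟩
    set z : 𝒪 := ζ₀ ^ (p ^ (Amax - av v)) with hz
    have hz1 : z ≠ 1 := by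
      intro h
      have h7 : p ^ av v = 1 := by
        have := h1.eq_orderOf
        rw [h, orderOf_one] at this
        exact this
      have h8 : 1 < p ^ av v := Nat.one_lt_pow (hav0 v).ne' hp.one_lt
      omega
    have h6 := congrArg (Polynomial.eval z) h2
    rw [Polynomial.eval_sub, Polynomial.eval_pow, Polynomial.eval_X, Polynomial.eval_one,
      h1.pow_eq_one, sub_self, Polynomial.eval_mul, Polynomial.eval_sub, Polynomial.eval_X,
      Polynomial.eval_one, Polynomial.eval_prod] at h6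
    rcases mul_eq_zero.mp h6.symm with h7 | h7
    · exact absurd (sub_eq_zero.mp h7) hz1
    · obtain ⟨ζ, hζμ, hζ⟩ := Finset.prod_eq_zero_iff.mp h7
      rw [Polynomial.eval_sub, Polynomial.eval_X, Polynomial.eval_C, sub_eq_zero] at hζ
      exact ⟨ζ, hζμ, by rw [← hζ]; exact h1⟩
  choose μ hμ hμ1 hμ2 hμ3 hμ4 using hμex
  -- the signs
  have hcsex : ∀ v : ↥Tc, ∃ cs : 𝒪ˣ, (cs : 𝒪) ^ 2 = 1 ∧
      ρbar.ρ (φv v) = residue 𝒪 (cs : 𝒪) • 1 := fun v =>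
    mlti_sign W p hΔ (v : Nat.Primes).2 (hCv v).ne_p (hCv v).one_mod
      (tw_primeLocalPlace_liesOver v) (hφv v v.2)
      ((hCv v).scalar _ (tw_primeLocalPlace_liesOver v) _ (hφv v v.2))
  choose cs hcs hcsρ using hcsex
  have hσρ : ∀ v : ↥Tc, ρbar.ρ (σv v) = 1 := fun v =>
    mlti_inertia_eq_one W p (ResidueField 𝒪) hΔ (hCv v).unram (tw_primeLocalPlace_liesOver v)
      (hσv v v.2).mem
  have hTc1 : ∀ v : ↥Tc, ((((v : Nat.Primes) : ℕ) : 𝒪) - 1) ∈ maximalIdeal 𝒪 := fun v =>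
    iho_sub_one_mem hp𝒪 (v : Nat.Primes).2.pos (hCv v).one_mod
  -- the distinguished prime
  have hqSmin : q ∉ Smin := fun h =>
    (hSmin q hq hqp).1 h (mlti_unramified W p (ResidueField 𝒪) hΔ hqunr)
  set q₀ : ↥Tc := ⟨⟨q, hq⟩, (hTc ⟨q, hq⟩).2 ⟨hqN, hqSmin⟩⟩ with hq₀
  -- the modular side
  obtain ⟨S, hS1, hS2, d, hd, hHecke⟩ := hmod W hΔ hss hirr N hN0 hNsq hpN hmodN hmin hC 𝒪 hp𝒪 hsq hord b
    Smin hpSmin hSminprime hSmin Tc hTc φv σv hφv hσv ϖ hϖ μ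
    (fun v => ⟨av v, uv v, hav v, huv v, hav0 v, hμ v, hμ3 v, hμ4 v⟩) cs hcs hcsρ q₀
  -- `[G1]`
  have hTcSmin : ∀ v ∈ Tc, (v : ℕ) ∉ Smin := fun v hv => ((hTc v).1 hv).2
  obtain ⟨r, hG1⟩ := khg_main p hp2 hp𝒪 ρbar (mltr_habs W p (ResidueField 𝒪) hΔ hp2 hirr)
    (mltr_hdet W p (ResidueField 𝒪) hΔ) (mltr_hsplit W p (ResidueField 𝒪) hΔ hp2 hsq)
    (hTWall W hΔ hss hirr (ResidueField 𝒪)) (hFOS W hΔ hss hirr hpΔ hnf (ResidueField 𝒪)) b S Smin hpSmin hS1 hSmin Tc hTcSmin hS2 φv σv hφv hσv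
    (fun v hv => ⟨_, hcsρ ⟨v, hv⟩⟩)
  -- the assembly
  exact iha_main p ρbar b (fun _ _ _ ρ => ρ.IsOrdinaryAt p)
    (iho_isUnit_two hp hp2 hp𝒪) ϖ hϖ hϖ0 hp𝒪 S Smin Tc φv σv μ hμ1 hμ2 cs hcs hcsρ hσρ hTc1
    q₀ r d hd hG1
    (fun n qv h1 h2 h3 => iha_level_of_hecke p ρbar b (fun _ _ _ ρ => ρ.IsOrdinaryAt p) hp2' hp𝒪
      (by exact_mod_cast hp.ne_zero) Smin Tc φv σv ϖ μ cs q₀ r d qv n
      (hHecke r n qv h1 h2 h3))


/-- **case (C), ordinary case, every odd `p`** -/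
theorem mlti_ihara_ord_all (p : ℕ) [Fact p.Prime] (hp2 : p ≠ 2) (hTW : MltIhTW p)
    (hmaz : MltL1Mazur p) (hFOS : MltIFirstOrderStrict p) (hRO : MltIResOrd p) :
    MltL1IharaOrdNF p :=
  mlti_ihara_ord p hp2 hTW hFOS hRO (mlti_modular_ord_all p hp2 hTW hmaz)

/-- **case (C) in helper3's literal `MltL1Ihara'`, every odd `p`** -/
theorem mlti_ihara'_all (p : ℕ) [Fact p.Prime] (hp2 : p ≠ 2) (hTW : MltIhTW p)
    (hmaz : MltL1Mazur p) (hFOS : MltIFirstOrderStrict p) (hRO : MltIResOrd p) :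
    MltL1Ihara' p :=
  mlti_ihara'_of_cases p (mlti_ihara_flat_all p hp2 hTW hmaz)
    (mlti_ihara_ord_all p hp2 hTW hmaz hFOS hRO)

end Fermat.Agent.MLT
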